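import Mathlib
import Fermat.Agent.H27.Igusa.Chain
import Fermat.Agent.H27.Igusa.Track
import Fermat.Agent.H76.IgusaLocal

/-!
# P-IGUSA, subtask IG-E1: relations between the levels (helper2)

Formal consequences of `HeckeDataOver`: the modular equation, the unit equation and the
interpolation identity at every level `n`, plus elementary facts on `jLev`.
-/

set_option autoImplicit false

noncomputable section

open HahnSeries ModularCurve Polynomial Fermat.Agent.H27

namespace Fermat.Agent.H2

section Coefficients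

variable (k : Type*) [CommRing k]

theorem jLev_coeff_neg (n : ℕ) (hn : n ≠ 0) : (jLev k n).coeff (-(n : ℤ)) = 1 := by
  have : NeZero n := ⟨hn⟩
  have h : (-(n : ℤ)) = (n : ℤ) * (-1) := by ring
  rw [jLev_eq, h, qExpand_coeff_mul, coeff_jqModC_neg_one]

theorem jLev_coeff_of_lt (n : ℕ) (hn : n ≠ 0) {m : ℤ} (hm : m < -(n : ℤ)) :
    (jLev k n).coeff m = 0 := by
  have : NeZero n := ⟨hn⟩
  rw [jLev_eq, qExpand_coeff_ite]
  split_ifs with h
  · obtain ⟨c, rfl⟩ := h
    have hnpos : (0 : ℤ) < n := by exact_mod_cast Nat.pos_of_ne_zero hn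
    rw [Int.mul_ediv_cancel_left _ hnpos.ne']
    refine coeff_jqModC_of_lt k ?_
    by_contra hc
    push Not at hc
    nlinarith
  · rfl

end Coefficients

section Transport

variable {k : Type*} [CommRing k]

/-- transport of a value of a two-variable polynomial along a ring endomorphism -/
theorem map_eval_evalAt (φ : LaurentSeries k →+* LaurentSeries k)
    (P : Polynomial (Polynomial ℤ)) (x a : LaurentSeries k) :
    φ ((P.map (evalAt x)).eval a) = (P.map (evalAt (φ x))).eval (φ a) :=
  map_eval_map φ P x a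

theorem map_eval_derivative_evalAt (φ : LaurentSeries k →+* LaurentSeries k)
    (P : Polynomial (Polynomial ℤ)) (x a : LaurentSeries k) :
    φ (((P.map (evalAt x)).derivative).eval a)
      = ((P.map (evalAt (φ x))).derivative).eval (φ a) := by
  rw [Polynomial.derivative_map, Polynomial.derivative_map, map_eval_evalAt]

end Transport

section LevelOne

variable {k : Type*} [CommRing k] {p : ℕ} [NeZero p] {ζ : kˣ} (D : HeckeDataOver p k ζ)

theorem Phi_rel_one : (D.Φ.map (evalAt (jqModC k))).eval (qExpand k p (jqModC k)) = 0 := by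
  apply qExpand_injective p
  rw [map_zero, map_eval_evalAt]
  have h := D.Φ_factor
  rw [baseS] at h
  rw [h, rootInf]
  simp [Polynomial.eval_mul]

theorem Phi_rel_symm_one :
    (D.Φ.map (evalAt (qExpand k p (jqModC k)))).eval (jqModC k) = 0 := by
  have h := D.Φ_factor
  rw [baseS] at h
  rw [h, Polynomial.eval_mul, Polynomial.eval_prod]
  have h0 : 0 ∈ Finset.range p := Finset.mem_range.mpr (Nat.pos_of_ne_zero (NeZero.ne p))
  rw [Finset.prod_eq_zero h0, mul_zero]
  simp [rootFin]

theorem Psi_rel_one : (D.Ψ.map (evalAt (jqModC k))).eval (unitOne k p) = 0 := by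
  apply qExpand_injective p
  rw [map_zero, map_eval_evalAt, ← unitInf_eq_qExpand_unitOne]
  exact D.Ψ_root

theorem L_rel_one : (D.L.map (evalAt (jqModC k))).eval (qExpand k p (jqModC k)) =
    unitOne k p *
      ((D.Φ.map (evalAt (jqModC k))).derivative).eval (qExpand k p (jqModC k)) := by
  apply qExpand_injective p
  rw [map_mul, map_eval_evalAt, map_eval_derivative_evalAt, ← unitInf_eq_qExpand_unitOne]
  exact D.L_inf

end LevelOne

section Main

variable (k : Type*) [Field k] (p : ℕ) [NeZero p] (ζ : kˣ) (D : HeckeDataOver p k ζ)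

theorem Phi_rel (n : ℕ) (hn : n ≠ 0) :
    (D.Φ.map (evalAt (jLev k n))).eval (jLev k (n * p)) = 0 := by
  have : NeZero n := ⟨hn⟩
  have h := congrArg (qExpand k n) (Phi_rel_one D)
  rw [map_zero, map_eval_evalAt, qExpand_qExpand] at h
  rwa [jLev_eq, jLev_eq]

theorem Phi_rel_symm (n : ℕ) (hn : n ≠ 0) :
    (D.Φ.map (evalAt (jLev k (n * p)))).eval (jLev k n) = 0 := by
  have : NeZero n := ⟨hn⟩
  have h := congrArg (qExpand k n) (Phi_rel_symm_one D)
  rw [map_zero, map_eval_evalAt, qExpand_qExpand] at h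
  rwa [jLev_eq, jLev_eq]

theorem Psi_rel (n : ℕ) (hn : n ≠ 0) :
    (D.Ψ.map (evalAt (jLev k n))).eval (unitLev k n p) = 0 := by
  have : NeZero n := ⟨hn⟩
  have h := congrArg (qExpand k n) (Psi_rel_one D)
  rw [map_zero, map_eval_evalAt] at h
  rwa [jLev_eq, unitLev_eq]

theorem L_rel (n : ℕ) (hn : n ≠ 0) :
    (D.L.map (evalAt (jLev k n))).eval (jLev k (n * p)) =
      unitLev k n p * ((D.Φ.map (evalAt (jLev k n))).derivative).eval (jLev k (n * p)) := by
  have : NeZero n := ⟨hn⟩
  have h := congrArg (qExpand k n) (L_rel_one D)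
  rw [map_mul, map_eval_evalAt, map_eval_derivative_evalAt, qExpand_qExpand] at h
  rwa [jLev_eq, jLev_eq, unitLev_eq]

theorem rootInf_sub_rootFin_ne_zero (hp : p.Prime) (b : ℕ) :
    rootInf k p - rootFin (ζ ^ b) ≠ 0 := by
  intro h
  have h1 := congrArg (fun f : LaurentSeries k => f.coeff (-((p * p : ℕ) : ℤ))) h
  simp only [HahnSeries.coeff_sub, HahnSeries.coeff_zero] at h1
  have hpp : p * p ≠ 0 := mul_ne_zero hp.ne_zero hp.ne_zero
  have h2 : (rootInf k p).coeff (-((p * p : ℕ) : ℤ)) = 1 := by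
    have : NeZero (p * p) := ⟨hpp⟩
    have h0 := jLev_coeff_neg k (p * p) hpp
    rw [jLev_eq] at h0
    rw [rootInf, qExpand_qExpand]
    exact h0
  have h3 : (rootFin (ζ ^ b)).coeff (-((p * p : ℕ) : ℤ)) = 0 := by
    rw [rootFin, twist_coeff, coeff_jqModC_of_lt, mul_zero]
    have := hp.two_le
    push_cast
    nlinarith
  rw [h2, h3] at h1
  simp at h1

theorem Phi_deriv_inf_ne_zero (hp : p.Prime) :
    ((D.Φ.map (evalAt (baseS k p))).derivative).eval (rootInf k p) ≠ 0 := by
  rw [D.Φ_factor, Polynomial.derivative_mul]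
  simp only [Polynomial.eval_add, Polynomial.eval_mul, Polynomial.eval_sub, Polynomial.eval_X,
    Polynomial.eval_C, sub_self, zero_mul, add_zero, Polynomial.derivative_sub,
    Polynomial.derivative_X, Polynomial.derivative_C, sub_zero, one_mul,
    Polynomial.eval_prod]
  exact Finset.prod_ne_zero_iff.mpr fun b _ => rootInf_sub_rootFin_ne_zero k p ζ hp b

theorem Phi_deriv_ne_zero (hp : p.Prime) (n : ℕ) (hn : n ≠ 0) :
    ((D.Φ.map (evalAt (jLev k n))).derivative).eval (jLev k (n * p)) ≠ 0 := by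
  have : NeZero n := ⟨hn⟩
  have h1 : ((D.Φ.map (evalAt (jqModC k))).derivative).eval (qExpand k p (jqModC k)) ≠ 0 := by
    intro h0
    have := congrArg (qExpand k p) h0
    rw [map_zero, map_eval_derivative_evalAt] at this
    exact Phi_deriv_inf_ne_zero k p ζ D hp this
  intro h0
  apply h1
  apply qExpand_injective n
  rw [map_zero, map_eval_derivative_evalAt, qExpand_qExpand, ← jLev_eq, ← jLev_eq]
  exact h0

theorem Phi_factor_lev (hp : p.Prime) (hζ : IsPrimitiveRoot (ζ : k) p) (n : ℕ) (hn : n ≠ 0)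
    (hpn : ¬ p ∣ n) :
    D.Φ.map (evalAt (qExpand k p (jLev k n))) =
      (Polynomial.X - Polynomial.C (qExpand k p (jLev k (n * p)))) *
        ∏ b ∈ Finset.range p, (Polynomial.X - Polynomial.C (twist (ζ ^ b) (jLev k n))) := by
  have : NeZero n := ⟨hn⟩
  have h := congrArg (Polynomial.map (qExpand k n)) D.Φ_factor
  rw [Polynomial.map_map, comp_evalAt] at h
  simp only [Polynomial.map_mul, Polynomial.map_sub, Polynomial.map_X, Polynomial.map_C,
    Polynomial.map_prod] at h
  have e1 : qExpand k p (jLev k n) = qExpand k n (baseS k p) := by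
    rw [jLev_eq, baseS, qExpand_qExpand, qExpand_qExpand]
    exact qExpand_congr (mul_comm _ _) _
  have e2 : qExpand k p (jLev k (n * p)) = qExpand k n (rootInf k p) := by
    rw [jLev_eq, rootInf, qExpand_qExpand, qExpand_qExpand, qExpand_qExpand]
    exact qExpand_congr (by ring) _
  have hζp : ζ ^ p = 1 := by
    have := hζ.pow_eq_one
    exact Units.ext (by simpa using this)
  have e3 : ∀ b, twist (ζ ^ b) (jLev k n) = qExpand k n (rootFin (ζ ^ ((b * n) % p))) := by
    intro b
    rw [jLev_eq, twist_qExpand, rootFin]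
    congr 2
    rw [← pow_mul]
    conv_lhs => rw [← Nat.mod_add_div (b * n) p]
    rw [_root_.pow_add, pow_mul, hζp, one_pow, mul_one]
  rw [e1, e2]
  rw [show evalAt (qExpand k n (baseS k p)) = evalAtR (qExpand k n (baseS k p)) from rfl, h]
  congr 1
  simp only [e3]
  have hcop : Nat.gcd p n = 1 := (Nat.Prime.coprime_iff_not_dvd hp).mpr hpn
  have hmaps : ∀ a ∈ Finset.range p, (a * n) % p ∈ Finset.range p := fun a _ =>
    Finset.mem_range.mpr (Nat.mod_lt _ hp.pos)
  have hinj : Set.InjOn (fun b : ℕ => (b * n) % p) (Finset.range p : Set ℕ) := by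
    intro a ha b hb hab
    simp only [Finset.coe_range, Set.mem_Iio] at ha hb
    have h1 : a * n ≡ b * n [MOD p] := hab
    have h2 : a ≡ b [MOD p] := Nat.ModEq.cancel_right_of_coprime hcop h1
    have h3 : a % p = b % p := h2
    rwa [Nat.mod_eq_of_lt ha, Nat.mod_eq_of_lt hb] at h3
  refine (Finset.prod_nbij (fun b : ℕ => (b * n) % p) hmaps hinj ?_ fun a _ => rfl).symm
  exact Finset.surjOn_of_injOn_of_card_le _ hmaps hinj le_rfl

theorem jLev_not_mem_range_qExpand (hp : p.Prime) (n : ℕ) (hn : n ≠ 0) (hpn : ¬ p ∣ n) :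
    jLev k n ∉ Set.range (qExpand k p) := by
  rw [Fermat.Agent.H76.mem_range_qExpand_iff]
  intro h
  have h1 := h (-(n : ℤ)) (by
    rw [Int.dvd_neg, Int.natCast_dvd_natCast]
    exact hpn)
  rw [jLev_coeff_neg k n hn] at h1
  exact one_ne_zero h1

theorem jLev_injective {m n : ℕ} (hm : m ≠ 0) (hn : n ≠ 0) (h : jLev k m = jLev k n) :
    m = n := by
  by_contra hne
  rcases Nat.lt_or_gt_of_ne hne with hlt | hlt
  · have h1 := jLev_coeff_neg k n hn
    rw [← h, jLev_coeff_of_lt k m hm (by omega)] at h1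
    exact zero_ne_one h1
  · have h1 := jLev_coeff_neg k m hm
    rw [h, jLev_coeff_of_lt k n hn (by omega)] at h1
    exact zero_ne_one h1

end Main

end Fermat.Agent.H2
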