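import Mathlib
import Fermat.Agent.H23.PlaceBasic

/-!
# P-ES / KL-BR (helper2): the place at the cusp `∞`

`E0 / K0` a field with a ring homomorphism `ι' : E0 → L((q))` under which the nonzero constants
have `q`-order `0` and some element `x` has `q`-order `-1`.  Then the `q`-order is the `ord` of a
place of `E0 / K0`.

* `klbr_cusp_place` : `∃ P : Place K0 E0, ∀ f, P.ord f = (ι' f).order`.
-/

set_option autoImplicit false

noncomputable section

open AlgebraicCurve

namespace Fermat.Agent.H2

section cusp

variable {K0 L E0 : Type} [Field K0] [Field L] [Field E0] [Algebra K0 E0]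

/-- the valuation subring of the `q`-order -/
def cuspValuationSubring (ι' : E0 →+* LaurentSeries L) : ValuationSubring E0 where
  carrier := {f | f = 0 ∨ 0 ≤ (ι' f).order}
  zero_mem' := Or.inl rfl
  one_mem' := Or.inr (by rw [map_one, HahnSeries.order_one])
  add_mem' := by
    rintro f g hf hg
    by_cases hfg : f + g = 0
    · exact Or.inl hfg
    right
    rcases hf with rfl | hf
    · rcases hg with rfl | hg
      · simp at hfg
      · rwa [zero_add]
    rcases hg with rfl | hg
    · rwa [add_zero]
    have h1 : ι' f + ι' g ≠ 0 := by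
      rw [← map_add]
      exact (map_ne_zero ι').mpr hfg
    have := HahnSeries.min_order_le_order_add h1
    rw [map_add]
    exact le_trans (le_min hf hg) this
  mul_mem' := by
    rintro f g hf hg
    rcases hf with rfl | hf
    · exact Or.inl (zero_mul _)
    rcases hg with rfl | hg
    · exact Or.inl (mul_zero _)
    by_cases hf0 : f = 0
    · exact Or.inl (by rw [hf0, zero_mul])
    by_cases hg0 : g = 0
    · exact Or.inl (by rw [hg0, mul_zero])
    right
    rw [map_mul, HahnSeries.order_mul ((map_ne_zero ι').mpr hf0) ((map_ne_zero ι').mpr hg0)]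
    exact add_nonneg hf hg
  neg_mem' := by
    rintro f hf
    rcases hf with rfl | hf
    · exact Or.inl neg_zero
    · right
      rwa [map_neg, HahnSeries.order_neg]
  mem_or_inv_mem' := by
    intro f
    by_cases hf0 : f = 0
    · exact Or.inl (Or.inl hf0)
    have h1 : (ι' f).order + (ι' f⁻¹).order = 0 := by
      rw [← HahnSeries.order_mul ((map_ne_zero ι').mpr hf0)
        ((map_ne_zero ι').mpr (inv_ne_zero hf0)), ← map_mul, mul_inv_cancel₀ hf0, map_one,
        HahnSeries.order_one]
    by_cases h : 0 ≤ (ι' f).order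
    · exact Or.inl (Or.inr h)
    · right
      right
      rw [not_le] at h
      omega

theorem mem_cuspValuationSubring (ι' : E0 →+* LaurentSeries L) (f : E0) :
    f ∈ cuspValuationSubring ι' ↔ f = 0 ∨ 0 ≤ (ι' f).order := Iff.rfl

theorem klbr_order_inv (ι' : E0 →+* LaurentSeries L) (f : E0) :
    (ι' f⁻¹).order = -(ι' f).order := by
  by_cases hf0 : f = 0
  · simp [hf0]
  have h1 : (ι' f).order + (ι' f⁻¹).order = 0 := by
    rw [← HahnSeries.order_mul ((map_ne_zero ι').mpr hf0)
      ((map_ne_zero ι').mpr (inv_ne_zero hf0)), ← map_mul, mul_inv_cancel₀ hf0, map_one,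
      HahnSeries.order_one]
  omega

theorem klbr_order_mul (ι' : E0 →+* LaurentSeries L) {f g : E0} (hf : f ≠ 0) (hg : g ≠ 0) :
    (ι' (f * g)).order = (ι' f).order + (ι' g).order := by
  rw [map_mul, HahnSeries.order_mul ((map_ne_zero ι').mpr hf) ((map_ne_zero ι').mpr hg)]

/-- the valuation ring of the `q`-order is a principal ideal ring -/
theorem cuspValuationSubring_isPrincipalIdealRing (ι' : E0 →+* LaurentSeries L) :
    IsPrincipalIdealRing (cuspValuationSubring ι') := by
  classical
  refine ⟨fun I => ?_⟩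
  by_cases hI : I = ⊥
  · rw [hI]
    exact bot_isPrincipal
  -- the minimal order on `I`
  have hex : ∃ n : ℕ, ∃ f ∈ I, f ≠ 0 ∧ (ι' (f : E0)).order = n := by
    obtain ⟨f, hfI, hf0⟩ := Submodule.exists_mem_ne_zero_of_ne_bot hI
    have hf0' : (f : E0) ≠ 0 := fun h => hf0 (Subtype.ext h)
    have hnn : 0 ≤ (ι' (f : E0)).order := by
      rcases f.2 with h | h
      · exact absurd h hf0'
      · exact h
    exact ⟨(ι' (f : E0)).order.toNat, f, hfI, hf0, (Int.toNat_of_nonneg hnn).symm⟩
  obtain ⟨f0, hf0I, hf00, hf0n⟩ := Nat.find_spec hex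
  have hmin : ∀ g ∈ I, g ≠ 0 → (ι' (f0 : E0)).order ≤ (ι' (g : E0)).order := by
    intro g hgI hg0
    have hg0' : (g : E0) ≠ 0 := fun h => hg0 (Subtype.ext h)
    have hnn : 0 ≤ (ι' (g : E0)).order := by
      rcases g.2 with h | h
      · exact absurd h hg0'
      · exact h
    have := Nat.find_min' hex ⟨g, hgI, hg0, (Int.toNat_of_nonneg hnn).symm⟩
    rw [hf0n]
    omega
  have hf00' : (f0 : E0) ≠ 0 := fun h => hf00 (Subtype.ext h)
  refine ⟨⟨f0, ?_⟩⟩
  apply le_antisymm
  · intro g hgI
    rw [Submodule.mem_span_singleton]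
    by_cases hg0 : g = 0
    · exact ⟨0, by rw [hg0, zero_smul]⟩
    have hg0' : (g : E0) ≠ 0 := fun h => hg0 (Subtype.ext h)
    have hq : (g : E0) * (f0 : E0)⁻¹ ∈ cuspValuationSubring ι' := by
      right
      rw [klbr_order_mul ι' hg0' (inv_ne_zero hf00'), klbr_order_inv]
      have := hmin g hgI hg0
      omega
    refine ⟨⟨_, hq⟩, ?_⟩
    apply Subtype.ext
    show (g : E0) * (f0 : E0)⁻¹ * (f0 : E0) = g
    rw [mul_assoc, inv_mul_cancel₀ hf00', mul_one]
  · rw [Submodule.span_singleton_le_iff_mem]
    exact hf0I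

/-- the place of `E0 / K0` at the cusp `∞` -/
def cuspPlace (ι' : E0 →+* LaurentSeries L)
    (hconst : ∀ a : K0, a ≠ 0 → (ι' (algebraMap K0 E0 a)).order = 0)
    (x : E0) (hx : (ι' x).order = -1) : Place K0 E0 where
  toValuationSubring := cuspValuationSubring ι'
  algebraMap_mem' := by
    intro a
    by_cases ha : a = 0
    · left
      rw [ha, map_zero]
    · right
      rw [hconst a ha]
  ne_top' := by
    intro h
    have hxm : x ∈ cuspValuationSubring ι' := by
      rw [h]
      exact ValuationSubring.mem_top x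
    rcases hxm with h0 | h0
    · rw [h0, map_zero, HahnSeries.order_zero] at hx
      omega
    · rw [hx] at h0
      omega
  isPrincipalIdealRing' := cuspValuationSubring_isPrincipalIdealRing ι'

/-- **the cusp place**: the `ord` of `cuspPlace` is the `q`-order -/
theorem cuspPlace_ord (ι' : E0 →+* LaurentSeries L)
    (hconst : ∀ a : K0, a ≠ 0 → (ι' (algebraMap K0 E0 a)).order = 0)
    (x : E0) (hx : (ι' x).order = -1) (f : E0) :
    (cuspPlace ι' hconst x hx).ord f = (ι' f).order := by
  set P := cuspPlace ι' hconst x hx with hP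
  rcases eq_or_ne f 0 with rfl | hf
  · simp
  have hx0 : x ≠ 0 := by
    rintro rfl
    rw [map_zero, HahnSeries.order_zero] at hx
    omega
  -- order is `0` on units
  have hunit : ∀ u : P.toValuationSubringˣ, (ι' ((u : P.toValuationSubring) : E0)).order = 0 := by
    intro u
    have hu0 : ((u : P.toValuationSubring) : E0) ≠ 0 := by
      intro h
      have := congrArg Subtype.val (Units.mul_inv u)
      simp only [MulMemClass.coe_mul, OneMemClass.coe_one] at this
      rw [h, zero_mul] at this
      exact zero_ne_one this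
    have h1 : 0 ≤ (ι' ((u : P.toValuationSubring) : E0)).order := by
      rcases (u : P.toValuationSubring).2 with h | h
      · exact absurd h hu0
      · exact h
    have hinv : (((u⁻¹ : P.toValuationSubringˣ) : P.toValuationSubring) : E0) =
        ((u : P.toValuationSubring) : E0)⁻¹ := by
      have h4 : ((u : P.toValuationSubring) : E0) *
          (((u⁻¹ : P.toValuationSubringˣ) : P.toValuationSubring) : E0) = 1 :=
        Subtype.ext_iff.mp (Units.mul_inv u)
      exact eq_inv_of_mul_eq_one_right h4
    have h2 : 0 ≤ (ι' (((u⁻¹ : P.toValuationSubringˣ) : P.toValuationSubring) : E0)).order := by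
      rcases ((u⁻¹ : P.toValuationSubringˣ) : P.toValuationSubring).2 with h | h
      · rw [hinv] at h
        exact absurd (inv_eq_zero.mp h) hu0
      · exact h
    rw [hinv, klbr_order_inv] at h2
    omega
  -- a uniformiser
  obtain ⟨π, hπ⟩ := IsDiscreteValuationRing.exists_irreducible P.toValuationSubring
  have hπ0 : (π : E0) ≠ 0 := by
    intro h
    exact hπ.ne_zero (Subtype.ext h)
  -- `x⁻¹ = u * π ^ n`
  have hxord : (ι' x⁻¹).order = 1 := by
    rw [klbr_order_inv, hx]
    norm_num
  obtain ⟨u, hu⟩ := P.exists_unit_mul_zpow (inv_ne_zero hx0) hπ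
  obtain ⟨u', hu'⟩ := P.exists_unit_mul_zpow hf hπ
  have hzpow : ∀ n : ℤ, (ι' ((π : E0) ^ n)).order = n * (ι' (π : E0)).order := by
    intro n
    induction n using Int.induction_on with
    | zero => simp [HahnSeries.order_one]
    | succ k ih =>
      rw [zpow_add_one₀ hπ0, klbr_order_mul ι' (zpow_ne_zero _ hπ0) hπ0, ih]
      ring
    | pred k ih =>
      rw [zpow_sub_one₀ hπ0, klbr_order_mul ι' (zpow_ne_zero _ hπ0) (inv_ne_zero hπ0), ih,
        klbr_order_inv]
      ring
  have hu0 : ((u : P.toValuationSubring) : E0) ≠ 0 := by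
    intro h
    rw [h, zero_mul] at hu
    exact inv_ne_zero hx0 hu
  have hu'0 : ((u' : P.toValuationSubring) : E0) ≠ 0 := by
    intro h
    rw [h, zero_mul] at hu'
    exact hf hu'
  have hπnn : 0 ≤ (ι' (π : E0)).order := by
    rcases π.2 with h | h
    · exact absurd h hπ0
    · exact h
  -- `1 = ord_P(x⁻¹) * order π`, so `order π = 1`
  have h1 : (1 : ℤ) = P.ord x⁻¹ * (ι' (π : E0)).order := by
    have := congrArg (fun y => (ι' y).order) hu
    beta_reduce at this
    rw [hxord, klbr_order_mul ι' hu0 (zpow_ne_zero _ hπ0), hunit u, hzpow, zero_add] at this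
    exact this
  have hπ1 : (ι' (π : E0)).order = 1 := by
    have hdvd : (ι' (π : E0)).order ∣ 1 := ⟨P.ord x⁻¹, by rw [h1]; ring⟩
    exact Int.eq_one_of_dvd_one hπnn hdvd
  have := congrArg (fun y => (ι' y).order) hu'
  beta_reduce at this
  rw [klbr_order_mul ι' hu'0 (zpow_ne_zero _ hπ0), hunit u', hzpow, hπ1, zero_add, mul_one]
    at this
  exact this.symm

/-- **KL-BR (cusp)**: there is a place of `E0 / K0` whose `ord` is the `q`-order. -/
theorem klbr_cusp_place (ι' : E0 →+* LaurentSeries L)
    (hconst : ∀ a : K0, a ≠ 0 → (ι' (algebraMap K0 E0 a)).order = 0)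
    (x : E0) (hx : (ι' x).order = -1) :
    ∃ P : Place K0 E0, ∀ f : E0, P.ord f = (ι' f).order :=
  ⟨cuspPlace ι' hconst x hx, cuspPlace_ord ι' hconst x hx⟩

end cusp

end Fermat.Agent.H2
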