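import Mathlib
import Fermat.Agent.H29.ESB.Interfaces
import Fermat.Agent.H23.PlaceBasic
import Fermat.Agent.H29.ResidueConst

/-!
# P-ES / ESB-2b : the Gauss formula for a constant field extension (helper2)

`E : ConstExt k K Fk FK`, `v` a place of `Fk`, `w` a place of `FK` whose valuation ring restricts
to that of `v`.  Then `w` is unramified over `v` and
`ord_w (∑ e_i bc f_i) = min ord_v f_i` for `k`-linearly independent constants `e_i ∈ K`.
-/

set_option autoImplicit false

noncomputable section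

open AlgebraicCurve IntermediateField

namespace Fermat.Agent.H2

open Fermat.Agent.H29 Fermat.Agent.H23

section

variable {k K Fk FK : Type} [Field k] [Field K] [Field Fk] [Field FK]
  [Algebra k Fk] [Algebra K FK]

/-- `k`-linear independence of constants of `K` in the form used by `ConstExt.ld`. -/
def KIndep (E : ConstExt k K Fk FK) {n : ℕ} (e : Fin n → K) : Prop :=
  ∀ c : Fin n → k, ∑ i, E.ι (c i) * e i = 0 → ∀ i, c i = 0

/-- A finite sum of elements which are zero or of order `≥ d` is zero or of order `≥ d`. -/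
theorem esb_ord_sum_ge (w : Place K FK) (d : ℤ) {ι : Type*} (s : Finset ι) (g : ι → FK)
    (hg : ∀ i ∈ s, g i = 0 ∨ d ≤ w.ord (g i)) :
    (∑ i ∈ s, g i) = 0 ∨ d ≤ w.ord (∑ i ∈ s, g i) := by
  classical
  induction s using Finset.induction_on with
  | empty => left; simp
  | insert a s ha ih =>
    rw [Finset.sum_insert ha]
    by_cases h0 : g a + ∑ i ∈ s, g i = 0
    · exact Or.inl h0
    · right
      exact ord_add_ge w h0 d (hg a (Finset.mem_insert_self a s))
        (ih fun i hi => hg i (Finset.mem_insert_of_mem hi))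

/-- **Normal form** (Step 2): every `K`-combination of elements of `bc Fk` is a combination with
`k`-linearly independent coefficients. -/
theorem esb_normal_form (E : ConstExt k K Fk FK) (n : ℕ) (a : Fin n → K) (u : Fin n → Fk) :
    ∃ (r : ℕ) (e : Fin r → K) (u' : Fin r → Fk), KIndep E e ∧
      ∑ i, algebraMap K FK (a i) * E.bc (u i) = ∑ l, algebraMap K FK (e l) * E.bc (u' l) := by
  classical
  let _ : Algebra k K := E.ι.toAlgebra
  have hsmul : ∀ (c : k) (x : K), c • x = E.ι c * x := fun c x => by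
    rw [Algebra.smul_def]; rfl
  set W : Submodule k K := Submodule.span k (Set.range a) with hW
  have : FiniteDimensional k W := FiniteDimensional.span_of_finite k (Set.finite_range a)
  set b := Module.finBasis k W with hb
  set r := Module.finrank k W with hr
  have hamem : ∀ i, a i ∈ W := fun i => Submodule.subset_span ⟨i, rfl⟩
  set e : Fin r → K := fun l => (b l : K) with he
  set cf : Fin n → Fin r → k := fun i l => b.repr ⟨a i, hamem i⟩ l with hcf
  have hrepr : ∀ i, a i = ∑ l, E.ι (cf i l) * e l := by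
    intro i
    have h1 := b.sum_repr ⟨a i, hamem i⟩
    have h2 := congrArg (fun x : W => (x : K)) h1
    simp only [Submodule.coe_sum, Submodule.coe_smul] at h2
    rw [← h2]
    refine Finset.sum_congr rfl fun l _ => ?_
    rw [hsmul]
  refine ⟨r, e, fun l => ∑ i, algebraMap k Fk (cf i l) * u i, ?_, ?_⟩
  · intro c hc
    have hli : LinearIndependent k e :=
      b.linearIndependent.map' W.subtype (Submodule.ker_subtype W)
    rw [Fintype.linearIndependent_iff] at hli
    apply hli c
    rw [← hc]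
    refine Finset.sum_congr rfl fun l _ => ?_
    rw [hsmul]
  · calc ∑ i, algebraMap K FK (a i) * E.bc (u i)
        = ∑ i, ∑ l, algebraMap K FK (e l) * (algebraMap K FK (E.ι (cf i l)) * E.bc (u i)) := by
          refine Finset.sum_congr rfl fun i _ => ?_
          conv_lhs => rw [hrepr i]
          rw [map_sum, Finset.sum_mul]
          refine Finset.sum_congr rfl fun l _ => ?_
          rw [map_mul]
          ring
      _ = ∑ l, ∑ i, algebraMap K FK (e l) * (algebraMap K FK (E.ι (cf i l)) * E.bc (u i)) :=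
          Finset.sum_comm
      _ = ∑ l, algebraMap K FK (e l) * E.bc (∑ i, algebraMap k Fk (cf i l) * u i) := by
          refine Finset.sum_congr rfl fun l _ => ?_
          rw [map_sum, Finset.mul_sum]
          refine Finset.sum_congr rfl fun i _ => ?_
          rw [map_mul, E.bc_algebraMap]

variable [IsAlgClosed k]

/-- The ramification index is well defined: orders of elements of `bc Fk` are multiples of the
order of a uniformiser, and **Step 1** (Gauss formula, scaled by `e₀ = w.ord (bc t)`). -/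
theorem esb_gauss_scaled (E : ConstExt k K Fk FK) (v : Place k Fk) (w : Place K FK)
    (hw : ∀ f : Fk, E.bc f ∈ w.toValuationSubring ↔ f ∈ v.toValuationSubring) :
    ∃ e₀ : ℤ, 0 < e₀ ∧ (∀ f : Fk, f ≠ 0 → w.ord (E.bc f) = e₀ * v.ord f) ∧
      ∀ (n : ℕ) (e : Fin n → K) (f : Fin n → Fk) (m : ℤ), KIndep E e →
        (∀ i, f i = 0 ∨ m ≤ v.ord (f i)) → (∃ i, f i ≠ 0 ∧ v.ord (f i) = m) →
        ∑ i, algebraMap K FK (e i) * E.bc (f i) ≠ 0 ∧
        w.ord (∑ i, algebraMap K FK (e i) * E.bc (f i)) = e₀ * m := by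
  classical
  have := E.x_fin
  have : Algebra.IsAlgebraic k⟮E.x⟯ Fk := Algebra.IsAlgebraic.of_finite _ _
  obtain ⟨π, hπ, hπ1⟩ := exists_irreducible_ord_one v
  set t : Fk := (π : Fk) with ht
  have ht0 : t ≠ 0 := by
    intro h
    rw [h, Place.ord_zero] at hπ1
    exact zero_ne_one hπ1
  have hbc0 : ∀ f : Fk, f ≠ 0 → E.bc f ≠ 0 := fun f hf => (map_ne_zero E.bc).2 hf
  -- (F1) units go to units
  have hF1 : ∀ f : Fk, f ≠ 0 → v.ord f = 0 → w.ord (E.bc f) = 0 := by
    intro f hf hord
    have h1 : 0 ≤ w.ord (E.bc f) :=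
      ord_nonneg_of_mem w ((hw f).2 (mem_of_ord_nonneg v hord.ge))
    have h2 : 0 ≤ w.ord (E.bc f⁻¹) := by
      refine ord_nonneg_of_mem w ((hw f⁻¹).2 (mem_of_ord_nonneg v ?_))
      rw [Place.ord_inv, hord]
      simp
    rw [map_inv₀, Place.ord_inv] at h2
    omega
  -- (F2) the ramification index
  set e₀ : ℤ := w.ord (E.bc t) with he₀
  have he₀pos : 0 < e₀ := by
    have h1 : 0 ≤ e₀ := ord_nonneg_of_mem w ((hw t).2 π.2)
    rcases h1.lt_or_eq with h | h
    · exact h
    · exfalso
      have h2 : 0 ≤ w.ord (E.bc t⁻¹) := by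
        rw [map_inv₀, Place.ord_inv, ← he₀, ← h]
        simp
      have h3 : t⁻¹ ∈ v.toValuationSubring := (hw t⁻¹).1 (mem_of_ord_nonneg w h2)
      have h4 := ord_nonneg_of_mem v h3
      rw [Place.ord_inv, hπ1] at h4
      omega
  -- (F3) orders of elements of `bc Fk`
  have hF3 : ∀ f : Fk, f ≠ 0 → w.ord (E.bc f) = e₀ * v.ord f := by
    intro f hf
    set u : Fk := f * t ^ (-(v.ord f)) with hu
    have hu0 : u ≠ 0 := mul_ne_zero hf (zpow_ne_zero _ ht0)
    have huord : v.ord u = 0 := by
      rw [hu, v.ord_mul hf (zpow_ne_zero _ ht0), Place.ord_zpow, hπ1]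
      ring
    have hfu : f = u * t ^ (v.ord f) := by
      rw [hu, mul_assoc, ← zpow_add₀ ht0]
      simp
    have hbcf : E.bc f = E.bc u * (E.bc t) ^ (v.ord f) := by
      conv_lhs => rw [hfu]
      rw [map_mul, map_zpow₀]
    rw [hbcf, w.ord_mul (hbc0 u hu0) (zpow_ne_zero _ (hbc0 t ht0)), hF1 u hu0 huord,
      Place.ord_zpow, ← he₀]
    ring
  refine ⟨e₀, he₀pos, hF3, ?_⟩
  intro n e f m hind hge hex
  obtain ⟨i₀, hi₀0, hi₀m⟩ := hex
  -- scaled functions
  set g : Fin n → Fk := fun i => f i * t ^ (-m) with hg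
  have hgmem : ∀ i, g i ∈ v.toValuationSubring := by
    intro i
    rcases hge i with h | h
    · have : g i = 0 := by simp [hg, h]
      rw [this]
      exact v.toValuationSubring.zero_mem
    · by_cases hfi : f i = 0
      · have : g i = 0 := by simp [hg, hfi]
        rw [this]
        exact v.toValuationSubring.zero_mem
      · apply mem_of_ord_nonneg v
        rw [hg]
        simp only
        rw [v.ord_mul hfi (zpow_ne_zero _ ht0), Place.ord_zpow, hπ1]
        linarith
  have hconst : ∀ i, ∃ c : k, g i = algebraMap k Fk c ∨ 0 < v.ord (g i - algebraMap k Fk c) :=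
    fun i => place_exists_const_sub (y := E.x) v (hgmem i)
  choose c hc using hconst
  -- the constant at `i₀` is nonzero
  have hgi₀ : v.ord (g i₀) = 0 := by
    rw [hg]
    simp only
    rw [v.ord_mul hi₀0 (zpow_ne_zero _ ht0), Place.ord_zpow, hπ1, hi₀m]
    ring
  have hgi₀0 : g i₀ ≠ 0 := mul_ne_zero hi₀0 (zpow_ne_zero _ ht0)
  have hci₀ : c i₀ ≠ 0 := by
    intro h0
    rcases hc i₀ with h | h
    · rw [h0, map_zero] at h
      exact hgi₀0 h
    · rw [h0, map_zero, sub_zero, hgi₀] at h
      exact lt_irrefl _ h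
  set κ : K := ∑ i, E.ι (c i) * e i with hκ
  have hκ0 : κ ≠ 0 := fun h => hci₀ (hind c h i₀)
  set R : FK := ∑ i, algebraMap K FK (e i) * E.bc (g i - algebraMap k Fk (c i)) with hR
  have hsplit : ∑ i, algebraMap K FK (e i) * E.bc (g i) = algebraMap K FK κ + R := by
    rw [hκ, hR, map_sum, ← Finset.sum_add_distrib]
    refine Finset.sum_congr rfl fun i _ => ?_
    have h1 : algebraMap K FK (E.ι (c i) * e i) =
        algebraMap K FK (E.ι (c i)) * algebraMap K FK (e i) := map_mul _ _ _
    rw [map_sub, E.bc_algebraMap, h1]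
    ring
  have hRord : R = 0 ∨ 1 ≤ w.ord R := by
    rw [hR]
    apply esb_ord_sum_ge w 1
    intro i _
    by_cases hei : e i = 0
    · left; simp [hei]
    by_cases hri : g i - algebraMap k Fk (c i) = 0
    · left; simp [hri]
    right
    have hpos : 0 < v.ord (g i - algebraMap k Fk (c i)) := by
      rcases hc i with h | h
      · exact absurd (sub_eq_zero.2 h) hri
      · exact h
    have hne : algebraMap K FK (e i) ≠ 0 := (map_ne_zero _).2 hei
    rw [w.ord_mul hne (hbc0 _ hri), ord_algebraMap, zero_add, hF3 _ hri]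
    nlinarith
  have hκF : algebraMap K FK κ ≠ 0 := (map_ne_zero _).2 hκ0
  have hmain : ∑ i, algebraMap K FK (e i) * E.bc (g i) ≠ 0 ∧
      w.ord (∑ i, algebraMap K FK (e i) * E.bc (g i)) = 0 := by
    rw [hsplit]
    rcases hRord with h | h
    · rw [h, add_zero]
      exact ⟨hκF, ord_algebraMap w κ⟩
    · have hR0 : R ≠ 0 := by
        intro h0
        rw [h0, Place.ord_zero] at h
        omega
      have hlt : w.ord (algebraMap K FK κ) < w.ord R := by
        rw [ord_algebraMap]
        omega
      have h1 := ord_add_eq_of_lt w hκF hR0 hlt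
      refine ⟨?_, by rw [h1, ord_algebraMap]⟩
      intro h0
      have : R = -algebraMap K FK κ := by linear_combination h0
      rw [this, ord_neg, ord_algebraMap] at h
      omega
  have hfg : ∑ i, algebraMap K FK (e i) * E.bc (f i) =
      (E.bc t) ^ m * ∑ i, algebraMap K FK (e i) * E.bc (g i) := by
    rw [Finset.mul_sum]
    refine Finset.sum_congr rfl fun i _ => ?_
    have : f i = g i * t ^ m := by
      rw [hg]
      simp only
      rw [mul_assoc, ← zpow_add₀ ht0]
      simp
    conv_lhs => rw [this]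
    rw [map_mul, map_zpow₀]
    ring
  have hpow0 : (E.bc t) ^ m ≠ 0 := zpow_ne_zero _ (hbc0 t ht0)
  rw [hfg]
  refine ⟨mul_ne_zero hpow0 hmain.1, ?_⟩
  rw [w.ord_mul hpow0 hmain.1, hmain.2, Place.ord_zpow, ← he₀]
  ring

/-- Orders of all nonzero elements of `FK` are multiples of `e₀`; hence `e₀ = 1`. -/
theorem esb_unramified (E : ConstExt k K Fk FK) (v : Place k Fk) (w : Place K FK)
    (hw : ∀ f : Fk, E.bc f ∈ w.toValuationSubring ↔ f ∈ v.toValuationSubring) :
    (∀ f : Fk, w.ord (E.bc f) = v.ord f) ∧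
    ∀ (n : ℕ) (e : Fin n → K) (f : Fin n → Fk) (m : ℤ), KIndep E e →
      (∀ i, f i = 0 ∨ m ≤ v.ord (f i)) → (∃ i, f i ≠ 0 ∧ v.ord (f i) = m) →
      ∑ i, algebraMap K FK (e i) * E.bc (f i) ≠ 0 ∧
      w.ord (∑ i, algebraMap K FK (e i) * E.bc (f i)) = m := by
  classical
  obtain ⟨e₀, he₀pos, hF3, hgauss⟩ := esb_gauss_scaled E v w hw
  -- every nonzero combination has order in `e₀ ℤ`
  have hcomb : ∀ (n : ℕ) (a : Fin n → K) (u : Fin n → Fk),
      ∑ i, algebraMap K FK (a i) * E.bc (u i) ≠ 0 →
      e₀ ∣ w.ord (∑ i, algebraMap K FK (a i) * E.bc (u i)) := by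
    intro n a u hne
    obtain ⟨r, e, u', hind, hsum⟩ := esb_normal_form E n a u
    rw [hsum] at hne ⊢
    -- some `u' l` is nonzero
    have hex : ∃ l, u' l ≠ 0 := by
      by_contra hcon
      push Not at hcon
      apply hne
      refine Finset.sum_eq_zero fun l _ => ?_
      rw [hcon l, map_zero, mul_zero]
    set s : Finset (Fin r) := Finset.univ.filter fun l => u' l ≠ 0 with hs
    have hsne : s.Nonempty := by
      obtain ⟨l, hl⟩ := hex
      exact ⟨l, by simp [hs, hl]⟩
    obtain ⟨l₀, hl₀s, hl₀min⟩ := Finset.exists_min_image s (fun l => v.ord (u' l)) hsne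
    have hl₀0 : u' l₀ ≠ 0 := by
      have := hl₀s
      simp only [hs, Finset.mem_filter, Finset.mem_univ, true_and] at this
      exact this
    have := hgauss r e u' (v.ord (u' l₀)) hind (fun l => by
      by_cases hl : u' l = 0
      · exact Or.inl hl
      · exact Or.inr (hl₀min l (by simp [hs, hl]))) ⟨l₀, hl₀0, rfl⟩
    rw [this.2]
    exact Dvd.intro _ rfl
  have hall : ∀ h : FK, h ≠ 0 → e₀ ∣ w.ord h := by
    intro h hh
    obtain ⟨n, a, u, wd, hden, hnum⟩ := E.gen h
    have hnum0 : ∑ i, algebraMap K FK (a i) * E.bc (u i) ≠ 0 := by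
      rw [← hnum]
      exact mul_ne_zero hh hden
    have h1 := hcomb n a u hnum0
    have h2 := hcomb n a wd hden
    rw [← hnum, w.ord_mul hh hden] at h1
    exact (Int.dvd_add_left h2).1 h1
  obtain ⟨ϖ, hϖ, hϖ1⟩ := exists_irreducible_ord_one w
  have hϖ0 : (ϖ : FK) ≠ 0 := by
    intro h
    rw [h, Place.ord_zero] at hϖ1
    exact zero_ne_one hϖ1
  have hdvd : e₀ ∣ 1 := hϖ1 ▸ hall _ hϖ0
  have he₀1 : e₀ = 1 := Int.eq_one_of_dvd_one he₀pos.le hdvd
  subst he₀1
  refine ⟨fun f => ?_, fun n e f m hind hge hex => ?_⟩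
  · by_cases hf : f = 0
    · simp [hf]
    · rw [hF3 f hf, one_mul]
  · have := hgauss n e f m hind hge hex
    rw [one_mul] at this
    exact this

end

/-- **ESB-2b** : the Gauss formula statement of `Fermat.Agent.H29`. -/
theorem gaussFormulaStatement : Fermat.Agent.H29.GaussFormulaStatement := by
  intro k K Fk FK _ _ _ _ _ _ _ _ _ _ E v w hw
  exact esb_unramified E v w hw

end Fermat.Agent.H2

end
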