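import Fermat.Agent.H2.KLBRBridge
import Fermat.Agent.H22.ES.KLModel
import Fermat.Agent.H93.KL.DescInterfaces
import Fermat.Agent.H73.KLPlaceDesc
import Fermat.Agent.H54.EsC.DegFinite

/-!
# P-ES / KL-BR (helper2): the concrete model form `H22.KL.ModelBranchStatement` for `x = j`

* `klbr_isUnit_natCast_of_coprime` : in a local ring in which the prime `ℓ` is not a unit, every
  natural number prime to `ℓ` is a unit.
* `klbr_exists_primitiveRoot_of_dvd` : an integrally closed domain `A₀` contains a primitive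
  `m`-th root of unity as soon as its fraction field contains a primitive `M`-th root of unity,
  `m ∣ M`, `M ≠ 0`.
* `klbr_model_j` : **`ModelBranchStatement N ℓ jq M`** for every prime `ℓ ≥ 5`, `ℓ ∤ N`, and every
  `M ≠ 0` with `3 ∣ M`, `N ∣ M` (e.g. `M = 3 N` or `M = 6 N`).
-/

set_option autoImplicit false
set_option synthInstance.maxHeartbeats 400000
set_option linter.style.haveILetI false

noncomputable section

open AlgebraicCurve IntermediateField Polynomial ModularCurve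

namespace Fermat.Agent.H2

open Fermat.Agent.H23 Fermat.Agent.H22.KL

/-- In a local ring in which the prime `ℓ` is not a unit, every natural number prime to `ℓ` is a
unit. -/
theorem klbr_isUnit_natCast_of_coprime {A : Type} [CommRing A] [IsLocalRing A] {ℓ : ℕ}
    (hℓ : ¬ IsUnit ((ℓ : ℕ) : A)) {n : ℕ} (hn : Nat.Coprime n ℓ) : IsUnit ((n : ℕ) : A) := by
  have hc : IsCoprime (n : ℤ) (ℓ : ℤ) := Nat.isCoprime_iff_coprime.mpr hn
  obtain ⟨a, b, hab⟩ := hc
  have h1 : ((a : ℤ) : A) * ((n : ℕ) : A) + ((b : ℤ) : A) * ((ℓ : ℕ) : A) = 1 := by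
    have := congrArg (Int.cast : ℤ → A) hab
    push_cast at this
    exact this
  have h2 : IsUnit (((a : ℤ) : A) * ((n : ℕ) : A) + ((b : ℤ) : A) * ((ℓ : ℕ) : A)) := by
    rw [h1]
    exact isUnit_one
  rcases IsLocalRing.isUnit_or_isUnit_of_isUnit_add h2 with h | h
  · exact isUnit_of_mul_isUnit_right h
  · exact absurd (isUnit_of_mul_isUnit_right h) hℓ

/-- An integrally closed domain contains the roots of unity of its fraction field. -/
theorem klbr_exists_primitiveRoot_of_dvd {A K : Type} [CommRing A] [IsDomain A]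
    [IsIntegrallyClosed A] [Field K] [Algebra A K] [IsFractionRing A K] {M : ℕ} (hM : M ≠ 0)
    (hζ : ∃ ζ : K, IsPrimitiveRoot ζ M) {m : ℕ} (hm : m ∣ M) :
    ∃ ζ : A, IsPrimitiveRoot ζ m := by
  obtain ⟨ζ, hζ⟩ := hζ
  obtain ⟨d, rfl⟩ := hm
  have hm0 : m ≠ 0 := fun h => hM (by rw [h, zero_mul])
  have hd0 : d ≠ 0 := fun h => hM (by rw [h, mul_zero])
  have hprim : IsPrimitiveRoot (ζ ^ d) m :=
    hζ.pow (Nat.pos_of_ne_zero hM) (mul_comm m d)
  have hint : IsIntegral A (ζ ^ d) := by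
    refine ⟨X ^ m - 1, monic_X_pow_sub_C 1 hm0, ?_⟩
    simp [hprim.pow_eq_one]
  obtain ⟨y, hy⟩ := IsIntegrallyClosed.isIntegral_iff.mp hint
  refine ⟨y, ?_⟩
  have hinj : Function.Injective (algebraMap A K) := IsFractionRing.injective A K
  exact IsPrimitiveRoot.of_map_of_injective (f := algebraMap A K) (by rw [hy]; exact hprim) hinj

section model

variable (N : ℕ) [NeZero N]

/-- The coordinate `x` of the model with `q`-expansion `j` is `jElt`. -/
theorem klbr_model_x_eq (K₁ : Type) [Field K₁] [Algebra ℚ K₁] (x : ModelField K₁ N)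
    (hx : (x : LaurentSeries K₁) = coeffEmb K₁ jq) : x = Fermat.Agent.H54.jElt K₁ N := by
  apply Subtype.ext
  rw [hx, Fermat.Agent.H54.coeffEmb_jq_eq]
  rfl

/-- **KL-BR, concrete model, `x = j`** (row 358): `ModelBranchStatement N ℓ jq M` for every prime
`ℓ ≥ 5` not dividing `N` and every `M ≠ 0` divisible by `3` and by `N`. -/
theorem klbr_model_j (ℓ : ℕ) (hℓ : ℓ.Prime) (h5 : 5 ≤ ℓ) (hN : ¬ ℓ ∣ N) (M : ℕ) (hM : M ≠ 0)
    (h3M : 3 ∣ M) (hNM : N ∣ M) : ModelBranchStatement N ℓ jq M := by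
  intro K₁ _ _ _ A₀ _ _ _ _ _ _ _ hℓA hζ ϖ hϖ x hx
  -- an embedding of `K₁` into `ℚ̄`
  haveI : Algebra.IsAlgebraic ℚ K₁ := Algebra.IsAlgebraic.of_finite ℚ K₁
  let φ : K₁ →ₐ[ℚ] AlgebraicClosure ℚ := IsAlgClosed.lift
  letI algK : Algebra K₁ (AlgebraicClosure ℚ) := φ.toRingHom.toAlgebra
  haveI tow : IsScalarTower ℚ K₁ (AlgebraicClosure ℚ) :=
    IsScalarTower.of_algebraMap_eq (fun a => (φ.commutes a).symm)
  haveI : Algebra.IsAlgebraic ℚ (AlgebraicClosure ℚ) := AlgebraicClosure.isAlgebraic ℚ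
  haveI : Algebra.IsAlgebraic K₁ (AlgebraicClosure ℚ) :=
    Algebra.IsAlgebraic.tower_top (K := ℚ) K₁
  -- the comparison map
  let ι : ModelField K₁ N →+* ↥(modularFunctionFieldBar N) :=
    Fermat.Agent.H93.KL.klBc φ.toRingHom (modularFunctionFieldFull N)
  have hι : ∀ a : K₁, ι (algebraMap K₁ (ModelField K₁ N) a) =
      algebraMap (AlgebraicClosure ℚ) ↥(modularFunctionFieldBar N)
        (algebraMap K₁ (AlgebraicClosure ℚ) a) := fun a =>
    Fermat.Agent.H73.KLDesc.klBc_algebraMap φ.toRingHom (modularFunctionFieldFull N) a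
  have hxj : ι x = jBar N := by
    apply Subtype.ext
    show coeffMap φ.toRingHom (x : LaurentSeries K₁) = coeffEmb (AlgebraicClosure ℚ) jq
    rw [hx, coeffEmb, coeffEmb, coeffMap_coeffMap]
    exact coeffMap_congr (Subsingleton.elim _ _) jq
  -- algebraicity over `K₁(x)`
  have hxe : x = Fermat.Agent.H54.jElt K₁ N := klbr_model_x_eq N K₁ x hx
  haveI hfin : FiniteDimensional K₁⟮x⟯ (ModelField K₁ N) := by
    rw [hxe]
    exact Fermat.Agent.H54.finiteDimensional_adjoin_jElt K₁ N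
  haveI : Algebra.IsAlgebraic K₁⟮x⟯ (ModelField K₁ N) := Algebra.IsAlgebraic.of_finite _ _
  -- units
  have hcop : ∀ n : ℕ, ¬ ℓ ∣ n → IsUnit ((n : ℕ) : A₀) := fun n hn =>
    klbr_isUnit_natCast_of_coprime hℓA ((Nat.Prime.coprime_iff_not_dvd hℓ).mpr hn).symm
  have h2 : IsUnit ((2 : ℕ) : A₀) := hcop 2 (fun h => by
    have := Nat.le_of_dvd (by norm_num) h
    omega)
  have h3 : IsUnit ((3 : ℕ) : A₀) := hcop 3 (fun h => by
    have := Nat.le_of_dvd (by norm_num) h
    omega)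
  have hNu : IsUnit ((N : ℕ) : A₀) := hcop N hN
  -- roots of unity
  have hζ3 : ∃ ζ : A₀, IsPrimitiveRoot ζ 3 := klbr_exists_primitiveRoot_of_dvd hM hζ h3M
  have hζN : ∃ ζ : A₀, IsPrimitiveRoot ζ N := klbr_exists_primitiveRoot_of_dvd hM hζ hNM
  exact klbr_branchHypAt_j N ϖ hϖ ι hι x hxj h2 h3 hNu hζ3 hζN

/-- The instance `M = 3 N`. -/
theorem klbr_model_j_three (ℓ : ℕ) (hℓ : ℓ.Prime) (h5 : 5 ≤ ℓ) (hN : ¬ ℓ ∣ N) :
    ModelBranchStatement N ℓ jq (3 * N) :=
  klbr_model_j N ℓ hℓ h5 hN (3 * N) (mul_ne_zero (by norm_num) (NeZero.ne N))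
    (dvd_mul_right 3 N) (dvd_mul_left N 3)

/-- The instance `M = 6 N`. -/
theorem klbr_model_j_six (ℓ : ℕ) (hℓ : ℓ.Prime) (h5 : 5 ≤ ℓ) (hN : ¬ ℓ ∣ N) :
    ModelBranchStatement N ℓ jq (6 * N) :=
  klbr_model_j N ℓ hℓ h5 hN (6 * N) (mul_ne_zero (by norm_num) (NeZero.ne N))
    (Dvd.dvd.mul_right (by norm_num) N) (dvd_mul_left N 6)

end model

end Fermat.Agent.H2
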