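import Fermat.Agent.H23.PlaceBasic
import Fermat.Agent.H29.PlaceDedekind
import Fermat.Agent.H29.ResidueConst
import Fermat.Agent.H39.ESBValuationRing

/-!
# P-ES / KL-BR (helper2), generic part: descent of branch data along an algebraic extension
of constants

Setting: `K0 ⊂ L` fields, `L` algebraically closed of characteristic `0` and algebraic over
`K0`; `F / L` a function field of one variable, `E0` a field over `K0` and `ι : E0 → F` a ring
homomorphism compatible with `K0 → L`.

* `klbr_place_above` : every place `v` of `E0 / K0` has a place `w` of `F / L` above it: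
  `w.ord (ι f) = e * v.ord f` for some `e ≥ 1`.
* `BranchOrd` : branch data of a coordinate `y ∈ F` over `L`, in `ord` form.
* `klbr_place_form` : the branch data over `K0`, for the places of `E0 / K0`.
* `klbr_dedekind_form`, `klbr_dedekind_form_inf` : the same for the nonzero primes of any
  Dedekind domain `R` with fraction field `E0` containing `x` (resp. `x⁻¹`).
-/

set_option autoImplicit false

noncomputable section

open AlgebraicCurve IntermediateField Polynomial IsDedekindDomain

namespace Fermat.Agent.H2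

section above

variable {K0 L E0 F : Type} [Field K0] [Field L] [Field E0] [Field F]
  [Algebra K0 E0] [Algebra L F] [Algebra K0 L]

/-- A valuation ring of `F` dominating the image of the valuation ring of `v`. -/
theorem klbr_exists_valuationSubring_above (ι : E0 →+* F) (v : Place K0 E0) :
    ∃ W : ValuationSubring F, (∀ f : E0, f ∈ v.toValuationSubring → ι f ∈ W) ∧
      ∀ f : E0, f ≠ 0 → 0 < v.ord f → (ι f)⁻¹ ∉ W := by
  obtain ⟨W, hle, hloc⟩ :=
    (LocalSubring.map ι v.toValuationSubring.toLocalSubring).exists_le_valuationSubring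
  have hmemA : ∀ f : E0, f ∈ v.toValuationSubring →
      ι f ∈ (LocalSubring.map ι v.toValuationSubring.toLocalSubring).toSubring := by
    intro f hf
    exact Subring.mem_map.mpr ⟨f, hf, rfl⟩
  refine ⟨W, fun f hf => hle (hmemA f hf), ?_⟩
  intro f hf0 hpos hinv
  have hfV : f ∈ v.toValuationSubring := Fermat.Agent.H23.mem_of_ord_nonneg v hpos.le
  have hιf0 : ι f ≠ 0 := by simpa using hf0
  -- the image of `ι f` is a unit of `W`
  have hunitW : IsUnit (Subring.inclusion hle ⟨ι f, hmemA f hfV⟩) := by
    refine IsUnit.of_mul_eq_one (⟨(ι f)⁻¹, hinv⟩ : W.toSubring) ?_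
    apply Subtype.ext
    show ι f * (ι f)⁻¹ = 1
    exact mul_inv_cancel₀ hιf0
  have hunitA : IsUnit (⟨ι f, hmemA f hfV⟩ :
      (LocalSubring.map ι v.toValuationSubring.toLocalSubring).toSubring) :=
    hloc.map_nonunit _ hunitW
  obtain ⟨⟨b, hb⟩, hab⟩ := hunitA.exists_right_inv
  obtain ⟨g, hgV, rfl⟩ := Subring.mem_map.mp hb
  have h1 : ι f * ι g = 1 := congrArg Subtype.val hab
  have h2 : f * g = 1 := by
    apply ι.injective
    rw [map_mul, h1, map_one]
  have hg0 : g ≠ 0 := by
    rintro rfl
    simp at h2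
  have h3 : v.ord f + v.ord g = 0 := by
    rw [← v.ord_mul hf0 hg0, h2, v.ord_one]
  have h4 : 0 ≤ v.ord g := Fermat.Agent.H23.ord_nonneg_of_mem v hgV
  omega

variable [IsAlgClosed L] [CharZero L] [Algebra.IsAlgebraic K0 L]

/-- **Extension of places along an algebraic extension of constants.** -/
theorem klbr_place_above (ι : E0 →+* F)
    (hι : ∀ a : K0, ι (algebraMap K0 E0 a) = algebraMap L F (algebraMap K0 L a))
    (y : F) (hy : Transcendental L y) (hfin : FiniteDimensional L⟮y⟯ F) (v : Place K0 E0) :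
    ∃ (w : Place L F) (e : ℕ), 0 < e ∧ ∀ f : E0, w.ord (ι f) = (e : ℤ) * v.ord f := by
  obtain ⟨W, hW1, hW2⟩ := klbr_exists_valuationSubring_above ι v
  obtain ⟨π, hπ⟩ := IsDiscreteValuationRing.exists_irreducible v.toValuationSubring
  have hπord : v.ord (π : E0) = 1 := v.ord_coe_irreducible hπ
  have hπ0 : (π : E0) ≠ 0 := by
    intro h
    rw [h] at hπord
    simp at hπord
  -- `W ≠ ⊤`
  have hWtop : W ≠ ⊤ := by
    intro h
    apply hW2 (π : E0) hπ0 (by omega)
    rw [h]
    exact ValuationSubring.mem_top _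
  -- `L ⊆ W`
  have hLW : ∀ a : L, algebraMap L F a ∈ W := by
    intro a
    let φ : K0 →+* W := ((algebraMap L F).comp (algebraMap K0 L)).codRestrict W.toSubring
      (fun c => by
        have := hW1 (algebraMap K0 E0 c) (v.algebraMap_mem' c)
        rwa [hι] at this)
    have hint : IsIntegral K0 a := (Algebra.IsAlgebraic.isAlgebraic a).isIntegral
    obtain ⟨p, hpm, hp⟩ := hint
    have hintW : IsIntegral W (algebraMap L F a) := by
      refine ⟨p.map φ, hpm.map φ, ?_⟩
      rw [eval₂_map]
      have hcomp : (algebraMap W F).comp φ = (algebraMap L F).comp (algebraMap K0 L) := by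
        ext c
        rfl
      rw [hcomp, ← hom_eval₂, hp, map_zero]
    obtain ⟨b, hb⟩ := IsIntegrallyClosed.isIntegral_iff.mp hintW
    rw [← hb]
    exact b.2
  obtain ⟨w, hw⟩ := Fermat.Agent.H39.valuationRingDVR L F y hy hfin W hLW hWtop
  have hmem : ∀ g : F, g ∈ W → 0 ≤ w.ord g := fun g hg =>
    Fermat.Agent.H23.ord_nonneg_of_mem w (hw ▸ hg)
  have hnmem : ∀ g : F, g ∉ W → w.ord g < 0 := by
    intro g hg
    by_contra hc
    exact hg (hw ▸ Fermat.Agent.H23.mem_of_ord_nonneg w (not_lt.mp hc))
  have hιπ0 : ι (π : E0) ≠ 0 := by simpa using hπ0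
  have hepos : 0 < w.ord (ι (π : E0)) := by
    have h1 := hnmem _ (hW2 (π : E0) hπ0 (by omega))
    rw [w.ord_inv] at h1
    omega
  refine ⟨w, (w.ord (ι (π : E0))).toNat, by omega, ?_⟩
  intro f
  rw [Int.toNat_of_nonneg hepos.le]
  rcases eq_or_ne f 0 with rfl | hf
  · simp
  obtain ⟨u, hu⟩ := v.exists_unit_mul_zpow hf hπ
  have hu0 : w.ord (ι ((u : v.toValuationSubring) : E0)) = 0 := by
    have h1 := hmem _ (hW1 _ (u : v.toValuationSubring).2)
    have h2 := hmem _ (hW1 _ ((u⁻¹ : v.toValuationSubringˣ) : v.toValuationSubring).2)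
    have h3 : ι (((u⁻¹ : v.toValuationSubringˣ) : v.toValuationSubring) : E0) =
        (ι ((u : v.toValuationSubring) : E0))⁻¹ := by
      rw [← map_inv₀]
      congr 1
      have h4 : ((u : v.toValuationSubring) : E0) *
          (((u⁻¹ : v.toValuationSubringˣ) : v.toValuationSubring) : E0) = 1 :=
        Subtype.ext_iff.mp (Units.mul_inv u)
      exact eq_inv_of_mul_eq_one_right h4
    rw [h3, w.ord_inv] at h2
    omega
  have huF0 : ι ((u : v.toValuationSubring) : E0) ≠ 0 := by
    have : ((u : v.toValuationSubring) : E0) ≠ 0 := by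
      intro h
      rw [h, zero_mul] at hu
      exact hf hu
    simpa using this
  conv_lhs => rw [hu]
  rw [map_mul, map_zpow₀, w.ord_mul huF0 (zpow_ne_zero _ hιπ0), hu0, w.ord_zpow, zero_add]
  ring

end above


section poly

variable {L F : Type} [Field L] [Field F] [Algebra L F]

/-- polynomials in an element of the valuation ring stay in the valuation ring -/
theorem klbr_aeval_mem (w : Place L F) {z : F} (hz : z ∈ w.toValuationSubring) (p : L[X]) :
    aeval z p ∈ w.toValuationSubring := by
  induction p using Polynomial.induction_on' with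
  | add p q hp hq =>
    rw [map_add]
    exact add_mem hp hq
  | monomial n a =>
    rw [aeval_monomial]
    exact mul_mem (w.algebraMap_mem' a) (pow_mem hz n)

/-- congruence of polynomial values modulo the maximal ideal of a place -/
theorem klbr_aeval_sub (w : Place L F) {z : F} {c : L}
    (hz : 0 < w.ord (z - algebraMap L F c)) (p : L[X]) :
    aeval z p = algebraMap L F (p.eval c) ∨
      0 < w.ord (aeval z p - algebraMap L F (p.eval c)) := by
  have hzmem : z ∈ w.toValuationSubring := by
    have h1 : z - algebraMap L F c ∈ w.toValuationSubring :=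
      Fermat.Agent.H23.mem_of_ord_nonneg w hz.le
    have h2 := add_mem h1 (w.algebraMap_mem' c)
    rwa [sub_add_cancel] at h2
  have hdvd : (X - C c) ∣ p - C (p.eval c) := by
    rw [dvd_iff_isRoot]
    simp
  obtain ⟨q, hq⟩ := hdvd
  have h1 : aeval z p - algebraMap L F (p.eval c) = (z - algebraMap L F c) * aeval z q := by
    have := congrArg (aeval z) hq
    simpa using this
  by_cases hq0 : aeval z q = 0
  · left
    rw [hq0, mul_zero, sub_eq_zero] at h1
    exact h1
  · right
    have hz0 : z - algebraMap L F c ≠ 0 := by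
      intro h
      rw [h] at hz
      simp at hz
    rw [h1, w.ord_mul hz0 hq0]
    have := Fermat.Agent.H23.ord_nonneg_of_mem w (klbr_aeval_mem w hzmem q)
    omega

/-- a polynomial value of positive order at a place where `y` is finite: the point below is a
root. -/
theorem klbr_root_of_ord_pos (w : Place L F) {y : F} {c : L}
    (hy : 0 < w.ord (y - algebraMap L F c)) (p : L[X]) (hp : 0 < w.ord (aeval y p)) :
    p.IsRoot c := by
  by_contra hroot
  have hne : p.eval c ≠ 0 := hroot
  have hc0 : w.ord (algebraMap L F (p.eval c)) = 0 := Fermat.Agent.H23.ord_algebraMap w _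
  have hcne : algebraMap L F (p.eval c) ≠ 0 := by simpa using hne
  rcases klbr_aeval_sub w hy p with h | h
  · rw [h, hc0] at hp
    exact lt_irrefl _ hp
  · have hp0 : aeval y p ≠ 0 := by
      intro h0
      rw [h0] at hp
      simp at hp
    have h2 : 1 ≤ w.ord (aeval y p + -(aeval y p - algebraMap L F (p.eval c))) := by
      refine Fermat.Agent.H23.ord_add_ge w (by simpa using hcne) 1 (Or.inr hp) (Or.inr ?_)
      rw [Fermat.Agent.H23.ord_neg]
      exact h
    have h3 : aeval y p + -(aeval y p - algebraMap L F (p.eval c)) =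
        algebraMap L F (p.eval c) := by ring
    rw [h3, hc0] at h2
    omega

/-- at a pole of `y`, no nonzero polynomial in `y` has positive order -/
theorem klbr_ord_aeval_nonpos_of_pole (w : Place L F) {y : F} (hy : w.ord y < 0)
    (p : L[X]) (hp0 : p ≠ 0) : w.ord (aeval y p) ≤ 0 := by
  have hy0 : y ≠ 0 := by
    rintro rfl
    simp at hy
  have hinv : 0 < w.ord (y⁻¹ - algebraMap L F 0) := by
    rw [map_zero, sub_zero, w.ord_inv]
    omega
  -- `p(y) = y ^ d * (reverse p)(y⁻¹)`
  have hrev : aeval y⁻¹ p.reverse * y ^ p.natDegree = aeval y p := by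
    let _ := invertibleOfNonzero hy0
    have := eval₂_reverse_mul_pow (algebraMap L F) y p
    simpa [aeval_def] using this
  have hlc : p.reverse.eval 0 = p.leadingCoeff := by
    rw [← coeff_zero_eq_eval_zero, coeff_zero_reverse]
  have hlc0 : p.leadingCoeff ≠ 0 := leadingCoeff_ne_zero.mpr hp0
  have hunit : aeval y⁻¹ p.reverse ≠ 0 ∧ w.ord (aeval y⁻¹ p.reverse) = 0 := by
    have hc0 : w.ord (algebraMap L F p.leadingCoeff) = 0 := Fermat.Agent.H23.ord_algebraMap w _
    have hcne : algebraMap L F p.leadingCoeff ≠ 0 := by simpa using hlc0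
    rcases klbr_aeval_sub w hinv p.reverse with h | h
    · rw [hlc] at h
      rw [h]
      exact ⟨hcne, hc0⟩
    · rw [hlc] at h
      have hd0 : aeval y⁻¹ p.reverse - algebraMap L F p.leadingCoeff ≠ 0 := by
        intro h0
        rw [h0] at h
        simp at h
      have h2 := Fermat.Agent.H23.ord_add_eq_of_lt w hcne hd0 (by rw [hc0]; exact h)
      have h3 : algebraMap L F p.leadingCoeff +
          (aeval y⁻¹ p.reverse - algebraMap L F p.leadingCoeff) = aeval y⁻¹ p.reverse := by
        ring
      rw [h3, hc0] at h2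
      refine ⟨?_, h2⟩
      intro h0
      rw [h0, zero_sub, Fermat.Agent.H23.ord_neg, hc0] at h
      exact lt_irrefl _ h
  rw [← hrev, w.ord_mul hunit.1 (pow_ne_zero _ hy0), hunit.2, zero_add]
  have : w.ord (y ^ p.natDegree) = (p.natDegree : ℤ) * w.ord y := by
    have := w.ord_zpow y (p.natDegree : ℤ)
    simpa using this
  rw [this]
  exact mul_nonpos_of_nonneg_of_nonpos (by positivity) hy.le

end poly

section branch

variable {K0 L E0 F : Type} [Field K0] [Field L] [Field E0] [Field F]
  [Algebra K0 E0] [Algebra L F] [Algebra K0 L]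

/-- **Branch data over the algebraically closed constant field `L`, in `ord` form.**
The branch values are the images of `Cbr ⊂ K0`, with exponents `e c`, and `einf` at the poles
of the coordinate `y`. -/
def BranchOrd (K0 L : Type) {F : Type} [Field K0] [Field L] [Field F] [Algebra L F]
    [Algebra K0 L] (y : F) (Cbr : Set K0) (e : K0 → ℕ) (einf : ℕ) : Prop :=
  ∀ w : Place L F,
    (∀ a : L, (∀ c ∈ Cbr, a ≠ algebraMap K0 L c) → 0 < w.ord (y - algebraMap L F a) →
      w.ord (y - algebraMap L F a) = 1) ∧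
    (∀ c ∈ Cbr, 0 < w.ord (y - algebraMap L F (algebraMap K0 L c)) →
      w.ord (y - algebraMap L F (algebraMap K0 L c)) ∣ (e c : ℤ)) ∧
    (0 < w.ord y⁻¹ → w.ord y⁻¹ ∣ (einf : ℤ))

/-- **Branch data over `K0`, place form.**  For every place `v` of `E0 / K0`: the order of
`x - c` (`c` a branch value) divides `e c`, the pole order of `x` divides `einf`, and away from
the branch values `v` is unramified over `K0[x]`: the irreducible polynomial `h` with
`ord_v h(x) > 0` has `ord_v h(x) = 1`. -/
def BranchPlaceForm (K0 E0 : Type) [Field K0] [Field E0] [Algebra K0 E0]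
    (x : E0) (Cbr : Set K0) (e : K0 → ℕ) (einf : ℕ) : Prop :=
  ∀ v : Place K0 E0,
    (∀ c ∈ Cbr, 0 < v.ord (x - algebraMap K0 E0 c) →
      v.ord (x - algebraMap K0 E0 c) ∣ (e c : ℤ)) ∧
    (0 < v.ord x⁻¹ → v.ord x⁻¹ ∣ (einf : ℤ)) ∧
    (∀ h : K0[X], Irreducible h → 0 < v.ord (aeval x h) →
      (∀ c ∈ Cbr, ¬ 0 < v.ord (x - algebraMap K0 E0 c)) → v.ord (aeval x h) = 1)

omit [Algebra K0 E0] [Algebra K0 L] in
/-- a polynomial with nonzero value at the point below `w` is a unit at `w` -/
theorem klbr_ord_aeval_eq_zero (w : Place L F) {y : F} {a : L}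
    (hy : 0 < w.ord (y - algebraMap L F a)) (g : L[X]) (hg : g.eval a ≠ 0) :
    aeval y g ≠ 0 ∧ w.ord (aeval y g) = 0 := by
  have hc0 : w.ord (algebraMap L F (g.eval a)) = 0 := Fermat.Agent.H23.ord_algebraMap w _
  have hcne : algebraMap L F (g.eval a) ≠ 0 := by simpa using hg
  rcases klbr_aeval_sub w hy g with h | h
  · rw [h]
    exact ⟨hcne, hc0⟩
  · have hd0 : aeval y g - algebraMap L F (g.eval a) ≠ 0 := by
      intro h0
      rw [h0] at h
      simp at h
    have h2 := Fermat.Agent.H23.ord_add_eq_of_lt w hcne hd0 (by rw [hc0]; exact h)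
    have h3 : algebraMap L F (g.eval a) + (aeval y g - algebraMap L F (g.eval a)) =
        aeval y g := by ring
    rw [h3, hc0] at h2
    refine ⟨?_, h2⟩
    intro h0
    rw [h0, zero_sub, Fermat.Agent.H23.ord_neg, hc0] at h
    exact lt_irrefl _ h

variable [IsAlgClosed L] [CharZero L] [Algebra.IsAlgebraic K0 L]

/-- **KL-BR, generic descent.**  Branch data of `F / L` in `ord` form descend to the places of
`E0 / K0`. -/
theorem klbr_place_form (ι : E0 →+* F)
    (hι : ∀ a : K0, ι (algebraMap K0 E0 a) = algebraMap L F (algebraMap K0 L a))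
    (x : E0) (hx : Transcendental L (ι x)) (hfin : FiniteDimensional L⟮ι x⟯ F)
    (Cbr : Set K0) (e : K0 → ℕ) (einf : ℕ) (hB : BranchOrd K0 L (ι x) Cbr e einf) :
    BranchPlaceForm K0 E0 x Cbr e einf := by
  intro v
  obtain ⟨w, e', he', hw⟩ := klbr_place_above ι hι (ι x) hx hfin v
  obtain ⟨hB1, hB2, hB3⟩ := hB w
  have hpos : ∀ f : E0, 0 < v.ord f ↔ 0 < w.ord (ι f) := by
    intro f
    rw [hw]
    constructor
    · intro h; positivity
    · intro h
      by_contra hc
      have : (e' : ℤ) * v.ord f ≤ 0 :=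
        mul_nonpos_of_nonneg_of_nonpos (by positivity) (not_lt.mp hc)
      omega
  have hsubc : ∀ c : K0, ι (x - algebraMap K0 E0 c) =
      ι x - algebraMap L F (algebraMap K0 L c) := by
    intro c
    rw [map_sub, hι]
  refine ⟨?_, ?_, ?_⟩
  · intro c hc hv
    have h1 := hB2 c hc (by rw [← hsubc]; exact (hpos _).mp hv)
    rw [← hsubc, hw] at h1
    exact (Dvd.intro_left _ rfl).trans h1
  · intro hv
    have h1 := hB3 (by rw [← map_inv₀]; exact (hpos _).mp hv)
    rw [← map_inv₀, hw] at h1
    exact (Dvd.intro_left _ rfl).trans h1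
  · intro h hirr hv hnb
    have : CharZero K0 := (algebraMap K0 L).charZero
    set hbar : L[X] := h.map (algebraMap K0 L) with hbar_def
    have hιh : ι (aeval x h) = aeval (ι x) hbar := by
      rw [aeval_def, hom_eval₂, aeval_def, hbar_def, eval₂_map]
      congr 1
      ext a
      exact hι a
    have hbar0 : hbar ≠ 0 := by
      rw [hbar_def, Ne, Polynomial.map_eq_zero]
      exact hirr.ne_zero
    have hwpos : 0 < w.ord (aeval (ι x) hbar) := by
      rw [← hιh]
      exact (hpos _).mp hv
    -- `w` is not a pole of `ι x`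
    have hnp : 0 ≤ w.ord (ι x) := by
      by_contra hc
      have := klbr_ord_aeval_nonpos_of_pole w (not_le.mp hc) hbar hbar0
      omega
    -- the point below `w`
    obtain ⟨a, ha⟩ := Fermat.Agent.H29.place_exists_root_of_ord_pos w
      (Fermat.Agent.H23.mem_of_ord_nonneg w hnp) hbar.natDegree hbar rfl hbar0 (Or.inr hwpos)
    have ha' : 0 < w.ord (ι x - algebraMap L F a) := by
      rcases ha with ha | ha
      · exact absurd (ha ▸ isAlgebraic_algebraMap a) hx
      · exact ha
    have hroot : hbar.IsRoot a := klbr_root_of_ord_pos w ha' hbar hwpos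
    -- `a` is not a branch value
    have hab : ∀ c ∈ Cbr, a ≠ algebraMap K0 L c := by
      rintro c hc rfl
      apply hnb c hc
      rw [hpos, hsubc]
      exact ha'
    have hone : w.ord (ι x - algebraMap L F a) = 1 := hB1 a hab ha'
    -- `a` is a simple root
    have hsep : hbar.Separable := hirr.separable.map
    obtain ⟨g, hg⟩ : (X - C a) ∣ hbar := dvd_iff_isRoot.mpr hroot
    have hga : g.eval a ≠ 0 := by
      intro hga
      obtain ⟨g', hg'⟩ : (X - C a) ∣ g := dvd_iff_isRoot.mpr hga
      have hsq : (X - C a) * (X - C a) ∣ hbar := ⟨g', by rw [hg, hg']; ring⟩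
      have hunit := hsep.squarefree (X - C a) hsq
      exact not_isUnit_X_sub_C a hunit
    obtain ⟨hg0, hgord⟩ := klbr_ord_aeval_eq_zero w ha' g hga
    have hval : aeval (ι x) hbar = (ι x - algebraMap L F a) * aeval (ι x) g := by
      rw [hg]
      simp
    have hxa0 : ι x - algebraMap L F a ≠ 0 := by
      intro h0
      rw [h0] at ha'
      simp at ha'
    have htot : w.ord (aeval (ι x) hbar) = 1 := by
      rw [hval, w.ord_mul hxa0 hg0, hone, hgord, add_zero]
    rw [← hιh, hw] at htot
    -- `e' * ord = 1` with both positive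
    have h1 : v.ord (aeval x h) ∣ 1 := Dvd.intro_left _ htot
    exact Int.eq_one_of_dvd_one hv.le h1

end branch

section dedekind

variable {K0 E0 : Type} [Field K0] [Field E0] [Algebra K0 E0]
variable {R : Type} [CommRing R] [IsDedekindDomain R] [Algebra R E0] [IsFractionRing R E0]
  [Algebra K0 R] [IsScalarTower K0 R E0]

/-- membership in a power of a height one prime in terms of the `ord` of the attached place -/
theorem klbr_mem_pow_iff (w : HeightOneSpectrum R) (r : R) (hr : r ≠ 0) (n : ℕ) :
    r ∈ w.asIdeal ^ n ↔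
      (n : ℤ) ≤ (Place.ofHeightOneSpectrum (K := K0) (F := E0) w).ord (algebraMap R E0 r) := by
  rw [Fermat.Agent.H29.ord_ofHeightOneSpectrum, ← w.intValuation_le_pow_iff_mem,
    ← w.valuation_of_algebraMap (K := E0)]
  have hr' : algebraMap R E0 r ≠ 0 := by
    rwa [Ne, map_eq_zero_iff _ (IsFractionRing.injective R E0)]
  have h0 : w.valuation E0 (algebraMap R E0 r) ≠ 0 := (Valuation.ne_zero_iff _).mpr hr'
  conv_lhs => rw [← WithZero.exp_log h0, WithZero.exp_le_exp]
  omega

/-- **KL-BR, Dedekind form (finite chart).**  `R` any Dedekind domain with fraction field `E0`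
containing the constants and the coordinate `x` (e.g. the integral closure of `K0[x]`).  For a
nonzero prime `q` of `R`: if `x - c ∈ q` for a branch value `c` then the exact power `n` with
`x - c ∈ q ^ n`, `x - c ∉ q ^ (n + 1)` divides `e c`; if `q` contains no `x - c` then `q` is
unramified over `K0[x]`: `h(x) ∈ q`, `h` irreducible, implies `h(x) ∉ q ^ 2`. -/
theorem klbr_dedekind_form (x : E0) (Cbr : Set K0) (e : K0 → ℕ) (einf : ℕ)
    (hB : BranchPlaceForm K0 E0 x Cbr e einf) (hxtr : Transcendental K0 x)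
    (xR : R) (hxR : algebraMap R E0 xR = x)
    (q : Ideal R) (hq : q.IsPrime) (hq0 : q ≠ ⊥) :
    (∀ c ∈ Cbr, ∀ n : ℕ, xR - algebraMap K0 R c ∈ q → xR - algebraMap K0 R c ∈ q ^ n →
      xR - algebraMap K0 R c ∉ q ^ (n + 1) → n ∣ e c) ∧
    (∀ h : K0[X], Irreducible h → aeval xR h ∈ q → (∀ c ∈ Cbr, xR - algebraMap K0 R c ∉ q) →
      aeval xR h ∉ q ^ 2) := by
  set w : HeightOneSpectrum R := ⟨q, hq, hq0⟩ with hw
  set v : Place K0 E0 := Place.ofHeightOneSpectrum (K := K0) (F := E0) w with hv
  obtain ⟨h1, -, h3⟩ := hB v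
  have hmap : ∀ c : K0, algebraMap R E0 (xR - algebraMap K0 R c) = x - algebraMap K0 E0 c := by
    intro c
    rw [map_sub, hxR, ← IsScalarTower.algebraMap_apply]
  have hpow : ∀ (r : R), r ≠ 0 → ∀ n : ℕ, (r ∈ q ^ n ↔ (n : ℤ) ≤ v.ord (algebraMap R E0 r)) :=
    fun r hr n => klbr_mem_pow_iff (K0 := K0) (E0 := E0) w r hr n
  have hmem1 : ∀ r : R, r ≠ 0 → (r ∈ q ↔ 0 < v.ord (algebraMap R E0 r)) := by
    intro r hr
    have := hpow r hr 1
    rw [pow_one] at this
    rw [this]
    constructor <;> intro h <;> omega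
  refine ⟨?_, ?_⟩
  · intro c hc n hmem hn hn1
    have hr0 : xR - algebraMap K0 R c ≠ 0 := by
      intro h0
      rw [h0] at hn1
      exact hn1 (Ideal.zero_mem _)
    have hpos := (hmem1 _ hr0).mp hmem
    have hge := (hpow _ hr0 n).mp hn
    have hlt : v.ord (algebraMap R E0 (xR - algebraMap K0 R c)) < (n : ℤ) + 1 := by
      by_contra hc
      exact hn1 ((hpow _ hr0 (n + 1)).mpr
        (by rw [Nat.cast_add, Nat.cast_one]; exact not_lt.mp hc))
    have heq : v.ord (algebraMap R E0 (xR - algebraMap K0 R c)) = n := by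
      omega
    rw [hmap] at hpos heq
    have hdvd := h1 c hc hpos
    rw [heq] at hdvd
    exact Int.natCast_dvd_natCast.mp hdvd
  · intro h hirr hmem hnb hsq
    have hr0 : aeval xR h ≠ 0 := by
      intro h0
      have hx0 : aeval x h = 0 := by
        rw [← hxR, aeval_algebraMap_apply, h0, map_zero]
      exact hxtr ⟨h, hirr.ne_zero, hx0⟩
    have hpos := (hmem1 _ hr0).mp hmem
    have hge := (hpow _ hr0 2).mp hsq
    have hxh : algebraMap R E0 (aeval xR h) = aeval x h := by
      rw [← hxR, aeval_algebraMap_apply]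
    rw [hxh] at hpos hge
    have hnb' : ∀ c ∈ Cbr, ¬ 0 < v.ord (x - algebraMap K0 E0 c) := by
      intro c hc hcpos
      have hrc0 : xR - algebraMap K0 R c ≠ 0 := by
        intro h0
        have := hmap c
        rw [h0, map_zero] at this
        rw [← this] at hcpos
        simp at hcpos
      apply hnb c hc
      rw [hmem1 _ hrc0, hmap]
      exact hcpos
    have := h3 h hirr hpos hnb'
    rw [this] at hge
    norm_num at hge

end dedekind

section dedekindInf

variable {K0 E0 : Type} [Field K0] [Field E0] [Algebra K0 E0]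
variable {R : Type} [CommRing R] [IsDedekindDomain R] [Algebra R E0] [IsFractionRing R E0]
  [Algebra K0 R] [IsScalarTower K0 R E0]

/-- **KL-BR, Dedekind form (chart at infinity).**  `R` any Dedekind domain with fraction field
`E0` containing the constants and `x⁻¹`.  For a nonzero prime `q` of `R` containing `x⁻¹`, the
exact power `n` with `x⁻¹ ∈ q ^ n`, `x⁻¹ ∉ q ^ (n + 1)` divides `einf`. -/
theorem klbr_dedekind_form_inf (x : E0) (Cbr : Set K0) (e : K0 → ℕ) (einf : ℕ)
    (hB : BranchPlaceForm K0 E0 x Cbr e einf) (xinvR : R) (hxR : algebraMap R E0 xinvR = x⁻¹)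
    (q : Ideal R) (hq : q.IsPrime) (hq0 : q ≠ ⊥) (n : ℕ) (hmem : xinvR ∈ q)
    (hn : xinvR ∈ q ^ n) (hn1 : xinvR ∉ q ^ (n + 1)) : n ∣ einf := by
  set w : HeightOneSpectrum R := ⟨q, hq, hq0⟩ with hw
  set v : Place K0 E0 := Place.ofHeightOneSpectrum (K := K0) (F := E0) w with hv
  obtain ⟨-, h2, -⟩ := hB v
  have hr0 : xinvR ≠ 0 := by
    intro h0
    rw [h0] at hn1
    exact hn1 (Ideal.zero_mem _)
  have hpow : ∀ (r : R), r ≠ 0 → ∀ n : ℕ, (r ∈ q ^ n ↔ (n : ℤ) ≤ v.ord (algebraMap R E0 r)) :=
    fun r hr n => klbr_mem_pow_iff (K0 := K0) (E0 := E0) w r hr n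
  have hpos : 0 < v.ord (algebraMap R E0 xinvR) := by
    have := (hpow xinvR hr0 1).mp (by rwa [pow_one])
    omega
  have hge := (hpow _ hr0 n).mp hn
  have hlt : v.ord (algebraMap R E0 xinvR) < (n : ℤ) + 1 := by
    by_contra hc
    exact hn1 ((hpow _ hr0 (n + 1)).mpr
      (by rw [Nat.cast_add, Nat.cast_one]; exact not_lt.mp hc))
  have heq : v.ord (algebraMap R E0 xinvR) = n := by
    omega
  rw [hxR] at hpos heq
  have hdvd := h2 hpos
  rw [heq] at hdvd
  exact Int.natCast_dvd_natCast.mp hdvd

end dedekindInf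

end Fermat.Agent.H2
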