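import Mathlib

/-!
# P-ES / KL-BR (helper2): descent of algebraicity along an algebraic extension of constants

`K0 ⊆ L` an algebraic extension of fields, `E / K0` and `F / L` fields with a ring homomorphism
`ι : E → F` over `K0 → L`.  If `F` is algebraic over `L(ι x)`, then `E` is algebraic over
`K0(x)`.  (Mathlib only.)
-/

set_option autoImplicit false
set_option synthInstance.maxHeartbeats 400000
set_option linter.style.haveILetI false

noncomputable section

open IntermediateField Polynomial

namespace Fermat.Agent.H2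

section descent

variable {K0 L E F : Type} [Field K0] [Field L] [Field E] [Field F]
  [Algebra K0 L] [Algebra K0 F] [Algebra L F] [IsScalarTower K0 L F]

/-- every element of `L(y)` is algebraic over `K0(y)` when `L / K0` is algebraic -/
theorem klbr_isAlgebraic_of_mem_adjoin [Algebra.IsAlgebraic K0 L] (y : F) {z : F}
    (hz : z ∈ L⟮y⟯) : IsAlgebraic K0⟮y⟯ z := by
  induction hz using IntermediateField.adjoin_induction with
  | mem z hz =>
      rw [Set.mem_singleton_iff] at hz
      subst hz
      exact isAlgebraic_algebraMap (⟨z, mem_adjoin_simple_self K0 z⟩ : K0⟮z⟯)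
  | algebraMap a =>
      have h1 : IsAlgebraic K0 a := Algebra.IsAlgebraic.isAlgebraic a
      have h2 : IsAlgebraic K0 (algebraMap L F a) := h1.algebraMap
      exact h2.tower_top K0⟮y⟯
  | add x y _ _ hx hy => exact hx.add hy
  | inv x _ hx => exact hx.inv
  | mul x y _ _ hx hy => exact hx.mul hy

/-- `K0(y) ⊆ L(y)` -/
theorem klbr_adjoin_le_adjoin (y : F) {z : F} (hz : z ∈ K0⟮y⟯) : z ∈ L⟮y⟯ := by
  induction hz using IntermediateField.adjoin_induction with
  | mem z hz =>
      rw [Set.mem_singleton_iff] at hz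
      subst hz
      exact mem_adjoin_simple_self L z
  | algebraMap a =>
      rw [IsScalarTower.algebraMap_apply K0 L F]
      exact L⟮y⟯.algebraMap_mem _
  | add x y _ _ hx hy => exact add_mem hx hy
  | inv x _ hx => exact inv_mem hx
  | mul x y _ _ hx hy => exact mul_mem hx hy

/-- **transitivity**: if `F` is algebraic over `L(y)` and `L / K0` is algebraic, then `F` is
algebraic over `K0(y)`. -/
theorem klbr_isAlgebraic_adjoin_of_isAlgebraic [Algebra.IsAlgebraic K0 L] (y : F)
    [Algebra.IsAlgebraic L⟮y⟯ F] : Algebra.IsAlgebraic K0⟮y⟯ F := by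
  let j : K0⟮y⟯ →+* L⟮y⟯ :=
    (algebraMap K0⟮y⟯ F).codRestrict L⟮y⟯.toSubfield.toSubring
      (fun z => klbr_adjoin_le_adjoin (L := L) y z.2)
  letI algM : Algebra K0⟮y⟯ L⟮y⟯ := j.toAlgebra
  haveI tow : IsScalarTower K0⟮y⟯ L⟮y⟯ F := IsScalarTower.of_algebraMap_eq (fun _ => rfl)
  haveI : Algebra.IsAlgebraic K0⟮y⟯ L⟮y⟯ := by
    refine ⟨fun z => ?_⟩
    have h := klbr_isAlgebraic_of_mem_adjoin (K0 := K0) (L := L) y z.2
    exact (isAlgebraic_algebraMap_iff (algebraMap L⟮y⟯ F).injective).mp h
  exact Algebra.IsAlgebraic.trans K0⟮y⟯ L⟮y⟯ F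

end descent

section pullback

variable {K0 L E F : Type} [Field K0] [Field L] [Field E] [Field F]
  [Algebra K0 L] [Algebra.IsAlgebraic K0 L] [Algebra K0 E] [Algebra L F]

/-- **Descent of algebraicity.**  `ι : E → F` over an algebraic extension `K0 → L` of the
constants: if `F` is algebraic over `L(ι x)`, then `E` is algebraic over `K0(x)`. -/
theorem klbr_isAlgebraic_descent (ι : E →+* F)
    (hι : ∀ a : K0, ι (algebraMap K0 E a) = algebraMap L F (algebraMap K0 L a))
    (x : E) [Algebra.IsAlgebraic L⟮ι x⟯ F] : Algebra.IsAlgebraic K0⟮x⟯ E := by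
  letI algF : Algebra K0 F := ((algebraMap L F).comp (algebraMap K0 L)).toAlgebra
  haveI tow : IsScalarTower K0 L F := IsScalarTower.of_algebraMap_eq (fun _ => rfl)
  let ιa : E →ₐ[K0] F := { ι with commutes' := hι }
  have hιa : ∀ f : E, ιa f = ι f := fun _ => rfl
  haveI h1 : Algebra.IsAlgebraic K0⟮ι x⟯ F := klbr_isAlgebraic_adjoin_of_isAlgebraic (L := L) (ι x)
  have hmap : (K0⟮x⟯).map ιa = K0⟮ι x⟯ := by
    rw [IntermediateField.adjoin_map, Set.image_singleton, hιa]
  let f : K0⟮x⟯ ≃ₐ[K0] K0⟮ι x⟯ :=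
    (IntermediateField.equivMap K0⟮x⟯ ιa).trans (IntermediateField.equivOfEq hmap)
  refine Algebra.IsAlgebraic.of_ringHom_of_comp_eq (S := K0⟮ι x⟯) (B := F) f ι
    (EquivLike.surjective f) ι.injective ?_
  ext z
  rfl

end pullback

end Fermat.Agent.H2
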