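import Fermat.Agent.H2.KLBRBridge

/-!
# P-ES / KL-BR (helper2): the branch hypotheses for a general coordinate `t` (for `t_2`, `t_3`)

`t ∈ modularFunctionFieldBar N` a coordinate with `q`-order `-1` whose branch data over `ℚ̄`
are given in the `ramIdx` shape of `BranchJStatement` / `BranchT2Statement` /
`BranchT3Statement` (row 306): branch values `0`, `c₁`, `∞` with exponents `e₀`, `e₁`, `einf`.

* `klbr_cusp_place_t` : the cusp place of `E / K0`, `ord x = -1`.
* `klbr_branchHypAt_t` : the two branch hypotheses of `H22.KL.AbstractKeyLemmaStatement`.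
-/

set_option autoImplicit false
set_option synthInstance.maxHeartbeats 400000

noncomputable section

open AlgebraicCurve IntermediateField Polynomial

namespace Fermat.Agent.H2

open Fermat.Agent.H23 Fermat.Agent.H22.KL Fermat.Agent.H27.ESD

section general

variable (N : ℕ) [NeZero N]

local notation "Kbar" => AlgebraicClosure ℚ
set_option quotPrecheck false in
local notation "FN" => ↥(ModularCurve.modularFunctionFieldBar N)

variable {K0 E : Type} [Field K0] [Field E] [Algebra K0 E] [Algebra K0 Kbar]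

omit [NeZero N] in
/-- **the cusp place** of `E / K0` for a coordinate of `q`-order `-1`. -/
theorem klbr_cusp_place_t (ι : E →+* FN)
    (hι : ∀ a : K0, ι (algebraMap K0 E a) = algebraMap Kbar FN (algebraMap K0 Kbar a))
    (x : E) (hord : ((ι x : FN) : LaurentSeries Kbar).order = -1) :
    ∃ P : Place K0 E, P.ord x = -1 := by
  let ι' : E →+* LaurentSeries Kbar :=
    ((ModularCurve.modularFunctionFieldBar N).val : FN →+* LaurentSeries Kbar).comp ι
  have hι' : ∀ f : E, ι' f = ((ι f : FN) : LaurentSeries Kbar) := fun f => rfl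
  have hconst : ∀ a : K0, a ≠ 0 → (ι' (algebraMap K0 E a)).order = 0 := by
    intro a ha
    rw [hι', hι]
    have hne : algebraMap K0 Kbar a ≠ 0 := by simpa using ha
    have : ((algebraMap Kbar FN (algebraMap K0 Kbar a) : FN) : LaurentSeries Kbar) =
        HahnSeries.single 0 (algebraMap K0 Kbar a) := by
      show algebraMap Kbar (LaurentSeries Kbar) (algebraMap K0 Kbar a) = _
      have h1 : algebraMap Kbar (PowerSeries Kbar) (algebraMap K0 Kbar a) =
          PowerSeries.C (algebraMap K0 Kbar a) := by simp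
      rw [HahnSeries.algebraMap_apply', h1, HahnSeries.ofPowerSeries_C]
      rfl
    rw [this, HahnSeries.order_single hne]
  obtain ⟨P, hP⟩ := klbr_cusp_place ι' hconst x hord
  exact ⟨P, by rw [hP]; exact hord⟩

variable {A : Type} [CommRing A] [IsDomain A] [IsDiscreteValuationRing A]
  [Algebra A K0] [IsFractionRing A K0] [Algebra A E] [IsScalarTower A K0 E]
  [Algebra.IsAlgebraic K0 Kbar]

/-- **KL-BR for a general coordinate** `t` with branch values `0`, `c₁`, `∞`
(exponents `e₀`, `e₁`, `einf`), branch data given in `ramIdx` form over `ℚ̄`. -/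
theorem klbr_branchHypAt_t (ϖ : A) (hϖ : Irreducible ϖ) (ι : E →+* FN)
    (hι : ∀ a : K0, ι (algebraMap K0 E a) = algebraMap Kbar FN (algebraMap K0 Kbar a))
    (x : E) [Algebra.IsAlgebraic K0⟮x⟯ E]
    (httr : Transcendental Kbar (ι x)) (hfin : FiniteDimensional Kbar⟮ι x⟯ FN)
    (hord : ((ι x : FN) : LaurentSeries Kbar).order = -1)
    (c1 : A) (hc1 : ¬ ϖ ∣ c1) (e0 e1 einf : ℕ)
    (H : ∀ v : Place Kbar FN,
      (1 < ramIdx (ι x) v → v.ord (ι x) < 0 ∨ 0 < v.ord (ι x) ∨
        0 < v.ord (ι x - algebraMap Kbar FN (algebraMap K0 Kbar (algebraMap A K0 c1)))) ∧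
      (v.ord (ι x) < 0 → ramIdx (ι x) v ∣ einf) ∧
      (0 < v.ord (ι x) → ramIdx (ι x) v ∣ e0) ∧
      (0 < v.ord (ι x - algebraMap Kbar FN (algebraMap K0 Kbar (algebraMap A K0 c1))) →
        ramIdx (ι x) v ∣ e1))
    (he0 : 0 < e0 ∧ IsUnit ((e0 : ℕ) : A) ∧ ∃ ζ : A, IsPrimitiveRoot ζ e0)
    (he1 : 0 < e1 ∧ IsUnit ((e1 : ℕ) : A) ∧ ∃ ζ : A, IsPrimitiveRoot ζ e1)
    (heinf : 0 < einf ∧ IsUnit ((einf : ℕ) : A) ∧ ∃ ζ : A, IsPrimitiveRoot ζ einf) :
    (∀ g : A[X], g.Monic → Irreducible (g.map (IsLocalRing.residue A)) →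
      BranchHypAt A E ϖ x g) ∧
    BranchHypAt A E ϖ x⁻¹ X := by
  have hc10 : c1 ≠ 0 := by
    rintro rfl
    exact hc1 (dvd_zero _)
  have hc1K : algebraMap A K0 c1 ≠ 0 := by
    rwa [Ne, map_eq_zero_iff _ (IsFractionRing.injective A K0)]
  have hxtr : Transcendental K0 x := by
    rintro ⟨p, hp0, hp⟩
    apply httr
    refine ⟨p.map (algebraMap K0 Kbar), ?_, ?_⟩
    · rwa [Ne, Polynomial.map_eq_zero]
    · have h := congrArg ι hp
      rw [map_zero, aeval_def, hom_eval₂] at h
      have hcomp : (algebraMap Kbar FN).comp (algebraMap K0 Kbar) =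
          ι.comp (algebraMap K0 E) := RingHom.ext fun a => (hι a).symm
      rw [aeval_def, eval₂_map, hcomp, h]
  have hBO : BranchOrd K0 Kbar (ι x) ({0, algebraMap A K0 c1} : Set K0)
      (branchExp K0 e0 e1) einf :=
    klbr_branchOrd_of_ramIdx (ι x) (algebraMap A K0 c1) e0 e1 einf hc1K H
  have himg : algebraMap A K0 '' ({0, c1} : Set A) = ({0, algebraMap A K0 c1} : Set K0) := by
    rw [Set.image_pair, map_zero]
  have hB : BranchPlaceForm K0 E x (algebraMap A K0 '' ({0, c1} : Set A))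
      (branchExp K0 e0 e1) einf := by
    rw [himg]
    exact klbr_place_form ι hι x httr hfin _ _ _ hBO
  refine klbr_branchHypAt ϖ hϖ x hxtr c1 (branchExp K0 e0 e1) einf hB hc1 ?_ ?_ heinf
    (klbr_cusp_place_t N ι hι x hord)
  · rw [branchExp_zero]
    exact he0
  · rw [branchExp_of_ne _ _ _ hc1K]
    exact he1

end general

end Fermat.Agent.H2
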