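import Fermat.Agent.H2.KLBRModel
import Fermat.Agent.H2.KLBRT
import Fermat.Agent.H2.KLBRDescAlg

/-!
# P-ES / KL-BR (helper2): `H22.KL.ModelBranchStatement` for a general coordinate (`t_2`, `t_3`)

`x₀ : LaurentSeries ℚ` a coordinate series of `q`-order `-1` whose base change to `ℚ̄` is an
element `t` of `modularFunctionFieldBar N`, transcendental over `ℚ̄`, with
`[F_N : ℚ̄(t)] < ∞` and branch data over `ℚ̄` in the `ramIdx` shape of `BranchJStatement` /
`BranchT2Statement` / `BranchT3Statement` (row 306): branch values `0`, `c₁ ∈ ℤ`, `∞` with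
exponents `e₀`, `e₁`, `einf`, all prime to `ℓ`.  Then `ModelBranchStatement N ℓ x₀ M` holds for
every `M ≠ 0` divisible by `e₀`, `e₁`, `einf`.

* `klbr_isUnit_intCast_of_isCoprime`
* `klbr_model_t` : the generic statement.
* `klbr_model_t'` : the same with the branch value written `t + c` (`c₁ = -c`), the shape of
  `BranchT2Statement` (`t + 64`) and `BranchT3Statement` (`t + 27`).
-/

set_option autoImplicit false
set_option synthInstance.maxHeartbeats 400000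
set_option linter.style.haveILetI false

noncomputable section

open AlgebraicCurve IntermediateField Polynomial ModularCurve

namespace Fermat.Agent.H2

open Fermat.Agent.H23 Fermat.Agent.H22.KL Fermat.Agent.H27.ESD

/-- In a local ring in which `ℓ` is not a unit, every integer prime to `ℓ` is a unit. -/
theorem klbr_isUnit_intCast_of_isCoprime {A : Type} [CommRing A] [IsLocalRing A] {ℓ : ℕ}
    (hℓ : ¬ IsUnit ((ℓ : ℕ) : A)) {c : ℤ} (hc : IsCoprime c (ℓ : ℤ)) : IsUnit ((c : ℤ) : A) := by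
  obtain ⟨a, b, hab⟩ := hc
  have h1 : ((a : ℤ) : A) * ((c : ℤ) : A) + ((b : ℤ) : A) * ((ℓ : ℕ) : A) = 1 := by
    have := congrArg (Int.cast : ℤ → A) hab
    push_cast at this
    exact this
  have h2 : IsUnit (((a : ℤ) : A) * ((c : ℤ) : A) + ((b : ℤ) : A) * ((ℓ : ℕ) : A)) := by
    rw [h1]
    exact isUnit_one
  rcases IsLocalRing.isUnit_or_isUnit_of_isUnit_add h2 with h | h
  · exact isUnit_of_mul_isUnit_right h
  · exact absurd (isUnit_of_mul_isUnit_right h) hℓ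

section model

variable (N : ℕ) [NeZero N]

local notation "Kbar" => AlgebraicClosure ℚ
set_option quotPrecheck false in
local notation "FN" => ↥(ModularCurve.modularFunctionFieldBar N)

/-- **KL-BR, concrete model, general coordinate** (row 358). -/
theorem klbr_model_t (ℓ : ℕ) (x₀ : LaurentSeries ℚ) (t : FN)
    (ht : (t : LaurentSeries Kbar) = coeffEmb Kbar x₀)
    (httr : Transcendental Kbar t) (hfin : FiniteDimensional Kbar⟮t⟯ FN)
    (hord : (coeffEmb Kbar x₀).order = -1)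
    (c1 : ℤ) (e0 e1 einf : ℕ)
    (hc1 : IsCoprime c1 (ℓ : ℤ)) (he0 : Nat.Coprime e0 ℓ) (he1 : Nat.Coprime e1 ℓ)
    (heinf : Nat.Coprime einf ℓ)
    (H : ∀ v : Place Kbar FN,
      (1 < ramIdx t v → v.ord t < 0 ∨ 0 < v.ord t ∨
        0 < v.ord (t - algebraMap Kbar FN ((c1 : ℤ) : Kbar))) ∧
      (v.ord t < 0 → ramIdx t v ∣ einf) ∧
      (0 < v.ord t → ramIdx t v ∣ e0) ∧
      (0 < v.ord (t - algebraMap Kbar FN ((c1 : ℤ) : Kbar)) → ramIdx t v ∣ e1))
    (M : ℕ) (hM : M ≠ 0) (h0M : e0 ∣ M) (h1M : e1 ∣ M) (hinfM : einf ∣ M) :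
    ModelBranchStatement N ℓ x₀ M := by
  intro K₁ _ _ _ A₀ _ _ _ _ _ _ _ hℓA hζ ϖ hϖ x hx
  -- an embedding of `K₁` into `ℚ̄`
  haveI : Algebra.IsAlgebraic ℚ K₁ := Algebra.IsAlgebraic.of_finite ℚ K₁
  let φ : K₁ →ₐ[ℚ] AlgebraicClosure ℚ := IsAlgClosed.lift
  letI algK : Algebra K₁ (AlgebraicClosure ℚ) := φ.toRingHom.toAlgebra
  haveI tow : IsScalarTower ℚ K₁ (AlgebraicClosure ℚ) :=
    IsScalarTower.of_algebraMap_eq (fun a => (φ.commutes a).symm)
  haveI : Algebra.IsAlgebraic ℚ (AlgebraicClosure ℚ) := AlgebraicClosure.isAlgebraic ℚ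
  haveI : Algebra.IsAlgebraic K₁ (AlgebraicClosure ℚ) :=
    Algebra.IsAlgebraic.tower_top (K := ℚ) K₁
  -- the comparison map
  let ι : ModelField K₁ N →+* ↥(modularFunctionFieldBar N) :=
    Fermat.Agent.H93.KL.klBc φ.toRingHom (modularFunctionFieldFull N)
  have hι : ∀ a : K₁, ι (algebraMap K₁ (ModelField K₁ N) a) =
      algebraMap (AlgebraicClosure ℚ) ↥(modularFunctionFieldBar N)
        (algebraMap K₁ (AlgebraicClosure ℚ) a) := fun a =>
    Fermat.Agent.H73.KLDesc.klBc_algebraMap φ.toRingHom (modularFunctionFieldFull N) a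
  have hxt : ι x = t := by
    apply Subtype.ext
    show coeffMap φ.toRingHom (x : LaurentSeries K₁) = (t : LaurentSeries Kbar)
    rw [hx, ht, coeffEmb, coeffEmb, coeffMap_coeffMap]
    exact coeffMap_congr (Subsingleton.elim _ _) x₀
  -- algebraicity over `K₁(x)`
  haveI hfin' : FiniteDimensional Kbar⟮ι x⟯ FN := by
    rw [hxt]
    exact hfin
  haveI : Algebra.IsAlgebraic Kbar⟮ι x⟯ FN := Algebra.IsAlgebraic.of_finite _ _
  haveI : Algebra.IsAlgebraic K₁⟮x⟯ (ModelField K₁ N) := klbr_isAlgebraic_descent ι hι x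
  -- units
  have hcop : ∀ n : ℕ, Nat.Coprime n ℓ → IsUnit ((n : ℕ) : A₀) := fun n hn =>
    klbr_isUnit_natCast_of_coprime hℓA hn
  have hpos : ∀ n : ℕ, n ∣ M → 0 < n := fun n hn =>
    Nat.pos_of_ne_zero (fun h => hM (by rw [h] at hn; exact zero_dvd_iff.mp hn))
  have hc1u : IsUnit ((c1 : ℤ) : A₀) := klbr_isUnit_intCast_of_isCoprime hℓA hc1
  have hc1' : ¬ ϖ ∣ ((c1 : ℤ) : A₀) := fun h => hϖ.not_isUnit (isUnit_of_dvd_unit h hc1u)
  have hmapc : algebraMap K₁ Kbar (algebraMap A₀ K₁ ((c1 : ℤ) : A₀)) = ((c1 : ℤ) : Kbar) := by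
    rw [map_intCast, map_intCast]
  refine klbr_branchHypAt_t N ϖ hϖ ι hι x (hxt ▸ httr) hfin' ?_ ((c1 : ℤ) : A₀) hc1'
    e0 e1 einf ?_ ⟨hpos _ h0M, hcop _ he0, klbr_exists_primitiveRoot_of_dvd hM hζ h0M⟩
    ⟨hpos _ h1M, hcop _ he1, klbr_exists_primitiveRoot_of_dvd hM hζ h1M⟩
    ⟨hpos _ hinfM, hcop _ heinf, klbr_exists_primitiveRoot_of_dvd hM hζ hinfM⟩
  · rw [hxt, ht]
    exact hord
  · intro v
    rw [hmapc, hxt]
    exact H v

/-- The same with the branch value written `t + c` (the shape of `BranchT2Statement`,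
`BranchT3Statement`). -/
theorem klbr_model_t' (ℓ : ℕ) (x₀ : LaurentSeries ℚ) (t : FN)
    (ht : (t : LaurentSeries Kbar) = coeffEmb Kbar x₀)
    (httr : Transcendental Kbar t) (hfin : FiniteDimensional Kbar⟮t⟯ FN)
    (hord : (coeffEmb Kbar x₀).order = -1)
    (c : ℕ) (e0 e1 einf : ℕ)
    (hc : Nat.Coprime c ℓ) (he0 : Nat.Coprime e0 ℓ) (he1 : Nat.Coprime e1 ℓ)
    (heinf : Nat.Coprime einf ℓ)
    (H : ∀ v : Place Kbar FN,
      (1 < ramIdx t v → v.ord t < 0 ∨ 0 < v.ord t ∨ 0 < v.ord (t + ((c : ℕ) : FN))) ∧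
      (v.ord t < 0 → ramIdx t v ∣ einf) ∧
      (0 < v.ord t → ramIdx t v ∣ e0) ∧
      (0 < v.ord (t + ((c : ℕ) : FN)) → ramIdx t v ∣ e1))
    (M : ℕ) (hM : M ≠ 0) (h0M : e0 ∣ M) (h1M : e1 ∣ M) (hinfM : einf ∣ M) :
    ModelBranchStatement N ℓ x₀ M := by
  have hcz : IsCoprime (-(c : ℤ)) (ℓ : ℤ) := (Nat.isCoprime_iff_coprime.mpr hc).neg_left
  have hconv : t - algebraMap Kbar FN (((-(c : ℤ) : ℤ)) : Kbar) = t + ((c : ℕ) : FN) := by
    rw [Int.cast_neg, Int.cast_natCast, map_neg, map_natCast, sub_neg_eq_add]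
  refine klbr_model_t N ℓ x₀ t ht httr hfin hord (-(c : ℤ)) e0 e1 einf hcz he0 he1 heinf ?_
    M hM h0M h1M hinfM
  intro v
  rw [hconv]
  exact H v

end model

end Fermat.Agent.H2
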