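import Mathlib
import Fermat.Agent.H53.S14T.Interfaces

/-!
# P-S14, block T, subtask T-M: the moving lemma (assembly of E0 + E1 + P1) (helper2)
-/

set_option autoImplicit false

open scoped NumberField nonZeroDivisors Pointwise

namespace Fermat.Agent.H2

open Fermat.Agent.H53

/-- **T-M.** `MoveStatement` from the span statement, the sum-valuation statement and the
transitivity statement. -/
theorem moveStatement_of_parts (hE0 : SpanStatement) (hE1 : SumValuationStatement)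
    (hP1 : TransitiveStatement) : MoveStatement := by
  intro p hp K _ _ ι z f hf hdeg hroot d hd A ℓ hℓ hA τ hτ hτz hv1 hv2 hv3 hv4
  -- the conjugate valuation subring
  have hmemA' : ∀ x : AlgebraicClosure ℚ, x ∈ τ • A ↔ τ⁻¹ x ∈ A := fun x =>
    ValuationSubring.mem_pointwise_smul_iff_inv_smul_mem
  have hτinv : ∀ k : K, τ⁻¹ (ι k) = ι k := by
    intro k
    have h := hτ k
    calc τ⁻¹ (ι k) = τ⁻¹ (τ (ι k)) := by rw [h]
      _ = ι k := by simp
  have hLA : ∀ y ∈ IntermediateField.adjoin ℚ (Set.range ι ∪ {z}), y ∈ τ • A ↔ y ∈ A := by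
    intro y hy
    obtain ⟨c, rfl⟩ := hE0 p K ι z f hf hdeg hroot y hy
    rw [hmemA']
    have e : τ⁻¹ (∑ i ∈ Finset.range p, ι (c i) * z ^ i)
        = ∑ i ∈ Finset.range p, ι (c i) * (τ⁻¹ z) ^ i := by
      simp only [map_sum, map_mul, map_pow, hτinv]
    rw [e, (hE1 p hp K ι z d hd A hv1 hv2 c).1, (hE1 p hp K ι (τ⁻¹ z) d hd A hv3 hv4 c).1]
  obtain ⟨ρ, hρL, hρA⟩ := hP1 _ A (τ • A) ℓ hℓ hA hLA
  refine ⟨ρ * τ, ?_, ?_, ?_⟩
  · -- `ρ * τ` stabilises `A`
    rw [MulAction.mem_stabilizer_iff]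
    ext x
    rw [ValuationSubring.mem_pointwise_smul_iff_inv_smul_mem]
    have h1 : (ρ * τ)⁻¹ • x = τ⁻¹ (ρ⁻¹ x) := by
      rw [mul_inv_rev]
      rfl
    rw [h1, ← hmemA', hρA]
    simp
  · intro k
    have hk : ι k ∈ IntermediateField.adjoin ℚ (Set.range ι ∪ {z}) :=
      IntermediateField.subset_adjoin ℚ _ (Or.inl ⟨k, rfl⟩)
    change ρ (τ (ι k)) = ι k
    rw [hτ k, hρL _ hk]
  · change ρ (τ z) = τ z
    exact hρL _ hτz

end Fermat.Agent.H2
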