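import Mathlib
import Fermat.Agent.H19.Coset
import Fermat.Agent.H7.DimBridge
import Fermat.Agent.H96.LevelOneStructure

/-!
# P-DIM (S20), subtask AS-3: nondegeneracy at infinity from freeness (helper2)
-/

set_option autoImplicit false

namespace Fermat.Agent.H2

open UpperHalfPlane ModularForm CongruenceSubgroup Filter Topology Asymptotics
open Fermat.Agent.H19 Fermat.Agent.H7
open scoped MatrixGroups Manifold

/-- The weights of a free generating system are even. -/
theorem gens_even_weight_aux {N : ℕ} [NeZero N] {J : Type} {k : J → ℤ} {f : J → ℍ → ℂ}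
    (h : IsGens N J k f) (j : J) : Even (k j) := by
  by_contra hodd
  rw [Int.not_even_iff_odd] at hodd
  have hf0 : f j = 0 := IsMF.eq_zero_of_odd hodd (h.isMF j)
  have h1 : ∀ i ∈ ({j} : Finset J), IsMF 1 (k j - k i) ((fun _ _ => (1 : ℂ)) i) := by
    intro i hi
    rw [Finset.mem_singleton] at hi
    subst hi
    exact IsMF.weight_cast (by ring) (IsMF.const 1 (1 : ℂ))
  have h2 : ∑ i ∈ ({j} : Finset J), (fun (_ : J) (_ : ℍ) => (1 : ℂ)) i * f i = 0 := by
    simp [hf0]
  have h3 := h.uniq (k j) {j} (fun _ _ => (1 : ℂ)) h1 h2 j (Finset.mem_singleton_self j)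
  have h4 := congrFun h3 UpperHalfPlane.I
  simp at h4

/-- A level one form tending to `1` at `i∞` is `1 + O(Δ)`. -/
theorem levelOne_sub_one_div_discriminant_bdd {m : ℤ} (g : ModularForm 𝒮ℒ m)
    (hg : Tendsto g atImInfty (𝓝 1)) :
    IsBoundedAtImInfty (fun z => (g z - 1) / ModularForm.discriminant z) := by
  have hval : valueAtInfty (g : ℍ → ℂ) = 1 := hg.limUnder_eq
  have h1 : (fun τ : ℍ => g τ - valueAtInfty (g : ℍ → ℂ)) =O[atImInfty]
      fun τ => Real.exp (-2 * Real.pi * τ.im / 1) :=
    UpperHalfPlane.exp_decay_sub_atImInfty one_pos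
      (SlashInvariantFormClass.periodic_comp_ofComplex g one_mem_strictPeriods_SL)
      (ModularFormClass.holo g) (ModularFormClass.bdd_at_infty g)
  have h2 : (fun τ : ℍ => g τ - 1) =O[atImInfty] ModularForm.discriminant := by
    rw [hval] at h1
    refine h1.trans ?_
    simpa using ModularForm.exp_isBigO_discriminant
  rw [IsBoundedAtImInfty, BoundedAtFilter]
  exact (div_isBoundedUnder_of_isBigO h2).isBigO_one ℝ

theorem isMF_sum_aux {N : ℕ} {K : ℤ} {ι : Type*} (s : Finset ι) (F : ι → ℍ → ℂ)
    (h : ∀ i ∈ s, IsMF N K (F i)) : IsMF N K (∑ i ∈ s, F i) :=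
  Submodule.sum_mem (MFsub N K) h

theorem cosetFun_mul_cast {N : ℕ} {m k K : ℤ} {g φ : ℍ → ℂ} (hg : IsMF 1 m g) (hK : m + k = K)
    (q : Q N) : cosetFun N K (g * φ) q = g * cosetFun N k φ q := by
  subst hK
  exact cosetFun_mul hg q

theorem isMF_discriminant_aux : IsMF 1 12 ModularForm.discriminant :=
  (isCF_one_coe CuspForm.discriminant).isMF

/-- **AS-3.** Nondegeneracy at infinity of a free generating system. -/
theorem nondegenerate_at_infty (N : ℕ) [NeZero N] {k : Q N → ℤ} {f : Q N → ℍ → ℂ}
    (h : IsGens N (Q N) k f) (c : Q N → ℂ)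
    (hc : ∀ q : Q N, IsBoundedAtImInfty
      (fun z => (∑ j, c j * cosetFun N (k j) (f j) q z) / ModularForm.discriminant z)) :
    c = 0 := by
  classical
  set K : ℤ := ∑ j, k j + 4 with hK
  -- level one multipliers
  have hG : ∀ j : Q N, ∃ G : ℍ → ℂ, IsMF 1 (K - k j) G ∧ Tendsto G atImInfty (𝓝 1) ∧
      IsBoundedAtImInfty (fun z => (G z - 1) / ModularForm.discriminant z) := by
    intro j
    have hnn : 0 ≤ ∑ i ∈ Finset.univ.erase j, k i := Finset.sum_nonneg fun i _ => h.nonneg i
    have hev : Even (∑ i ∈ Finset.univ.erase j, k i) :=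
      Finset.even_sum _ fun i _ => gens_even_weight_aux h i
    have hsum : K - k j = ∑ i ∈ Finset.univ.erase j, k i + 4 := by
      rw [hK, ← Finset.add_sum_erase Finset.univ k (Finset.mem_univ j)]
      ring
    obtain ⟨n, hn⟩ : ∃ n : ℕ, (n : ℤ) = K - k j :=
      ⟨(K - k j).toNat, Int.toNat_of_nonneg (by omega)⟩
    have hn4 : 4 ≤ n := by omega
    have hne : Even n := by
      have : Even (n : ℤ) := by
        rw [hn, hsum]
        exact hev.add ⟨2, rfl⟩
      exact_mod_cast this
    obtain ⟨g, hg⟩ := Fermat.Agent.H96.levelOne_exists_one_at_infty n hn4 hne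
    exact ⟨g, IsMF.weight_cast hn (isMF_one_coe g), hg,
      levelOne_sub_one_div_discriminant_bdd g hg⟩
  choose G hG1 hG2 hG3 using hG
  set H : ℍ → ℂ := ∑ j, c j • (G j * f j) with hH
  have hGf : ∀ j, IsMF N K (G j * f j) := fun j =>
    IsMF.weight_cast (by ring) (IsMF.mul (hG1 j) (h.isMF j))
  have hHMF : IsMF N K H := isMF_sum_aux _ _ fun j _ => IsMF.smul (c j) (hGf j)
  -- coset functions of `H`
  have hHcoset : ∀ q : Q N,
      cosetFun N K H q = ∑ j, c j • (G j * cosetFun N (k j) (f j) q) := by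
    intro q
    rw [hH, cosetFun_sum]
    refine Finset.sum_congr rfl fun j _ => ?_
    rw [cosetFun_smul, cosetFun_mul_cast (k := k j) (hG1 j) (by ring)]
  -- `χ = H / Δ`
  set χ : ℍ → ℂ := H / ModularForm.discriminant with hχ
  have hΔinv : ∀ γ : SL(2, ℤ),
      ModularForm.discriminant ∣[(12 : ℤ)] γ = ModularForm.discriminant :=
    fun γ => isMF_discriminant_aux.inv γ (mem_Gamma0_one γ)
  have hχcoset : ∀ q : Q N,
      cosetFun N (K - 12) χ q = cosetFun N K H q / ModularForm.discriminant := by
    intro q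
    unfold cosetFun
    rw [hχ, div_slash_SL2, hΔinv]
  have hχMF : IsMF N (K - 12) χ := by
    refine isMF_of_cosetFun ?_ ?_ ?_
    · exact hHMF.holo.div CuspForm.discriminant.holo' discriminant_ne_zero
    · intro γ hγ
      rw [hχ, div_slash_SL2, hΔinv, hHMF.inv γ hγ]
    · intro q
      rw [hχcoset, hHcoset]
      have e : (∑ j, c j • (G j * cosetFun N (k j) (f j) q)) / ModularForm.discriminant
          = (fun z => (∑ j, c j * cosetFun N (k j) (f j) q z) / ModularForm.discriminant z)
            + ∑ j, c j • ((fun z => (G j z - 1) / ModularForm.discriminant z)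
                * cosetFun N (k j) (f j) q) := by
        funext z
        simp only [Pi.div_apply, Finset.sum_apply, Pi.smul_apply, Pi.mul_apply, Pi.add_apply,
          smul_eq_mul]
        rw [Finset.sum_div, Finset.sum_div, ← Finset.sum_add_distrib]
        refine Finset.sum_congr rfl fun j _ => ?_
        ring
      rw [e]
      refine BoundedAtFilter.add (hc q) ?_
      exact Submodule.sum_mem (boundedFilterSubmodule ℂ atImInfty) fun j _ =>
        BoundedAtFilter.smul (c j) ((hG3 j).mul ((h.isMF j).cosetFun_bdd q))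
  obtain ⟨s, r, hr, hχeq⟩ := h.gen (K - 12) χ hχMF
  set r' : Q N → ℍ → ℂ := fun j => if j ∈ s then r j else 0 with hr'
  have hr'MF : ∀ j, IsMF 1 (K - 12 - k j) (r' j) := by
    intro j
    by_cases hj : j ∈ s
    · simp only [hr', if_pos hj]
      exact hr j hj
    · simp only [hr', if_neg hj]
      exact IsMF.zero
  have hχeq' : χ = ∑ j, r' j * f j := by
    rw [hχeq, ← Finset.sum_subset (Finset.subset_univ s)]
    · refine Finset.sum_congr rfl fun j hj => ?_
      simp only [hr', if_pos hj]
    · intro j _ hj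
      simp only [hr', if_neg hj, zero_mul]
  set ρ : Q N → ℍ → ℂ := fun j => c j • G j - ModularForm.discriminant * r' j with hρ
  have hρMF : ∀ j ∈ Finset.univ, IsMF 1 (K - k j) (ρ j) := by
    intro j _
    refine IsMF.sub (IsMF.smul (c j) (hG1 j)) ?_
    exact IsMF.weight_cast (by ring) (IsMF.mul isMF_discriminant_aux (hr'MF j))
  have hsum0 : ∑ j, ρ j * f j = 0 := by
    have e1 : ∑ j, ρ j * f j = H - ModularForm.discriminant * χ := by
      rw [hχeq', hH, Finset.mul_sum, ← Finset.sum_sub_distrib]
      refine Finset.sum_congr rfl fun j _ => ?_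
      funext z
      simp only [hρ, Pi.mul_apply, Pi.sub_apply, Pi.smul_apply, smul_eq_mul]
      ring
    rw [e1, hχ]
    funext z
    simp only [Pi.sub_apply, Pi.mul_apply, Pi.div_apply, Pi.zero_apply]
    rw [mul_div_cancel₀ _ (discriminant_ne_zero z)]
    ring
  have hρ0 := h.uniq K Finset.univ ρ hρMF hsum0
  funext j
  have hj := hρ0 j (Finset.mem_univ j)
  have heq : (fun z => c j * G j z) = ModularForm.discriminant * r' j := by
    funext z
    have := congrFun hj z
    simp only [hρ, Pi.sub_apply, Pi.smul_apply, smul_eq_mul, Pi.mul_apply, Pi.zero_apply] at this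
    simp only [Pi.mul_apply]
    linear_combination this
  have hlim1 : Tendsto (fun z => c j * G j z) atImInfty (𝓝 (c j)) := by
    simpa using (hG2 j).const_mul (c j)
  have hlim2 : Tendsto (ModularForm.discriminant * r' j) atImInfty (𝓝 0) := by
    have hb : IsBoundedAtImInfty (r' j) := by
      have := (hr'MF j).bdd 1
      simpa using this
    exact ZeroAtFilter.mul_boundedAtFilter discriminant_isZeroAtImInfty hb
  rw [heq] at hlim1
  exact tendsto_nhds_unique hlim1 hlim2

end Fermat.Agent.H2
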