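import Fermat.Agent.H2.KLBRModelT23
import Fermat.Agent.H17.ESD.T2Member
import Fermat.Agent.H1.ESD.T3Branch

/-!
# P-ES / KL-BR (helper2): `H22.KL.ModelBranchStatement` for `ℓ = 3` (`x₀ = t_2`) and `ℓ = 2`
(`x₀ = t_3`), UNCONDITIONAL

* `klbr_model_t2_all` : `ModelBranchStatement N ℓ (t2S ℚ) M` for `2 ∣ N`, `ℓ` prime to `2 N`,
  `M ≠ 0`, `2 ∣ M`, `N ∣ M`.
* `klbr_model_t3_all` : `ModelBranchStatement N ℓ (t3 ℚ) M` for `3 ∣ N`, `ℓ` prime to `3 N`,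
  `M ≠ 0`, `3 ∣ M`, `N ∣ M`.
* `klbr_model_three` : `ModelBranchStatement N 3 (t2S ℚ) (2 * N)` for `2 ∣ N`, `3 ∤ N`.
* `klbr_model_two` : `ModelBranchStatement N 2 (t3 ℚ) (3 * N)` for `3 ∣ N`, `2 ∤ N`.
-/

set_option autoImplicit false

noncomputable section

open ModularCurve

namespace Fermat.Agent.H2

open Fermat.Agent.H22.KL

variable (N : ℕ) [NeZero N]

theorem klbr_model_t2_all (h2 : 2 ∣ N) (ℓ : ℕ) (h2ℓ : Nat.Coprime 2 ℓ) (hNℓ : Nat.Coprime N ℓ)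
    (M : ℕ) (hM : M ≠ 0) (h2M : 2 ∣ M) (hNM : N ∣ M) :
    ModelBranchStatement N ℓ (Fermat.Agent.H17.ESD.t2S ℚ) M :=
  klbr_model_t2S N ℓ (Fermat.Agent.H17.ESD.t2S_mem_bar N h2) h2ℓ hNℓ M hM h2M hNM

theorem klbr_model_t3_all (h3 : 3 ∣ N) (ℓ : ℕ) (h3ℓ : Nat.Coprime 3 ℓ) (hNℓ : Nat.Coprime N ℓ)
    (M : ℕ) (hM : M ≠ 0) (h3M : 3 ∣ M) (hNM : N ∣ M) :
    ModelBranchStatement N ℓ (Fermat.Agent.H1.ESD.t3 ℚ) M :=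
  klbr_model_t3 N ℓ (Fermat.Agent.H1.ESD.t3_mem_bar N h3) h3ℓ hNℓ M hM h3M hNM

/-- **KL-BR at `ℓ = 3`** (`2 ∣ N`, `3 ∤ N`, coordinate `t_2`, `M = 2 N`). -/
theorem klbr_model_three (h2 : 2 ∣ N) (h3 : ¬ 3 ∣ N) :
    ModelBranchStatement N 3 (Fermat.Agent.H17.ESD.t2S ℚ) (2 * N) :=
  klbr_model_t2_all N h2 3 (by norm_num)
    (((Nat.Prime.coprime_iff_not_dvd Nat.prime_three).mpr h3).symm) (2 * N)
    (mul_ne_zero (by norm_num) (NeZero.ne N)) (dvd_mul_right 2 N) (dvd_mul_left N 2)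

/-- **KL-BR at `ℓ = 2`** (`3 ∣ N`, `2 ∤ N`, coordinate `t_3`, `M = 3 N`). -/
theorem klbr_model_two (h3 : 3 ∣ N) (h2 : ¬ 2 ∣ N) :
    ModelBranchStatement N 2 (Fermat.Agent.H1.ESD.t3 ℚ) (3 * N) :=
  klbr_model_t3_all N h3 2 (by norm_num)
    (((Nat.Prime.coprime_iff_not_dvd Nat.prime_two).mpr h2).symm) (3 * N)
    (mul_ne_zero (by norm_num) (NeZero.ne N)) (dvd_mul_right 3 N) (dvd_mul_left N 3)

end Fermat.Agent.H2
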