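import Fermat.Agent.H2.KLBRPlace
import Fermat.Agent.H22.ES.KLSetting

/-!
# P-ES / KL-BR (helper2): from the place form to the valuation-subring form of `H22.KL`

`A` a DVR, `K0 = Frac A`, `E / K0` a function field with coordinate `x`.  From
`BranchPlaceForm K0 E x Cbr e einf` (see `Fermat.Agent.H2.KLBRPlace`) we derive the branch
hypotheses of the abstract key lemma in the CORRECTED form
(F1) `InDiscC` : the centre of `v` on `Spec A[x]` is contained in `(ϖ, g)`,
(F2) the tame alternative for every `g ≡ X - c mod ϖ`.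

* `klbr_unramifiedNearC` : at `g` with `X - c ∉ (ϖ, g)` for all branch values `c`.
* `klbr_tameNearC` : at `g = X - c`.
* `klbr_tameNearC_inf` : chart `x⁻¹` at `g = X`.
* `klbr_not_ordDvd` : a place with `ord x = -1` has `d ∤ ord (x - c)`, `d ∤ ord x⁻¹`.
-/

set_option autoImplicit false

noncomputable section

open AlgebraicCurve IntermediateField Polynomial IsDedekindDomain

namespace Fermat.Agent.H2

open Fermat.Agent.H22.KL

section defs

variable (A : Type) [CommRing A] (E : Type) [Field E] [Algebra A E]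

/-- (F1) the centre of `v` on `Spec A[x]` is contained in the ideal `(ϖ, g)`. -/
def InDiscC (ϖ : A) (x : E) (g : A[X]) (v : ValuationSubring E) : Prop :=
  ∀ f : A[X], aeval x f ∈ v.nonunits → ∃ p q : A[X], f = C ϖ * p + g * q

/-- `UnramifiedNear` with the corrected disc. -/
def UnramifiedNearC (ϖ : A) (x : E) (g : A[X]) : Prop :=
  ∀ v : ValuationSubring E, IsFinitePlace A E x v → InDiscC A E ϖ x g v →
    IsUnramifiedPlace A E x v

/-- `TameNear` with the corrected disc. -/
def TameNearC (ϖ : A) (x : E) (c : A) (e : ℕ) : Prop :=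
  ∀ v : ValuationSubring E, IsFinitePlace A E x v → InDiscC A E ϖ x (X - C c) v →
    (x - algebraMap A E c ∉ v.nonunits → IsUnramifiedPlace A E x v) ∧
    (x - algebraMap A E c ∈ v.nonunits →
      ∃ t : E, IsUniformiser E v t ∧ ∃ n : ℕ, n ∣ e ∧
        (x - algebraMap A E c) / t ^ n ∈ v ∧ t ^ n / (x - algebraMap A E c) ∈ v)

end defs

section translate

variable {A : Type} [CommRing A] [IsDomain A] {K0 : Type} [Field K0] [Algebra A K0]
  [IsFractionRing A K0] {E : Type} [Field E] [Algebra A E] [Algebra K0 E]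
  [IsScalarTower A K0 E]

/-- the prelude place attached to a place in the sense of `H22.KL` -/
def placeOfIsPlace (v : ValuationSubring E) (hv : IsPlace A E v) : Place K0 E where
  toValuationSubring := v
  algebraMap_mem' := by
    intro a
    obtain ⟨n, d, hd, rfl⟩ := IsFractionRing.div_surjective (A := A) a
    have hd0 : d ≠ 0 := nonZeroDivisors.ne_zero hd
    rw [map_div₀, ← IsScalarTower.algebraMap_apply, ← IsScalarTower.algebraMap_apply,
      div_eq_mul_inv]
    by_cases hn : n = 0
    · rw [hn, map_zero, zero_mul]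
      exact v.zero_mem
    · exact v.mul_mem _ _ (hv.2.2 n hn).1 (hv.2.2 d hd0).2
  ne_top' := hv.1
  isPrincipalIdealRing' := hv.2.1

@[simp]
theorem placeOfIsPlace_toValuationSubring (v : ValuationSubring E) (hv : IsPlace A E v) :
    (placeOfIsPlace (K0 := K0) v hv).toValuationSubring = v := rfl

omit [IsDomain A] [IsFractionRing A K0] in
/-- a prelude place is a place in the sense of `H22.KL` -/
theorem isPlace_of_place (P : Place K0 E) : IsPlace A E P.toValuationSubring := by
  refine ⟨P.ne_top', P.isPrincipalIdealRing', ?_⟩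
  intro a ha
  have h1 : algebraMap A E a = algebraMap K0 E (algebraMap A K0 a) :=
    IsScalarTower.algebraMap_apply A K0 E a
  refine ⟨h1 ▸ P.algebraMap_mem' _, ?_⟩
  rw [h1, ← map_inv₀]
  exact P.algebraMap_mem' _

omit [IsDomain A] [Algebra A K0] [IsFractionRing A K0] [Algebra A E] [IsScalarTower A K0 E] in
theorem klbr_mem_nonunits_iff (P : Place K0 E) (y : E) :
    y ∈ P.toValuationSubring.nonunits ↔ y = 0 ∨ 0 < P.ord y := by
  rw [ValuationSubring.mem_nonunits_iff_or, Fermat.Agent.H23.mem_iff_ord, P.ord_inv]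
  constructor
  · rintro (h | h)
    · exact Or.inl h
    · rw [not_or, not_le] at h
      right
      omega
  · rintro (h | h)
    · exact Or.inl h
    · right
      rw [not_or, not_le]
      refine ⟨?_, by omega⟩
      intro h0
      rw [inv_eq_zero] at h0
      rw [h0] at h
      simp at h

omit [IsDomain A] [Algebra A K0] [IsFractionRing A K0] [Algebra A E] [IsScalarTower A K0 E] in
theorem klbr_isUniformiser_of_ord (P : Place K0 E) (t : E) (ht : P.ord t = 1) :
    IsUniformiser E P.toValuationSubring t := by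
  have ht0 : t ≠ 0 := by
    rintro rfl
    simp at ht
  refine ⟨ht0, (klbr_mem_nonunits_iff P t).mpr (Or.inr (by omega)), ?_⟩
  intro y hy
  rcases (klbr_mem_nonunits_iff P y).mp hy with rfl | hy
  · simp [P.toValuationSubring.zero_mem]
  · have hy0 : y ≠ 0 := by
      rintro rfl
      simp at hy
    apply Fermat.Agent.H23.mem_of_ord_nonneg
    rw [div_eq_mul_inv, P.ord_mul hy0 (inv_ne_zero ht0), P.ord_inv, ht]
    omega

end translate

section core

variable {A : Type} [CommRing A] [IsDomain A] {K0 : Type} [Field K0] [Algebra A K0]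
  [IsFractionRing A K0] {E : Type} [Field E] [Algebra A E] [Algebra K0 E]
  [IsScalarTower A K0 E]

omit [IsDomain A] [Algebra A K0] [IsFractionRing A K0] [Algebra A E] [IsScalarTower A K0 E] in
/-- some irreducible polynomial in `x` has positive order at a place where `x` is finite -/
theorem klbr_exists_irreducible_pos (P : Place K0 E) (x : E)
    (hx : x ∈ P.toValuationSubring) (hxtr : Transcendental K0 x)
    [Algebra.IsAlgebraic K0⟮x⟯ E] :
    ∃ h : K0[X], Irreducible h ∧ 0 < P.ord (aeval x h) := by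
  have hne : ∀ p : K0[X], p ≠ 0 → aeval x p ≠ 0 := fun p hp h0 => hxtr ⟨p, hp, h0⟩
  have hnn : ∀ p : K0[X], 0 ≤ P.ord (aeval x p) := fun p =>
    Fermat.Agent.H23.ord_nonneg_of_mem P (klbr_aeval_mem P hx p)
  -- step 1: some nonzero polynomial has positive order
  obtain ⟨p, hp0, hppos⟩ : ∃ p : K0[X], p ≠ 0 ∧ 0 < P.ord (aeval x p) := by
    have h1 := Fermat.Agent.H29.place_not_adjoin_le P K0⟮x⟯
    rw [not_forall] at h1
    obtain ⟨a, ha⟩ := h1
    rw [Classical.not_imp] at ha
    obtain ⟨haE, haV⟩ := ha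
    obtain ⟨r, s, hrs⟩ := (IntermediateField.mem_adjoin_simple_iff K0 a).mp haE
    have ha0 : a ≠ 0 := fun h => haV (h ▸ P.toValuationSubring.zero_mem)
    have hord : P.ord a < 0 := by
      by_contra hc
      exact haV (Fermat.Agent.H23.mem_of_ord_nonneg P (not_lt.mp hc))
    have hr0 : aeval x r ≠ 0 := by
      intro h
      rw [hrs, h, zero_div] at ha0
      exact ha0 rfl
    have hs0 : aeval x s ≠ 0 := by
      intro h
      rw [hrs, h, div_zero] at ha0
      exact ha0 rfl
    refine ⟨s, fun h => hs0 (by rw [h, map_zero]), ?_⟩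
    rw [hrs, div_eq_mul_inv, P.ord_mul hr0 (inv_ne_zero hs0), P.ord_inv] at hord
    have := hnn r
    omega
  -- step 2: an irreducible factor
  induction hn : p.natDegree using Nat.strong_induction_on generalizing p with
  | _ n ih =>
    have hpu : ¬ IsUnit p := by
      intro hu
      obtain ⟨c, hc, rfl⟩ := Polynomial.isUnit_iff.mp hu
      rw [aeval_C, Fermat.Agent.H23.ord_algebraMap] at hppos
      exact lt_irrefl _ hppos
    obtain ⟨h, hirr, r, rfl⟩ := WfDvdMonoid.exists_irreducible_factor hpu hp0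
    have hh0 : h ≠ 0 := hirr.ne_zero
    have hr0 : r ≠ 0 := right_ne_zero_of_mul hp0
    by_cases hh : 0 < P.ord (aeval x h)
    · exact ⟨h, hirr, hh⟩
    · rw [map_mul, P.ord_mul (hne h hh0) (hne r hr0)] at hppos
      have hrpos : 0 < P.ord (aeval x r) := by
        have := hnn h
        omega
      have hdeg : r.natDegree < n := by
        rw [← hn, natDegree_mul hh0 hr0]
        have := Polynomial.natDegree_pos_iff_degree_pos.mpr
          (Polynomial.degree_pos_of_irreducible hirr)
        omega
      exact ih r.natDegree hdeg r hr0 hrpos rfl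

/-- clearing denominators: a uniformiser in `A[x]` -/
theorem klbr_exists_integral_uniformiser (P : Place K0 E) (x : E) (h : K0[X])
    (hh : P.ord (aeval x h) = 1) : ∃ h' : A[X], P.ord (aeval x h') = 1 := by
  obtain ⟨b, hbM, hb⟩ := IsLocalization.integerNormalization_spec (nonZeroDivisors A) h
  refine ⟨IsLocalization.integerNormalization (nonZeroDivisors A) h, ?_⟩
  have hb0 : algebraMap A E b ≠ 0 := by
    rw [IsScalarTower.algebraMap_apply A K0 E, Ne, map_eq_zero,
      map_eq_zero_iff _ (IsFractionRing.injective A K0)]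
    exact nonZeroDivisors.ne_zero hbM
  have hh0 : aeval x h ≠ 0 := by
    intro h0
    rw [h0] at hh
    simp at hh
  have h1 : aeval x (IsLocalization.integerNormalization (nonZeroDivisors A) h) =
      algebraMap A E b * aeval x h := by
    have hbh : b • h = C (algebraMap A K0 b) * h := by
      rw [Algebra.smul_def]
      rfl
    rw [← aeval_map_algebraMap K0, hb, hbh, map_mul, aeval_C,
      ← IsScalarTower.algebraMap_apply A K0 E]
  have hbord : P.ord (algebraMap A E b) = 0 := by
    rw [IsScalarTower.algebraMap_apply A K0 E]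
    exact Fermat.Agent.H23.ord_algebraMap P _
  rw [h1, P.ord_mul hb0 hh0, hbord, hh, zero_add]

end core

section main

variable {A : Type} [CommRing A] [IsDomain A] {K0 : Type} [Field K0] [Algebra A K0]
  [IsFractionRing A K0] {E : Type} [Field E] [Algebra A E] [Algebra K0 E]
  [IsScalarTower A K0 E]

omit [IsDomain A] [IsFractionRing A K0] in
theorem klbr_aeval_mem_chartField (x y : E) (hy : y ∈ chartField A E x) (f : A[X]) :
    aeval y f ∈ chartField A E x := by
  rw [aeval_eq_sum_range]
  refine sum_mem (fun i _ => ?_)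
  rw [Algebra.smul_def]
  refine mul_mem ?_ (pow_mem hy i)
  exact Subfield.subset_closure (Subalgebra.algebraMap_mem _ _)

omit [IsDomain A] [IsFractionRing A K0] in
theorem klbr_self_mem_chartField (x : E) : x ∈ chartField A E x :=
  Subfield.subset_closure (Algebra.subset_adjoin (Set.mem_singleton x))

/-- **core**: a place at which `x` is finite and which lies over no branch value is unramified
over `K₀(x)` (a uniformiser lies in `A[x]`). -/
theorem klbr_exists_uniformiser (x : E) (Cbr : Set K0) (e : K0 → ℕ) (einf : ℕ)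
    (hB : BranchPlaceForm K0 E x Cbr e einf) (hxtr : Transcendental K0 x)
    [Algebra.IsAlgebraic K0⟮x⟯ E] (v : ValuationSubring E) (hv : IsPlace A E v) (hxv : x ∈ v)
    (hnb : ∀ c ∈ Cbr, x - algebraMap K0 E c ∉ v.nonunits) :
    ∃ h' : A[X], IsUniformiser E v (aeval x h') := by
  set P : Place K0 E := placeOfIsPlace (K0 := K0) v hv with hP
  obtain ⟨h, hirr, hpos⟩ := klbr_exists_irreducible_pos P x hxv hxtr
  have hone := (hB P).2.2 h hirr hpos
    (fun c hc hc' => hnb c hc ((klbr_mem_nonunits_iff P _).mpr (Or.inr hc')))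
  obtain ⟨h', hh'⟩ := klbr_exists_integral_uniformiser (A := A) P x h hone
  exact ⟨h', klbr_isUniformiser_of_ord P _ hh'⟩

/-- **KL-BR (unramified discs)**: if no `X - c` (`c` a branch value) lies in `(ϖ, g)`, all
places in the disc of `(ϖ, g)` are unramified. -/
theorem klbr_unramifiedNearC (ϖ : A) (x : E) (Cbr : Set A) (e : K0 → ℕ) (einf : ℕ)
    (hB : BranchPlaceForm K0 E x (algebraMap A K0 '' Cbr) e einf) (hxtr : Transcendental K0 x)
    [Algebra.IsAlgebraic K0⟮x⟯ E] (g : A[X])
    (hg : ∀ c ∈ Cbr, ¬ ∃ p q : A[X], X - C c = C ϖ * p + g * q) :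
    UnramifiedNearC A E ϖ x g := by
  intro v hfin hdisc
  obtain ⟨h', hh'⟩ := klbr_exists_uniformiser (A := A) x _ e einf hB hxtr v hfin.1 hfin.2 (by
    rintro _ ⟨c, hc, rfl⟩ hmem
    apply hg c hc
    apply hdisc
    rw [map_sub, aeval_X, aeval_C, IsScalarTower.algebraMap_apply A K0 E]
    exact hmem)
  exact ⟨_, klbr_aeval_mem_chartField x x (klbr_self_mem_chartField x) h', hh'⟩

omit [IsDomain A] [Algebra A K0] [IsFractionRing A K0] [Algebra A E] [IsScalarTower A K0 E] in
/-- at a zero of `y` of order `n`: a uniformiser `t` with `y / t ^ n` a unit -/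
theorem klbr_exists_uniformiser_pow (P : Place K0 E) (y : E) (hy : 0 < P.ord y) :
    ∃ t : E, IsUniformiser E P.toValuationSubring t ∧
      y / t ^ (P.ord y).toNat ∈ P.toValuationSubring ∧
      t ^ (P.ord y).toNat / y ∈ P.toValuationSubring := by
  obtain ⟨π, hπ⟩ := IsDiscreteValuationRing.exists_irreducible P.toValuationSubring
  have hπord : P.ord (π : E) = 1 := P.ord_coe_irreducible hπ
  have hπ0 : (π : E) ≠ 0 := by
    intro h
    rw [h] at hπord
    simp at hπord
  have hy0 : y ≠ 0 := by
    rintro rfl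
    simp at hy
  have hpow : P.ord ((π : E) ^ (P.ord y).toNat) = P.ord y := by
    have := P.ord_zpow (π : E) ((P.ord y).toNat : ℤ)
    rw [zpow_natCast, hπord, mul_one, Int.toNat_of_nonneg hy.le] at this
    exact this
  refine ⟨π, klbr_isUniformiser_of_ord P _ hπord, ?_, ?_⟩
  · apply Fermat.Agent.H23.mem_of_ord_nonneg
    rw [div_eq_mul_inv, P.ord_mul hy0 (inv_ne_zero (pow_ne_zero _ hπ0)), P.ord_inv, hpow]
    omega
  · apply Fermat.Agent.H23.mem_of_ord_nonneg
    rw [div_eq_mul_inv, P.ord_mul (pow_ne_zero _ hπ0) (inv_ne_zero hy0), P.ord_inv, hpow]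
    omega

/-- **KL-BR (tame discs)**: at a branch value `c`, distinct modulo `ϖ` from the other branch
values. -/
theorem klbr_tameNearC (ϖ : A) (x : E) (Cbr : Set A) (e : K0 → ℕ) (einf : ℕ)
    (hB : BranchPlaceForm K0 E x (algebraMap A K0 '' Cbr) e einf) (hxtr : Transcendental K0 x)
    [Algebra.IsAlgebraic K0⟮x⟯ E] (c : A) (hc : c ∈ Cbr)
    (hdist : ∀ c' ∈ Cbr, c' ≠ c → ¬ ϖ ∣ (c - c')) :
    TameNearC A E ϖ x c (e (algebraMap A K0 c)) := by
  intro v hfin hdisc
  have hcE : algebraMap K0 E (algebraMap A K0 c) = algebraMap A E c :=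
    (IsScalarTower.algebraMap_apply A K0 E c).symm
  refine ⟨?_, ?_⟩
  · intro hnon
    obtain ⟨h', hh'⟩ := klbr_exists_uniformiser (A := A) x _ e einf hB hxtr v hfin.1 hfin.2 (by
      rintro _ ⟨c', hc', rfl⟩ hmem
      by_cases hcc : c' = c
      · subst hcc
        rw [hcE] at hmem
        exact hnon hmem
      · apply hdist c' hc' hcc
        obtain ⟨p, q, hpq⟩ := hdisc (X - C c') (by
          rw [map_sub, aeval_X, aeval_C, IsScalarTower.algebraMap_apply A K0 E]
          exact hmem)
        have := congrArg (Polynomial.eval c) hpq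
        simp only [eval_sub, eval_X, eval_C, eval_add, eval_mul, sub_self, zero_mul,
          add_zero] at this
        exact ⟨_, this⟩)
    exact ⟨_, klbr_aeval_mem_chartField x x (klbr_self_mem_chartField x) h', hh'⟩
  · intro hmem
    set P : Place K0 E := placeOfIsPlace (K0 := K0) v hfin.1 with hP
    have hx0 : x - algebraMap A E c ≠ 0 := by
      intro h0
      apply hxtr
      rw [sub_eq_zero] at h0
      rw [h0, ← hcE]
      exact isAlgebraic_algebraMap _
    have hpos : 0 < P.ord (x - algebraMap A E c) := by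
      rcases (klbr_mem_nonunits_iff P _).mp hmem with h | h
      · exact absurd h hx0
      · exact h
    obtain ⟨t, ht, h1, h2⟩ := klbr_exists_uniformiser_pow P _ hpos
    refine ⟨t, ht, (P.ord (x - algebraMap A E c)).toNat, ?_, h1, h2⟩
    have hdvd := (hB P).1 _ ⟨c, hc, rfl⟩ (by rw [hcE]; exact hpos)
    rw [hcE] at hdvd
    have h3 : ((P.ord (x - algebraMap A E c)).toNat : ℤ) = P.ord (x - algebraMap A E c) :=
      Int.toNat_of_nonneg hpos.le
    rw [← h3] at hdvd
    exact Int.natCast_dvd_natCast.mp hdvd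

/-- **KL-BR (chart at infinity)**: the point `x⁻¹ = 0`. -/
theorem klbr_tameNearC_inf (ϖ : A) (hϖ : ¬ IsUnit ϖ) (x : E) (Cbr : Set A) (e : K0 → ℕ)
    (einf : ℕ) (hB : BranchPlaceForm K0 E x (algebraMap A K0 '' Cbr) e einf)
    (hxtr : Transcendental K0 x) [Algebra.IsAlgebraic K0⟮x⟯ E] :
    TameNearC A E ϖ x⁻¹ 0 einf := by
  intro v hfin hdisc
  have hx0 : x ≠ 0 := by
    rintro rfl
    exact hxtr (isAlgebraic_zero)
  set P : Place K0 E := placeOfIsPlace (K0 := K0) v hfin.1 with hP
  rw [map_zero, sub_zero]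
  refine ⟨?_, ?_⟩
  · intro hnon
    -- `x⁻¹` is a unit of `v`
    have hxv : x ∈ v := by
      rw [ValuationSubring.mem_nonunits_iff_or, not_or, not_not, inv_inv] at hnon
      exact hnon.2
    obtain ⟨h', hh'⟩ := klbr_exists_uniformiser (A := A) x _ e einf hB hxtr v hfin.1 hxv (by
      rintro _ ⟨c, hc, rfl⟩ hmem
      apply hϖ
      obtain ⟨p, q, hpq⟩ := hdisc (C c * X - 1) (by
        have h1 : aeval x⁻¹ (C c * X - 1 : A[X]) =
            -((x - algebraMap K0 E (algebraMap A K0 c)) * x⁻¹) := by
          rw [map_sub, map_mul, aeval_X, aeval_C, map_one,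
            ← IsScalarTower.algebraMap_apply A K0 E]
          field_simp
          ring
        rw [h1]
        have hxc0 : x - algebraMap K0 E (algebraMap A K0 c) ≠ 0 := by
          intro h0
          apply hxtr
          rw [sub_eq_zero] at h0
          rw [h0]
          exact isAlgebraic_algebraMap _
        have hpos : 0 < P.ord (x - algebraMap K0 E (algebraMap A K0 c)) := by
          rcases (klbr_mem_nonunits_iff P _).mp hmem with h | h
          · exact absurd h hxc0
          · exact h
        have hinv : 0 ≤ P.ord x⁻¹ := Fermat.Agent.H23.ord_nonneg_of_mem P hfin.2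
        refine (klbr_mem_nonunits_iff P _).mpr (Or.inr ?_)
        rw [Fermat.Agent.H23.ord_neg, P.ord_mul hxc0 (inv_ne_zero hx0)]
        omega)
      have := congrArg (Polynomial.eval 0) hpq
      simp only [eval_sub, eval_X, eval_C, eval_add, eval_mul, eval_one, mul_zero, zero_sub,
        map_zero, sub_zero, zero_mul, add_zero] at this
      exact IsUnit.of_mul_eq_one (-(p.eval 0)) (by rw [mul_neg, ← this, neg_neg]))
    refine ⟨_, klbr_aeval_mem_chartField x⁻¹ x ?_ h', hh'⟩
    have := inv_mem (klbr_self_mem_chartField (A := A) x⁻¹)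
    rwa [inv_inv] at this
  · intro hmem
    have hpos : 0 < P.ord x⁻¹ := by
      rcases (klbr_mem_nonunits_iff P _).mp hmem with h | h
      · exact absurd h (inv_ne_zero hx0)
      · exact h
    obtain ⟨t, ht, h1, h2⟩ := klbr_exists_uniformiser_pow P _ hpos
    refine ⟨t, ht, (P.ord x⁻¹).toNat, ?_, h1, h2⟩
    have hdvd := (hB P).2.1 hpos
    have h3 : ((P.ord x⁻¹).toNat : ℤ) = P.ord x⁻¹ := Int.toNat_of_nonneg hpos.le
    rw [← h3] at hdvd
    exact Int.natCast_dvd_natCast.mp hdvd

omit [IsDomain A] [Algebra A K0] [IsFractionRing A K0] [Algebra A E] [IsScalarTower A K0 E] in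
/-- a place where `y` has order `± 1` witnesses `d ∤ ord y` for every `d ≥ 2` -/
theorem klbr_not_ordDvd (P : Place K0 E) (y : E) (hy : P.ord y = 1 ∨ P.ord y = -1)
    (d : ℕ) (hd : 2 ≤ d) : ¬ OrdDvd E P.toValuationSubring d y := by
  rintro ⟨t, ht0, h1, h2⟩
  have hy0 : y ≠ 0 := by
    rintro rfl
    rcases hy with h | h <;> simp at h
  have hyt0 : y * t ^ d ≠ 0 := mul_ne_zero hy0 (pow_ne_zero _ ht0)
  have ho1 := Fermat.Agent.H23.ord_nonneg_of_mem P h1
  have ho2 := Fermat.Agent.H23.ord_nonneg_of_mem P h2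
  rw [P.ord_inv] at ho2
  have hpow : P.ord (t ^ d) = (d : ℤ) * P.ord t := by
    have := P.ord_zpow t (d : ℤ)
    rwa [zpow_natCast] at this
  rw [P.ord_mul hy0 (pow_ne_zero _ ht0), hpow] at ho1 ho2
  have hdvd : (d : ℤ) ∣ P.ord y := ⟨-P.ord t, by linarith⟩
  have hd1 : (d : ℤ) ∣ 1 := by
    rcases hy with h | h
    · rwa [h] at hdvd
    · rw [h] at hdvd
      exact (dvd_neg.mp hdvd)
  have := Int.le_of_dvd one_pos hd1
  omega

end main

end Fermat.Agent.H2
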