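import Fermat.Agent.H2.KLBRModelOrd
import Fermat.Agent.H91.ES1KL.ModelGen

/-!
# P-ES / P-DS, KL-BR (helper2): the branch hypotheses, GENERIC in the level field `F₀`

`F₀ : IntermediateField ℚ (LaurentSeries ℚ)` a level field (`modularFunctionFieldFull N` for
`X₀(N)`, `Fermat.Agent.H29.ES1.F1 M` for `X₁(M)`), `F_B := laurentBaseChange ℚ̄ F₀`.

* `klbr_branchHypAt_ord_gen` : the two branch hypotheses of `H22.KL.AbstractKeyLemmaStatement`
  from branch data of `F_B / ℚ̄` in `ord` form.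
* `klbr_modelGen_of_clean` : `H91.ES1KL.ModelBranchGen F₀ ℓ x₀ M` from clean branch data of the
  coordinate over `ℚ̄`.
* `klbr_modelGen_j` : the case `x₀ = jq`: **BR1** follows from
  (1) `jq ∈ F₀`, (2) `[F_B : ℚ̄(j)] < ∞`, (3) the branch data of `j` on `F_B`
  (`BranchClean ℚ̄ j 1728 3 2 N`: unramified outside `0, 1728, ∞`, indices dividing `3, 2, N`).
-/

set_option autoImplicit false
set_option synthInstance.maxHeartbeats 400000
set_option linter.style.haveILetI false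
set_option linter.unusedSectionVars false

noncomputable section

open AlgebraicCurve IntermediateField Polynomial ModularCurve

namespace Fermat.Agent.H2

open Fermat.Agent.H23 Fermat.Agent.H22.KL Fermat.Agent.H91.ES1KL

section general

variable (F₀ : IntermediateField ℚ (LaurentSeries ℚ))

local notation "Kbar" => AlgebraicClosure ℚ
set_option quotPrecheck false in
local notation "FB" => ↥(ModularCurve.laurentBaseChange (AlgebraicClosure ℚ) F₀)

variable {K0 E : Type} [Field K0] [Field E] [Algebra K0 E] [Algebra K0 Kbar]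

/-- **the cusp place** of `E / K0` for a coordinate of `q`-order `-1`. -/
theorem klbr_cusp_place_gen (ι : E →+* FB)
    (hι : ∀ a : K0, ι (algebraMap K0 E a) = algebraMap Kbar FB (algebraMap K0 Kbar a))
    (x : E) (hord : ((ι x : FB) : LaurentSeries Kbar).order = -1) :
    ∃ P : Place K0 E, P.ord x = -1 := by
  let ι' : E →+* LaurentSeries Kbar :=
    ((ModularCurve.laurentBaseChange Kbar F₀).val : FB →+* LaurentSeries Kbar).comp ι
  have hι' : ∀ f : E, ι' f = ((ι f : FB) : LaurentSeries Kbar) := fun f => rfl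
  have hconst : ∀ a : K0, a ≠ 0 → (ι' (algebraMap K0 E a)).order = 0 := by
    intro a ha
    rw [hι', hι]
    have hne : algebraMap K0 Kbar a ≠ 0 := by simpa using ha
    have : ((algebraMap Kbar FB (algebraMap K0 Kbar a) : FB) : LaurentSeries Kbar) =
        HahnSeries.single 0 (algebraMap K0 Kbar a) := by
      show algebraMap Kbar (LaurentSeries Kbar) (algebraMap K0 Kbar a) = _
      have h1 : algebraMap Kbar (PowerSeries Kbar) (algebraMap K0 Kbar a) =
          PowerSeries.C (algebraMap K0 Kbar a) := by simp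
      rw [HahnSeries.algebraMap_apply', h1, HahnSeries.ofPowerSeries_C]
      rfl
    rw [this, HahnSeries.order_single hne]
  obtain ⟨P, hP⟩ := klbr_cusp_place ι' hconst x hord
  exact ⟨P, by rw [hP]; exact hord⟩

variable {A : Type} [CommRing A] [IsDomain A] [IsDiscreteValuationRing A]
  [Algebra A K0] [IsFractionRing A K0] [Algebra A E] [IsScalarTower A K0 E]
  [Algebra.IsAlgebraic K0 Kbar]

/-- **KL-BR for a general coordinate and a general level field**, branch data in `ord` form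
over `ℚ̄`. -/
theorem klbr_branchHypAt_ord_gen (ϖ : A) (hϖ : Irreducible ϖ) (ι : E →+* FB)
    (hι : ∀ a : K0, ι (algebraMap K0 E a) = algebraMap Kbar FB (algebraMap K0 Kbar a))
    (x : E) [Algebra.IsAlgebraic K0⟮x⟯ E]
    (httr : Transcendental Kbar (ι x)) (hfin : FiniteDimensional Kbar⟮ι x⟯ FB)
    (hord : ((ι x : FB) : LaurentSeries Kbar).order = -1)
    (c1 : A) (hc1 : ¬ ϖ ∣ c1) (e0 e1 einf : ℕ)
    (hBO : BranchOrd K0 Kbar (ι x) ({0, algebraMap A K0 c1} : Set K0)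
      (branchExp K0 e0 e1) einf)
    (he0 : 0 < e0 ∧ IsUnit ((e0 : ℕ) : A) ∧ ∃ ζ : A, IsPrimitiveRoot ζ e0)
    (he1 : 0 < e1 ∧ IsUnit ((e1 : ℕ) : A) ∧ ∃ ζ : A, IsPrimitiveRoot ζ e1)
    (heinf : 0 < einf ∧ IsUnit ((einf : ℕ) : A) ∧ ∃ ζ : A, IsPrimitiveRoot ζ einf) :
    (∀ g : A[X], g.Monic → Irreducible (g.map (IsLocalRing.residue A)) →
      BranchHypAt A E ϖ x g) ∧
    BranchHypAt A E ϖ x⁻¹ X := by
  have hc10 : c1 ≠ 0 := by
    rintro rfl
    exact hc1 (dvd_zero _)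
  have hc1K : algebraMap A K0 c1 ≠ 0 := by
    rwa [Ne, map_eq_zero_iff _ (IsFractionRing.injective A K0)]
  have hxtr : Transcendental K0 x := by
    rintro ⟨p, hp0, hp⟩
    apply httr
    refine ⟨p.map (algebraMap K0 Kbar), ?_, ?_⟩
    · rwa [Ne, Polynomial.map_eq_zero]
    · have h := congrArg ι hp
      rw [map_zero, aeval_def, hom_eval₂] at h
      have hcomp : (algebraMap Kbar FB).comp (algebraMap K0 Kbar) =
          ι.comp (algebraMap K0 E) := RingHom.ext fun a => (hι a).symm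
      rw [aeval_def, eval₂_map, hcomp, h]
  have himg : algebraMap A K0 '' ({0, c1} : Set A) = ({0, algebraMap A K0 c1} : Set K0) := by
    rw [Set.image_pair, map_zero]
  have hB : BranchPlaceForm K0 E x (algebraMap A K0 '' ({0, c1} : Set A))
      (branchExp K0 e0 e1) einf := by
    rw [himg]
    exact klbr_place_form ι hι x httr hfin _ _ _ hBO
  refine klbr_branchHypAt ϖ hϖ x hxtr c1 (branchExp K0 e0 e1) einf hB hc1 ?_ ?_ heinf
    (klbr_cusp_place_gen F₀ ι hι x hord)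
  · rw [branchExp_zero]
    exact he0
  · rw [branchExp_of_ne _ _ _ hc1K]
    exact he1

end general

section model

variable (F₀ : IntermediateField ℚ (LaurentSeries ℚ))

local notation "Kbar" => AlgebraicClosure ℚ
set_option quotPrecheck false in
local notation "FB" => ↥(ModularCurve.laurentBaseChange (AlgebraicClosure ℚ) F₀)

/-- **KL-BR, generic level field, from clean branch data over `ℚ̄`.** -/
theorem klbr_modelGen_of_clean (ℓ : ℕ) (x₀ : LaurentSeries ℚ) (t : FB)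
    (ht : (t : LaurentSeries Kbar) = coeffEmb Kbar x₀)
    (httr : Transcendental Kbar t) (hfin : FiniteDimensional Kbar⟮t⟯ FB)
    (hord : (coeffEmb Kbar x₀).order = -1)
    (c1 : ℤ) (hc10 : c1 ≠ 0) (e0 e1 einf : ℕ)
    (hc1 : IsCoprime c1 (ℓ : ℤ)) (he0 : Nat.Coprime e0 ℓ) (he1 : Nat.Coprime e1 ℓ)
    (heinf : Nat.Coprime einf ℓ)
    (H : BranchClean Kbar t ((c1 : ℤ) : Kbar) e0 e1 einf)
    (M : ℕ) (hM : M ≠ 0) (h0M : e0 ∣ M) (h1M : e1 ∣ M) (hinfM : einf ∣ M) :
    ModelBranchGen F₀ ℓ x₀ M := by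
  intro K₁ _ _ _ A₀ _ _ _ _ _ _ _ hℓA hζ ϖ hϖ x hx
  -- an embedding of `K₁` into `ℚ̄`
  haveI : Algebra.IsAlgebraic ℚ K₁ := Algebra.IsAlgebraic.of_finite ℚ K₁
  let φ : K₁ →ₐ[ℚ] AlgebraicClosure ℚ := IsAlgClosed.lift
  letI algK : Algebra K₁ (AlgebraicClosure ℚ) := φ.toRingHom.toAlgebra
  haveI tow : IsScalarTower ℚ K₁ (AlgebraicClosure ℚ) :=
    IsScalarTower.of_algebraMap_eq (fun a => (φ.commutes a).symm)
  haveI : Algebra.IsAlgebraic ℚ (AlgebraicClosure ℚ) := AlgebraicClosure.isAlgebraic ℚ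
  haveI : Algebra.IsAlgebraic K₁ (AlgebraicClosure ℚ) :=
    Algebra.IsAlgebraic.tower_top (K := ℚ) K₁
  haveI : CharZero K₁ := charZero_of_injective_algebraMap (algebraMap ℚ K₁).injective
  -- the comparison map
  let ι : ModelFieldGen K₁ F₀ →+* FB := Fermat.Agent.H93.KL.klBc φ.toRingHom F₀
  have hι : ∀ a : K₁, ι (algebraMap K₁ (ModelFieldGen K₁ F₀) a) =
      algebraMap (AlgebraicClosure ℚ) FB (algebraMap K₁ (AlgebraicClosure ℚ) a) := fun a =>
    Fermat.Agent.H73.KLDesc.klBc_algebraMap φ.toRingHom F₀ a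
  have hxt : ι x = t := by
    apply Subtype.ext
    show coeffMap φ.toRingHom (x : LaurentSeries K₁) = (t : LaurentSeries Kbar)
    rw [hx, ht, coeffEmb, coeffEmb, coeffMap_coeffMap]
    exact coeffMap_congr (Subsingleton.elim _ _) x₀
  -- algebraicity over `K₁(x)`
  haveI hfin' : FiniteDimensional Kbar⟮ι x⟯ FB := by
    rw [hxt]
    exact hfin
  haveI : Algebra.IsAlgebraic Kbar⟮ι x⟯ FB := Algebra.IsAlgebraic.of_finite _ _
  haveI : Algebra.IsAlgebraic K₁⟮x⟯ (ModelFieldGen K₁ F₀) := klbr_isAlgebraic_descent ι hι x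
  -- units
  have hcop : ∀ n : ℕ, Nat.Coprime n ℓ → IsUnit ((n : ℕ) : A₀) := fun n hn =>
    klbr_isUnit_natCast_of_coprime hℓA hn
  have hpos : ∀ n : ℕ, n ∣ M → 0 < n := fun n hn =>
    Nat.pos_of_ne_zero (fun h => hM (by rw [h] at hn; exact zero_dvd_iff.mp hn))
  have hc1u : IsUnit ((c1 : ℤ) : A₀) := klbr_isUnit_intCast_of_isCoprime hℓA hc1
  have hc1' : ¬ ϖ ∣ ((c1 : ℤ) : A₀) := fun h => hϖ.not_isUnit (isUnit_of_dvd_unit h hc1u)
  have hc1K : ((c1 : ℤ) : K₁) ≠ 0 := Int.cast_ne_zero.mpr hc10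
  have hBO : BranchOrd K₁ Kbar (ι x) ({0, algebraMap A₀ K₁ ((c1 : ℤ) : A₀)} : Set K₁)
      (branchExp K₁ e0 e1) einf := by
    rw [hxt, map_intCast]
    refine (klbr_branchOrd_iff_clean t ((c1 : ℤ) : K₁) hc1K e0 e1 einf).mpr ?_
    rwa [map_intCast]
  refine klbr_branchHypAt_ord_gen F₀ ϖ hϖ ι hι x (hxt ▸ httr) hfin' ?_ ((c1 : ℤ) : A₀) hc1'
    e0 e1 einf hBO ⟨hpos _ h0M, hcop _ he0, klbr_exists_primitiveRoot_of_dvd hM hζ h0M⟩
    ⟨hpos _ h1M, hcop _ he1, klbr_exists_primitiveRoot_of_dvd hM hζ h1M⟩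
    ⟨hpos _ hinfM, hcop _ heinf, klbr_exists_primitiveRoot_of_dvd hM hζ hinfM⟩
  rw [hxt, ht]
  exact hord

/-- the `q`-order of `j` is `-1` -/
theorem klbr_order_coeffEmb_jq : (coeffEmb Kbar jq).order = -1 := by
  have h1 : (ModularCurve.coeffEmb Kbar ModularCurve.jq).coeff (-1) ≠ 0 := by
    rw [ModularCurve.coeffEmb_coeff, ModularCurve.coeff_jq_neg_one, map_one]
    exact one_ne_zero
  have hne : ModularCurve.coeffEmb Kbar ModularCurve.jq ≠ 0 := by
    intro h
    rw [h] at h1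
    simp at h1
  apply le_antisymm (HahnSeries.order_le_of_coeff_ne_zero h1)
  by_contra hlt
  rw [not_le] at hlt
  apply hne
  rw [← HahnSeries.coeff_order_eq_zero, ModularCurve.coeffEmb_coeff,
    ModularCurve.coeff_jq_of_lt hlt, map_zero]

/-- `j` as an element of the level field over `ℚ̄` -/
def jBarGen (hj : jq ∈ F₀) : FB := ⟨coeffEmb Kbar jq, coeffEmb_mem_laurentBaseChange Kbar hj⟩

theorem klbr_jBarGen_transcendental (hj : jq ∈ F₀) : Transcendental Kbar (jBarGen F₀ hj) := by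
  intro h
  refine Fermat.Agent.H74.transcendental_jq Kbar ?_
  have h2 := (isAlgebraic_algebraMap_iff
    (algebraMap FB (LaurentSeries Kbar)).injective).mpr h
  have e : algebraMap FB (LaurentSeries Kbar) (jBarGen F₀ hj) = jqModC Kbar := by
    show coeffEmb Kbar jq = jqModC Kbar
    exact Fermat.Agent.H54.coeffEmb_jq_eq Kbar
  rwa [e] at h2

/-- **BR1 (generic level field, `x = j`)**: `ModelBranchGen F₀ ℓ jq M` from the finiteness of
`F_B / ℚ̄(j)` and the branch data of `j` on `F_B` (unramified outside `0, 1728, ∞`, indices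
dividing `3, 2, N`), for `ℓ` prime to `6 N` and `M ≠ 0` divisible by `6` and `N`. -/
theorem klbr_modelGen_j (hj : jq ∈ F₀) (N : ℕ)
    (hfin : FiniteDimensional Kbar⟮jBarGen F₀ hj⟯ FB)
    (H : BranchClean Kbar (jBarGen F₀ hj) (1728 : Kbar) 3 2 N)
    (ℓ : ℕ) (h2ℓ : Nat.Coprime 2 ℓ) (h3ℓ : Nat.Coprime 3 ℓ) (hNℓ : Nat.Coprime N ℓ)
    (M : ℕ) (hM : M ≠ 0) (h2M : 2 ∣ M) (h3M : 3 ∣ M) (hNM : N ∣ M) :
    ModelBranchGen F₀ ℓ jq M := by
  have hc : IsCoprime (1728 : ℤ) (ℓ : ℤ) := by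
    have h2 : IsCoprime (2 : ℤ) (ℓ : ℤ) := by
      have := Nat.isCoprime_iff_coprime.mpr h2ℓ
      simpa using this
    have h3 : IsCoprime (3 : ℤ) (ℓ : ℤ) := by
      have := Nat.isCoprime_iff_coprime.mpr h3ℓ
      simpa using this
    have e : (1728 : ℤ) = (2 : ℤ) ^ 6 * (3 : ℤ) ^ 3 := by norm_num
    rw [e]
    exact (h2.pow_left).mul_left (h3.pow_left)
  have hclean : BranchClean Kbar (jBarGen F₀ hj) (((1728 : ℤ) : ℤ) : Kbar) 3 2 N := by
    have e : (((1728 : ℤ) : ℤ) : Kbar) = (1728 : Kbar) := by norm_num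
    rwa [e]
  exact klbr_modelGen_of_clean F₀ ℓ jq (jBarGen F₀ hj) rfl (klbr_jBarGen_transcendental F₀ hj)
    hfin klbr_order_coeffEmb_jq 1728 (by norm_num) 3 2 N hc h3ℓ h2ℓ hNℓ hclean M hM h3M h2M hNM

end model

end Fermat.Agent.H2
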