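import Mathlib

/-!
# Doerge lemma, part 2: Hensel lifting of a simple root in `K[s]`

For a bivariate polynomial `G ∈ K[s][u]` and a simple root `c` of `G(·, 0)`, there are polynomials
`U ∈ K[s]` of degree `≤ k` with `U(0) = c` and `G(U(s), s) ≡ 0 mod s^(k+1)`.
-/

namespace Fermat.Agent.H2

open Polynomial

/-- Evaluating `G(U)` at `x` is the two-variable evaluation at `(x, U(x))`. -/
theorem doerge_eval_eval {K : Type*} [CommRing K] (G : K[X][X]) (U : K[X]) (x : K) :
    (G.eval U).eval x = G.evalEval x (U.eval x) := by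
  have h := Polynomial.hom_eval₂ G (RingHom.id K[X]) (evalRingHom x) U
  simp only [RingHom.comp_id, coe_evalRingHom, eval₂_id] at h
  rw [h, eval₂_evalRingHom]

/-- Hensel lifting of a simple root to any finite order. -/
theorem doerge_exists_approx_root {K : Type*} [Field K] (G : K[X][X]) (c : K)
    (h0 : G.evalEval 0 c = 0) (h1 : (derivative G).evalEval 0 c ≠ 0) (k : ℕ) :
    ∃ U : K[X], U.eval 0 = c ∧ U.natDegree ≤ k ∧ X ^ (k + 1) ∣ G.eval U := by
  induction k with
  | zero =>
    refine ⟨C c, by simp, by simp, ?_⟩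
    rw [zero_add, pow_one, X_dvd_iff, coeff_zero_eq_eval_zero, doerge_eval_eval]
    simpa using h0
  | succ k ih =>
    obtain ⟨U, hU0, hUdeg, W, hW⟩ := ih
    set D0 := (derivative G).evalEval 0 c with hD0
    set e : K := -(W.eval 0) / D0 with he
    obtain ⟨κ, hκ⟩ := Polynomial.binomExpansion G U (C e * X ^ (k + 1))
    refine ⟨U + C e * X ^ (k + 1), by simp [hU0], ?_, ?_⟩
    · refine (natDegree_add_le _ _).trans (max_le (by omega) ?_)
      exact (natDegree_C_mul_le _ _).trans (by simp)
    · have hX : X ∣ W + C e * (derivative G).eval U + κ * C e ^ 2 * X ^ (k + 1) := by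
        rw [X_dvd_iff, coeff_zero_eq_eval_zero]
        rw [eval_add, eval_add, eval_mul, doerge_eval_eval, hU0, ← hD0, eval_C, eval_mul,
          eval_pow, eval_X, he]
        field_simp
        ring
      obtain ⟨V, hV⟩ := hX
      refine ⟨V, ?_⟩
      rw [hκ, hW, pow_succ (X : K[X]) (k + 1), mul_assoc, ← hV]
      ring

end Fermat.Agent.H2
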