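import Mathlib
import Fermat.Agent.H2.DoergeHensel

/-!
# Doerge lemma, part 3: real roots of `G(·, s)` for small `s` follow the Hensel branches

`G ∈ ℝ[s][u]` with constant nonzero leading coefficient in `u`, all real roots of `G(·, 0)` simple.
Then for small `s` every real root `u` of `G(·, s)` satisfies `|u - U(s)| ≤ C |s|^(k+1)` for one of
finitely many polynomials `U` of degree `≤ k`.
-/

namespace Fermat.Agent.H2

open Polynomial Filter Topology

/-- Two-variable polynomial evaluation is jointly continuous. -/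
theorem doerge_continuous_evalEval (H : ℝ[X][X]) :
    Continuous (fun p : ℝ × ℝ => H.evalEval p.1 p.2) := by
  induction H using Polynomial.induction_on' with
  | add p q hp hq =>
    have : (fun z : ℝ × ℝ => (p + q).evalEval z.1 z.2) =
        fun z => p.evalEval z.1 z.2 + q.evalEval z.1 z.2 := by
      ext z; exact evalEval_add _ _ _ _
    rw [this]
    exact hp.add hq
  | monomial n a =>
    have : (fun z : ℝ × ℝ => (monomial n a : ℝ[X][X]).evalEval z.1 z.2) =
        fun z => a.eval z.1 * z.2 ^ n := by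
      ext z
      simp [evalEval, eval_monomial]
    rw [this]
    exact (a.continuous.comp continuous_fst).mul (continuous_snd.pow n)

/-- Mean value theorem for a real polynomial, in product form. -/
theorem doerge_poly_mvt (p : ℝ[X]) (u v : ℝ) :
    ∃ ξ ∈ Set.uIcc u v, p.eval u - p.eval v = p.derivative.eval ξ * (u - v) := by
  have key : ∀ a b : ℝ, a < b →
      ∃ ξ ∈ Set.Icc a b, p.eval b - p.eval a = p.derivative.eval ξ * (b - a) := by
    intro a b hab
    obtain ⟨ξ, hξ, h⟩ := exists_hasDerivAt_eq_slope (fun x => p.eval x)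
      (fun x => p.derivative.eval x) hab p.continuous.continuousOn
      (fun x _ => p.hasDerivAt x)
    refine ⟨ξ, Set.Ioo_subset_Icc_self hξ, ?_⟩
    have hba : b - a ≠ 0 := sub_ne_zero.2 hab.ne'
    rw [h]
    field_simp
  rcases lt_trichotomy u v with h | h | h
  · obtain ⟨ξ, hξ, hh⟩ := key u v h
    refine ⟨ξ, by rwa [Set.uIcc_of_le h.le], ?_⟩
    linarith
  · subst h
    exact ⟨u, Set.left_mem_uIcc, by simp⟩
  · obtain ⟨ξ, hξ, hh⟩ := key v u h
    exact ⟨ξ, by rwa [Set.uIcc_of_ge h.le], hh⟩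

/-- Step A: near a simple root `c` of `G(·,0)`, real roots of `G(·,s)` are `O(s^k)`-close to an
approximate root `U` of order `k`. -/
theorem doerge_branch_bound (G : ℝ[X][X]) (c : ℝ) (U : ℝ[X]) (k : ℕ)
    (hU0 : U.eval 0 = c) (hU : X ^ k ∣ G.eval U)
    (h1 : (derivative G).evalEval 0 c ≠ 0) :
    ∃ ε > 0, ∃ s0 > 0, ∃ C : ℝ, 0 ≤ C ∧ ∀ s : ℝ, |s| ≤ s0 → ∀ u : ℝ, |u - c| ≤ ε →
      G.evalEval s u = 0 → |u - U.eval s| ≤ C * |s| ^ k := by
  obtain ⟨W, hW⟩ := hU
  set D0 := (derivative G).evalEval 0 c with hD0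
  have hD0pos : 0 < |D0| := abs_pos.2 h1
  -- continuity of the derivative at `(0, c)`
  have hcont := (doerge_continuous_evalEval (derivative G)).continuousAt (x := ((0 : ℝ), c))
  have hev : ∀ᶠ z : ℝ × ℝ in 𝓝 ((0 : ℝ), c),
      |D0| / 2 < |(derivative G).evalEval z.1 z.2| := by
    have h2 : |D0| / 2 < |(derivative G).evalEval ((0 : ℝ), c).1 ((0 : ℝ), c).2| := by
      simp only
      rw [← hD0]
      linarith
    exact (continuous_abs.continuousAt.comp hcont).eventually_const_lt h2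
  obtain ⟨δ, hδ, hδ'⟩ := Metric.eventually_nhds_iff.1 hev
  -- continuity of `U` at `0`
  have hUc : ∀ᶠ s : ℝ in 𝓝 (0 : ℝ), |U.eval s - c| < δ / 2 := by
    have : Tendsto (fun s => |U.eval s - c|) (𝓝 0) (𝓝 0) := by
      have h3 : Continuous fun s : ℝ => |U.eval s - c| :=
        continuous_abs.comp (U.continuous.sub continuous_const)
      have := h3.tendsto 0
      simpa [hU0] using this
    exact this.eventually_lt_const (by linarith)
  obtain ⟨δ1, hδ1, hδ1'⟩ := Metric.eventually_nhds_iff.1 hUc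
  set s0 := min (δ / 2) (δ1 / 2) with hs0
  have hs0pos : 0 < s0 := lt_min (by linarith) (by linarith)
  -- bound for `W` on `[-s0, s0]`
  obtain ⟨B, hB⟩ := (isCompact_Icc (a := -s0) (b := s0)).exists_bound_of_continuousOn
    W.continuous.continuousOn
  have hB0 : 0 ≤ B := by
    have := hB 0 ⟨by linarith, by linarith⟩
    exact (norm_nonneg _).trans this
  refine ⟨δ / 2, by linarith, s0, hs0pos, 2 * B / |D0|, by positivity, ?_⟩
  intro s hs u hu hroot
  set v := U.eval s with hv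
  have hsδ : |s| < δ := by
    have : s0 ≤ δ / 2 := min_le_left _ _
    linarith
  have hsδ1 : dist s 0 < δ1 := by
    have : s0 ≤ δ1 / 2 := min_le_right _ _
    rw [Real.dist_eq, sub_zero]
    linarith
  have hvc : |v - c| < δ / 2 := hδ1' hsδ1
  -- the polynomial `p_s`
  set p : ℝ[X] := G.map (evalRingHom s) with hp
  have hpu : p.eval u = 0 := by rw [hp, map_evalRingHom_eval]; exact hroot
  have hpv : p.eval v = s ^ k * W.eval s := by
    rw [hp, map_evalRingHom_eval, hv, ← doerge_eval_eval, hW]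
    simp
  obtain ⟨ξ, hξ, hmv⟩ := doerge_poly_mvt p u v
  have hξc : |ξ - c| < δ := by
    rw [Set.mem_uIcc] at hξ
    rw [abs_lt] at hvc ⊢
    rw [abs_le] at hu
    rcases hξ with ⟨h1, h2⟩ | ⟨h1, h2⟩ <;> constructor <;> linarith
  have hder : p.derivative.eval ξ = (derivative G).evalEval s ξ := by
    rw [hp, derivative_map, map_evalRingHom_eval]
  have hbig : |D0| / 2 < |p.derivative.eval ξ| := by
    rw [hder]
    have : dist ((s, ξ) : ℝ × ℝ) ((0 : ℝ), c) < δ := by
      rw [Prod.dist_eq, Real.dist_eq, Real.dist_eq, sub_zero]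
      exact max_lt hsδ hξc
    exact hδ' this
  have hWs : |W.eval s| ≤ B := by
    have := hB s ⟨by linarith [neg_abs_le s], by linarith [le_abs_self s]⟩
    simpa using this
  have h4 : |p.derivative.eval ξ| * |u - v| = |s| ^ k * |W.eval s| := by
    rw [← abs_mul, ← hmv, hpu, hpv, zero_sub, abs_neg, abs_mul, abs_pow]
  have h5 : |D0| / 2 * |u - v| ≤ |s| ^ k * B := by
    calc |D0| / 2 * |u - v| ≤ |p.derivative.eval ξ| * |u - v| :=
          mul_le_mul_of_nonneg_right hbig.le (abs_nonneg _)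
      _ = |s| ^ k * |W.eval s| := h4
      _ ≤ |s| ^ k * B := mul_le_mul_of_nonneg_left hWs (by positivity)
  rw [div_mul_eq_mul_div, le_div_iff₀ hD0pos]
  nlinarith [abs_nonneg (u - v)]

/-- Roots of `G(·, s)` are uniformly bounded for `|s| ≤ 1`. -/
theorem doerge_root_bound (G : ℝ[X][X]) (ℓ : ℝ) (hℓ : ℓ ≠ 0) (hlead : G.leadingCoeff = C ℓ) :
    ∃ R0 : ℝ, ∀ s : ℝ, |s| ≤ 1 → ∀ u : ℝ, G.evalEval s u = 0 → |u| ≤ R0 := by
  classical
  have hbd : ∀ i : ℕ, ∃ B : ℝ, ∀ s ∈ Set.Icc (-1 : ℝ) 1, ‖(G.coeff i).eval s‖ ≤ B := fun i =>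
    (isCompact_Icc (a := (-1 : ℝ)) (b := 1)).exists_bound_of_continuousOn
      (G.coeff i).continuous.continuousOn
  choose B hB using hbd
  set Btot : ℝ := ∑ i ∈ Finset.range G.natDegree, |B i| with hBtot
  refine ⟨Btot / |ℓ| + 1, ?_⟩
  intro s hs u hroot
  have hsI : s ∈ Set.Icc (-1 : ℝ) 1 := ⟨by linarith [neg_abs_le s], by linarith [le_abs_self s]⟩
  set p : ℝ[X] := G.map (evalRingHom s) with hp
  have hlc : (evalRingHom s) G.leadingCoeff ≠ 0 := by
    rw [hlead]; simpa using hℓ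
  have hnd : p.natDegree = G.natDegree := natDegree_map_of_leadingCoeff_ne_zero _ hlc
  have hplc : p.leadingCoeff = ℓ := by
    rw [hp, leadingCoeff_map_of_leadingCoeff_ne_zero _ hlc, hlead]
    simp
  have hp0 : p ≠ 0 := by
    intro h
    rw [h, leadingCoeff_zero] at hplc
    exact hℓ hplc.symm
  have hpu : p.IsRoot u := by
    rw [IsRoot.def, hp, map_evalRingHom_eval]; exact hroot
  have h1 := hpu.norm_lt_cauchyBound hp0
  have h2 : (cauchyBound p : ℝ) ≤ Btot / |ℓ| + 1 := by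
    rw [cauchyBound]
    push_cast
    gcongr
    rotate_left
    · rw [hplc]; simp
    · rw [hnd]
      have hBtot0 : 0 ≤ Btot := Finset.sum_nonneg fun _ _ => abs_nonneg _
      have : (Finset.range G.natDegree).sup (fun x => ‖p.coeff x‖₊) ≤ Btot.toNNReal := by
        apply Finset.sup_le
        intro i hi
        apply NNReal.coe_le_coe.1
        rw [Real.coe_toNNReal _ hBtot0, coe_nnnorm]
        have h3 : ‖p.coeff i‖ ≤ B i := by
          rw [hp, coeff_map]
          exact hB i s hsI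
        calc ‖p.coeff i‖ ≤ B i := h3
          _ ≤ |B i| := le_abs_self _
          _ ≤ Btot := Finset.single_le_sum (f := fun i => |B i|) (fun j _ => abs_nonneg _) hi
      have h' := NNReal.coe_le_coe.2 this
      rw [Real.coe_toNNReal _ hBtot0] at h'
      exact h'
  have h3 : ‖u‖ < (cauchyBound p : ℝ) := by exact_mod_cast h1
  rw [Real.norm_eq_abs] at h3
  linarith

/-- Step B: for small `s`, every real root of `G(·, s)` is close to a real root of `G(·, 0)`. -/
theorem doerge_roots_near (G : ℝ[X][X]) (ℓ : ℝ) (hℓ : ℓ ≠ 0) (hlead : G.leadingCoeff = C ℓ)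
    (ε : ℝ) (hε : 0 < ε) :
    ∃ s1 > 0, ∀ s : ℝ, |s| ≤ s1 → ∀ u : ℝ, G.evalEval s u = 0 →
      ∃ c : ℝ, G.evalEval 0 c = 0 ∧ |u - c| < ε := by
  by_contra hcon
  push Not at hcon
  obtain ⟨R0, hR0⟩ := doerge_root_bound G ℓ hℓ hlead
  have hex : ∀ n : ℕ, ∃ s : ℝ, |s| ≤ 1 / ((n : ℝ) + 1) ∧ ∃ u : ℝ, G.evalEval s u = 0 ∧
      ∀ c : ℝ, G.evalEval 0 c = 0 → ε ≤ |u - c| := fun n => hcon _ (by positivity)
  choose s hs u hu hfar using hex
  have hs1 : ∀ n, |s n| ≤ 1 := fun n => (hs n).trans (by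
    rw [div_le_one (by positivity)]
    have : (0 : ℝ) ≤ n := Nat.cast_nonneg n
    linarith)
  have hubd : ∀ n, u n ∈ Metric.closedBall (0 : ℝ) R0 := fun n => by
    rw [Metric.mem_closedBall, Real.dist_eq, sub_zero]
    exact hR0 (s n) (hs1 n) (u n) (hu n)
  obtain ⟨a, -, φ, hφ, hlim⟩ := tendsto_subseq_of_bounded Metric.isBounded_closedBall hubd
  have hs0 : Tendsto s atTop (𝓝 0) := by
    apply squeeze_zero_norm (a := fun n : ℕ => 1 / ((n : ℝ) + 1))
    · intro n; rw [Real.norm_eq_abs]; exact hs n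
    · exact tendsto_one_div_add_atTop_nhds_zero_nat
  have hsφ : Tendsto (s ∘ φ) atTop (𝓝 0) := hs0.comp hφ.tendsto_atTop
  have hpair : Tendsto (fun n => ((s ∘ φ) n, (u ∘ φ) n)) atTop (𝓝 ((0 : ℝ), a)) :=
    hsφ.prodMk_nhds hlim
  have hG := ((doerge_continuous_evalEval G).tendsto ((0 : ℝ), a)).comp hpair
  have hG0 : G.evalEval 0 a = 0 := by
    have hconst : (fun n => G.evalEval ((s ∘ φ) n) ((u ∘ φ) n)) = fun _ => (0 : ℝ) := by
      ext n; exact hu (φ n)
    have h2 : Tendsto (fun n => G.evalEval ((s ∘ φ) n) ((u ∘ φ) n)) atTop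
        (𝓝 (G.evalEval 0 a)) := hG
    rw [hconst] at h2
    exact (tendsto_nhds_unique h2 tendsto_const_nhds)
  have hfar' : ∀ n, ε ≤ |u (φ n) - a| := fun n => hfar (φ n) a hG0
  have hlim0 : Tendsto (fun n => |u (φ n) - a|) atTop (𝓝 0) := by
    have : Tendsto (fun n => |(u ∘ φ) n - a|) atTop (𝓝 |a - a|) :=
      (continuous_abs.tendsto _).comp (hlim.sub tendsto_const_nhds)
    simpa using this
  have := ge_of_tendsto' hlim0 hfar'
  linarith

/-- Steps A and B combined: finitely many polynomial branches of degree `≤ k` approximate all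
real roots of `G(·, s)` up to `O(s^(k+1))`, for small `s`. -/
theorem doerge_branches (G : ℝ[X][X]) (ℓ : ℝ) (hℓ : ℓ ≠ 0) (hlead : G.leadingCoeff = C ℓ)
    (hsimple : ∀ c : ℝ, G.evalEval 0 c = 0 → (derivative G).evalEval 0 c ≠ 0) (k : ℕ) :
    ∃ (𝒰 : Finset ℝ[X]) (s0 : ℝ) (C : ℝ), 0 < s0 ∧ 0 ≤ C ∧ (∀ U ∈ 𝒰, U.natDegree ≤ k) ∧
      ∀ s : ℝ, |s| ≤ s0 → ∀ u : ℝ, G.evalEval s u = 0 →
        ∃ U ∈ 𝒰, |u - U.eval s| ≤ C * |s| ^ (k + 1) := by
  classical
  have key : ∀ c : ℝ, ∃ U : ℝ[X], ∃ ε s0 C : ℝ, U.natDegree ≤ k ∧ 0 < ε ∧ 0 < s0 ∧ 0 ≤ C ∧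
      (G.evalEval 0 c = 0 → ∀ s : ℝ, |s| ≤ s0 → ∀ u : ℝ, |u - c| ≤ ε →
        G.evalEval s u = 0 → |u - U.eval s| ≤ C * |s| ^ (k + 1)) := by
    intro c
    by_cases hc : G.evalEval 0 c = 0
    · obtain ⟨U, hU0, hUdeg, hUdvd⟩ := doerge_exists_approx_root G c hc (hsimple c hc) k
      obtain ⟨ε, hε, s0, hs0, C, hC, hmain⟩ :=
        doerge_branch_bound G c U (k + 1) hU0 hUdvd (hsimple c hc)
      exact ⟨U, ε, s0, C, hUdeg, hε, hs0, hC, fun _ => hmain⟩
    · exact ⟨0, 1, 1, 0, by simp, one_pos, one_pos, le_rfl, fun h => absurd h hc⟩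
  choose U ε s0 C hdeg hε hs0 hC hmain using key
  -- the finite set of real roots of `G(·, 0)`
  set g0 : ℝ[X] := G.map (evalRingHom 0) with hg0
  have hlc : (evalRingHom (0 : ℝ)) G.leadingCoeff ≠ 0 := by
    rw [hlead]; simpa using hℓ
  have hg0ne : g0 ≠ 0 := by
    intro h
    have h2 : g0.leadingCoeff = ℓ := by
      rw [hg0, leadingCoeff_map_of_leadingCoeff_ne_zero _ hlc, hlead]
      simp
    rw [h, leadingCoeff_zero] at h2
    exact hℓ h2.symm
  set R : Finset ℝ := g0.roots.toFinset with hR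
  have hmemR : ∀ c : ℝ, c ∈ R ↔ G.evalEval 0 c = 0 := by
    intro c
    rw [hR, Multiset.mem_toFinset, mem_roots hg0ne, IsRoot.def, hg0, map_evalRingHom_eval]
  by_cases hne : R.Nonempty
  · set εm := R.inf' hne ε with hεm
    have hεmpos : 0 < εm := (Finset.lt_inf'_iff hne).2 fun c _ => hε c
    obtain ⟨s1, hs1, hnear⟩ := doerge_roots_near G ℓ hℓ hlead εm hεmpos
    set sm := min (R.inf' hne s0) s1 with hsm
    have hsmpos : 0 < sm := lt_min ((Finset.lt_inf'_iff hne).2 fun c _ => hs0 c) hs1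
    set Cm := R.sup' hne C with hCm
    have hCm0 : 0 ≤ Cm := by
      obtain ⟨c, hc⟩ := hne
      exact (hC c).trans (Finset.le_sup' C hc)
    refine ⟨R.image U, sm, Cm, hsmpos, hCm0, ?_, ?_⟩
    · intro V hV
      obtain ⟨c, -, rfl⟩ := Finset.mem_image.1 hV
      exact hdeg c
    · intro s hs u hroot
      obtain ⟨c, hc0, hcu⟩ := hnear s (hs.trans (min_le_right _ _)) u hroot
      have hcR : c ∈ R := (hmemR c).2 hc0
      refine ⟨U c, Finset.mem_image_of_mem U hcR, ?_⟩
      have h1 : |s| ≤ s0 c := hs.trans ((min_le_left _ _).trans (Finset.inf'_le s0 hcR))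
      have h2 : |u - c| ≤ ε c := hcu.le.trans (Finset.inf'_le ε hcR)
      have h3 := hmain c hc0 s h1 u h2 hroot
      refine h3.trans ?_
      exact mul_le_mul_of_nonneg_right (Finset.le_sup' C hcR) (by positivity)
  · obtain ⟨s1, hs1, hnear⟩ := doerge_roots_near G ℓ hℓ hlead 1 one_pos
    refine ⟨∅, s1, 0, hs1, le_rfl, by simp, ?_⟩
    intro s hs u hroot
    obtain ⟨c, hc0, -⟩ := hnear s hs u hroot
    exact absurd ⟨c, (hmemR c).2 hc0⟩ hne

end Fermat.Agent.H2
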