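import Mathlib
import Fermat.Agent.H2.DoergeAnalytic

/-!
# Doerge lemma, part 4: passing to the variables `s = 1/t`, `u = y / t^d`

For `F ∈ K[t][y]` of `y`-degree `m` with `deg_t F_j ≤ d (m - j)` we form
`G(u, s) = s^(dm) F(u / s^d, 1/s) ∈ K[s][u]`, whose value at `s = 0` is the leading form of `F`.
Combined with the analytic part this gives polynomial approximations (of degree `≤ d`, error
`O(1/n)`) of all rational roots of `F(·, n)`, `n` large.
-/

namespace Fermat.Agent.H2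

open Polynomial

/-- The leading form of `F` for the weights `(wt y, wt t) = (d, 1)` in degree `d * m`. -/
noncomputable def leadForm {K : Type*} [CommRing K] (F : K[X][X]) (m d : ℕ) : K[X] :=
  ∑ j ∈ Finset.range (m + 1), C ((F.coeff j).coeff (d * (m - j))) * X ^ j

/-- The transformed polynomial `G(u, s) = s^(dm) F(u / s^d, 1/s)`. -/
noncomputable def doergeG {K : Type*} [CommRing K] (F : K[X][X]) (m d : ℕ) : K[X][X] :=
  ∑ j ∈ Finset.range (m + 1), C (reflect (d * (m - j)) (F.coeff j)) * X ^ j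

section general

variable {K : Type*} [CommRing K]

theorem doerge_sum_coeff {R : Type*} [CommRing R] (a : ℕ → R) (m i : ℕ) :
    (∑ j ∈ Finset.range (m + 1), C (a j) * X ^ j : R[X]).coeff i = if i ≤ m then a i else 0 := by
  classical
  rw [finsetSum_coeff]
  simp only [coeff_C_mul, coeff_X_pow, mul_ite, mul_one, mul_zero]
  rw [Finset.sum_ite_eq]
  simp

theorem doergeG_coeff (F : K[X][X]) (m d i : ℕ) :
    (doergeG F m d).coeff i = if i ≤ m then reflect (d * (m - i)) (F.coeff i) else 0 :=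
  doerge_sum_coeff _ m i

theorem leadForm_coeff (F : K[X][X]) (m d i : ℕ) :
    (leadForm F m d).coeff i = if i ≤ m then (F.coeff i).coeff (d * (m - i)) else 0 :=
  doerge_sum_coeff _ m i

theorem doergeG_map_zero (F : K[X][X]) (m d : ℕ) :
    (doergeG F m d).map (evalRingHom 0) = leadForm F m d := by
  ext i
  rw [coeff_map, doergeG_coeff, leadForm_coeff]
  split_ifs with h
  · rw [coe_evalRingHom, ← coeff_zero_eq_eval_zero, coeff_reflect, revAt_le (Nat.zero_le _),
      Nat.sub_zero]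
  · simp

theorem leadForm_map {L : Type*} [CommRing L] (f : K →+* L) (F : K[X][X]) (m d : ℕ) :
    leadForm (F.map (mapRingHom f)) m d = (leadForm F m d).map f := by
  ext i
  rw [coeff_map, leadForm_coeff, leadForm_coeff]
  split_ifs with h
  · rw [coeff_map, coe_mapRingHom, coeff_map]
  · simp

theorem doergeG_natDegree_le (F : K[X][X]) (m d : ℕ) : (doergeG F m d).natDegree ≤ m := by
  rw [natDegree_le_iff_coeff_eq_zero]
  intro N hN
  rw [doergeG_coeff, if_neg (by omega)]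

theorem doergeG_leadingCoeff [Nontrivial K] (F : K[X][X]) (m d : ℕ) (ℓ : K) (hℓ : ℓ ≠ 0)
    (hFm : F.coeff m = C ℓ) : (doergeG F m d).leadingCoeff = C ℓ := by
  have hcoeff : (doergeG F m d).coeff m = C ℓ := by
    rw [doergeG_coeff, if_pos le_rfl, Nat.sub_self, Nat.mul_zero, hFm, reflect_C, pow_zero,
      mul_one]
  have hne : (doergeG F m d).coeff m ≠ 0 := by
    rw [hcoeff]
    simpa using hℓ
  have hdeg : (doergeG F m d).natDegree = m :=
    le_antisymm (doergeG_natDegree_le F m d) (le_natDegree_of_ne_zero hne)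
  rw [leadingCoeff, hdeg, hcoeff]

end general

section field

variable {K : Type*} [Field K]

/-- Evaluation of a bivariate polynomial of `y`-degree `≤ m` as a finite sum. -/
theorem doerge_evalEval_eq_sum (H : K[X][X]) (m : ℕ) (hH : H.natDegree ≤ m) (s u : K) :
    H.evalEval s u = ∑ j ∈ Finset.range (m + 1), (H.coeff j).eval s * u ^ j := by
  rw [evalEval, eval_eq_sum_range' (Nat.lt_succ_of_le hH), eval_finsetSum]
  refine Finset.sum_congr rfl fun j _ => ?_
  rw [eval_mul, eval_pow, eval_C]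

/-- The defining property of `doergeG`. -/
theorem doergeG_evalEval (F : K[X][X]) (m d : ℕ) (hm : F.natDegree ≤ m)
    (hdeg : ∀ j ≤ m, (F.coeff j).natDegree ≤ d * (m - j)) (t y : K) (ht : t ≠ 0) :
    (doergeG F m d).evalEval t⁻¹ (y / t ^ d) * t ^ (d * m) = F.evalEval t y := by
  rw [doerge_evalEval_eq_sum _ m (doergeG_natDegree_le F m d), doerge_evalEval_eq_sum F m hm,
    Finset.sum_mul]
  refine Finset.sum_congr rfl fun j hj => ?_
  have hj' : j ≤ m := Nat.lt_succ_iff.1 (Finset.mem_range.1 hj)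
  rw [doergeG_coeff, if_pos hj']
  letI : Invertible t := invertibleOfNonzero ht
  have h := eval₂_reflect_mul_pow (RingHom.id K) t (d * (m - j)) (F.coeff j) (hdeg j hj')
  rw [invOf_eq_inv] at h
  simp only [eval₂_id] at h
  rw [← h]
  have hpow : t ^ (d * m) = t ^ (d * (m - j)) * (t ^ d) ^ j := by
    rw [← pow_mul, ← pow_add, ← Nat.mul_add, Nat.sub_add_cancel hj']
  rw [hpow, div_pow]
  have htd : (t ^ d) ^ j ≠ 0 := pow_ne_zero _ (pow_ne_zero _ ht)
  field_simp

end field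

/-- Polynomial approximation of the rational roots of `F(·, n)` for large `n`. -/
theorem doerge_approx (F : ℚ[X][X]) (m d : ℕ) (hm : F.natDegree = m) (hm0 : 0 < m)
    (hdeg : ∀ j ≤ m, (F.coeff j).natDegree ≤ d * (m - j))
    (hsep : ∀ u : ℝ, ((leadForm F m d).map (algebraMap ℚ ℝ)).eval u = 0 →
      ((leadForm F m d).map (algebraMap ℚ ℝ)).derivative.eval u ≠ 0) :
    ∃ (Ps : Finset ℝ[X]) (N1 : ℕ) (C : ℝ), 0 < N1 ∧ 0 ≤ C ∧ (∀ P ∈ Ps, P.natDegree ≤ d) ∧
      ∀ n : ℕ, N1 ≤ n → ∀ y : ℚ, F.evalEval (n : ℚ) y = 0 →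
        ∃ P ∈ Ps, |(y : ℝ) - P.eval (n : ℝ)| ≤ C / n := by
  classical
  set FR : ℝ[X][X] := F.map (mapRingHom (algebraMap ℚ ℝ)) with hFR
  have hFRcoeff : ∀ j, FR.coeff j = (F.coeff j).map (algebraMap ℚ ℝ) := fun j => by
    rw [hFR, coeff_map, coe_mapRingHom]
  have hFRdeg : FR.natDegree ≤ m := hm ▸ natDegree_map_le
  have hFRdeg' : ∀ j ≤ m, (FR.coeff j).natDegree ≤ d * (m - j) := fun j hj => by
    rw [hFRcoeff]
    exact natDegree_map_le.trans (hdeg j hj)
  -- the leading coefficient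
  have hFm0 : F.coeff m ≠ 0 := by
    rw [← hm]
    exact leadingCoeff_ne_zero.2 (fun h => by rw [h, natDegree_zero] at hm; omega)
  have hFmdeg : (F.coeff m).natDegree = 0 := by
    have := hdeg m le_rfl
    simpa using this
  obtain ⟨ℓq, hℓq⟩ : ∃ ℓq : ℚ, F.coeff m = C ℓq :=
    ⟨(F.coeff m).coeff 0, eq_C_of_natDegree_eq_zero hFmdeg⟩
  have hℓq0 : ℓq ≠ 0 := by
    rintro rfl
    exact hFm0 (by simpa using hℓq)
  set ℓ : ℝ := (ℓq : ℝ) with hℓ
  have hℓ0 : ℓ ≠ 0 := by
    rw [hℓ]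
    exact_mod_cast hℓq0
  have hFRm : FR.coeff m = C ℓ := by
    rw [hFRcoeff, hℓq, map_C]
    rfl
  set G := doergeG FR m d with hG
  have hGlead : G.leadingCoeff = C ℓ := doergeG_leadingCoeff FR m d ℓ hℓ0 hFRm
  have hG0 : G.map (evalRingHom 0) = (leadForm F m d).map (algebraMap ℚ ℝ) := by
    rw [hG, doergeG_map_zero, hFR, leadForm_map]
  have hsimple : ∀ c : ℝ, G.evalEval 0 c = 0 → (derivative G).evalEval 0 c ≠ 0 := by
    intro c hc
    rw [← map_evalRingHom_eval, hG0] at hc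
    have := hsep c hc
    rwa [← hG0, derivative_map, map_evalRingHom_eval] at this
  obtain ⟨𝒰, s0, C, hs0, hC, h𝒰deg, hmain⟩ := doerge_branches G ℓ hℓ0 hGlead hsimple d
  obtain ⟨N1, hN1⟩ := exists_nat_gt (1 / s0)
  have hN1pos : 0 < N1 := by
    have : (0 : ℝ) < N1 := lt_trans (by positivity) hN1
    exact_mod_cast this
  refine ⟨𝒰.image (reflect d), N1, C, hN1pos, hC, ?_, ?_⟩
  · intro P hP
    obtain ⟨U, hU, rfl⟩ := Finset.mem_image.1 hP
    refine natDegree_reflect_le.trans ?_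
    exact max_le le_rfl (h𝒰deg U hU)
  · intro n hn y hy
    have hnpos : (0 : ℝ) < n := by
      have : 0 < n := lt_of_lt_of_le hN1pos hn
      exact_mod_cast this
    have hn0 : (n : ℝ) ≠ 0 := hnpos.ne'
    -- `y` is a real root of `FR(·, n)`
    have hyR : FR.evalEval (n : ℝ) (y : ℝ) = 0 := by
      have h := map_mapRingHom_evalEval (f := algebraMap ℚ ℝ) (p := F) (n : ℚ) y
      rw [hy, map_zero] at h
      rw [hFR]
      simpa using h
    have hGroot : G.evalEval ((n : ℝ)⁻¹) ((y : ℝ) / (n : ℝ) ^ d) = 0 := by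
      have h := doergeG_evalEval FR m d hFRdeg hFRdeg' (n : ℝ) (y : ℝ) hn0
      rw [hyR] at h
      rcases mul_eq_zero.1 h with h | h
      · exact h
      · exact absurd h (pow_ne_zero _ hn0)
    have hs : |((n : ℝ)⁻¹)| ≤ s0 := by
      rw [abs_of_pos (inv_pos.2 hnpos), inv_le_comm₀ hnpos hs0, ← one_div]
      have : (N1 : ℝ) ≤ n := by exact_mod_cast hn
      linarith
    obtain ⟨U, hU, hUb⟩ := hmain _ hs _ hGroot
    refine ⟨reflect d U, Finset.mem_image_of_mem _ hU, ?_⟩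
    have hPn : (reflect d U).eval (n : ℝ) = U.eval ((n : ℝ)⁻¹) * (n : ℝ) ^ d := by
      letI : Invertible ((n : ℝ)⁻¹) := invertibleOfNonzero (inv_ne_zero hn0)
      have h3 := eval₂_reflect_mul_pow (RingHom.id ℝ) ((n : ℝ)⁻¹) d U (h𝒰deg U hU)
      rw [invOf_eq_inv, inv_inv] at h3
      simp only [eval₂_id] at h3
      have hpow : ((n : ℝ)⁻¹) ^ d * (n : ℝ) ^ d = 1 := by
        rw [← mul_pow, inv_mul_cancel₀ hn0, one_pow]
      calc (reflect d U).eval (n : ℝ)
          = (reflect d U).eval (n : ℝ) * (((n : ℝ)⁻¹) ^ d * (n : ℝ) ^ d) := by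
            rw [hpow, mul_one]
        _ = ((reflect d U).eval (n : ℝ) * ((n : ℝ)⁻¹) ^ d) * (n : ℝ) ^ d := by ring
        _ = U.eval ((n : ℝ)⁻¹) * (n : ℝ) ^ d := by rw [h3]
    rw [hPn]
    have hnd : (0 : ℝ) < (n : ℝ) ^ d := pow_pos hnpos d
    have e1 : (y : ℝ) - U.eval ((n : ℝ)⁻¹) * (n : ℝ) ^ d =
        ((y : ℝ) / (n : ℝ) ^ d - U.eval ((n : ℝ)⁻¹)) * (n : ℝ) ^ d := by
      field_simp
    rw [e1, abs_mul, abs_of_pos hnd]
    calc |(y : ℝ) / (n : ℝ) ^ d - U.eval ((n : ℝ)⁻¹)| * (n : ℝ) ^ d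
        ≤ (C * |((n : ℝ)⁻¹)| ^ (d + 1)) * (n : ℝ) ^ d :=
          mul_le_mul_of_nonneg_right hUb hnd.le
      _ = C / n := by
          rw [abs_of_pos (inv_pos.2 hnpos), pow_succ]
          have hpow : ((n : ℝ)⁻¹) ^ d * (n : ℝ) ^ d = 1 := by
            rw [← mul_pow, inv_mul_cancel₀ hn0, one_pow]
          calc C * ((n : ℝ)⁻¹ ^ d * (n : ℝ)⁻¹) * (n : ℝ) ^ d
              = C * (n : ℝ)⁻¹ * ((n : ℝ)⁻¹ ^ d * (n : ℝ) ^ d) := by ring
            _ = C / n := by rw [hpow, mul_one, div_eq_mul_inv]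

end Fermat.Agent.H2
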