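import Mathlib
import Fermat.Agent.H2.DoergeReflect

/-!
# Doerge lemma, part 5: bounded denominators of rational roots
-/

namespace Fermat.Agent.H2

open Polynomial

/-- Rational roots of `F(·, n)`, `n ∈ ℕ`, have bounded denominators when the leading coefficient
of `F` in `y` is a nonzero constant. -/
theorem doerge_den_bound (F : ℚ[X][X]) (m : ℕ) (hm : F.natDegree = m) (ℓq : ℚ) (hℓ : ℓq ≠ 0)
    (hFm : F.coeff m = C ℓq) :
    ∃ e : ℕ, 0 < e ∧ ∀ (n : ℕ) (y : ℚ), F.evalEval (n : ℚ) y = 0 →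
      ∃ z : ℤ, (e : ℚ) * y = z := by
  classical
  set S : Finset ℚ := (Finset.range (m + 1)).biUnion (fun j => (F.coeff j).coeffs) with hS
  obtain ⟨b, hb⟩ := IsLocalization.exist_integer_multiples_of_finset (nonZeroDivisors ℤ) S
  have hb0 : (b : ℤ) ≠ 0 := nonZeroDivisors.coe_ne_zero b
  have hcoef : ∀ j i, ∃ z : ℤ, (z : ℚ) = ((b : ℤ) : ℚ) * (F.coeff j).coeff i := by
    intro j i
    by_cases h0 : (F.coeff j).coeff i = 0
    · exact ⟨0, by simp [h0]⟩
    · have hj : j ≤ m := by
        by_contra hj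
        apply h0
        have hj' : F.natDegree < j := by omega
        rw [coeff_eq_zero_of_natDegree_lt hj']
        simp
      have hmem : (F.coeff j).coeff i ∈ S := by
        rw [hS, Finset.mem_biUnion]
        exact ⟨j, Finset.mem_range.2 (by omega), coeff_mem_coeffs h0⟩
      obtain ⟨z, hz⟩ := hb _ hmem
      refine ⟨z, ?_⟩
      rw [zsmul_eq_mul] at hz
      rw [← hz]
      rfl
  choose zc hzc using hcoef
  -- the fixed leading coefficient
  set a0 : ℤ := zc m 0 with ha0
  have ha0q : (a0 : ℚ) = ((b : ℤ) : ℚ) * ℓq := by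
    rw [ha0, hzc, hFm, coeff_C_zero]
  have ha0ne : a0 ≠ 0 := by
    intro h
    rw [h, Int.cast_zero] at ha0q
    have hbq : ((b : ℤ) : ℚ) ≠ 0 := by exact_mod_cast hb0
    exact (mul_ne_zero hbq hℓ) ha0q.symm
  refine ⟨a0.natAbs, Int.natAbs_pos.2 ha0ne, ?_⟩
  intro n y hy
  -- the integer polynomial
  set zz : ℕ → ℤ := fun j =>
    ∑ i ∈ Finset.range ((F.coeff j).natDegree + 1), zc j i * (n : ℤ) ^ i with hzz
  have hzzq : ∀ j, (zz j : ℚ) = ((b : ℤ) : ℚ) * (F.coeff j).eval (n : ℚ) := by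
    intro j
    rw [hzz, eval_eq_sum_range, Finset.mul_sum]
    push_cast
    refine Finset.sum_congr rfl fun i _ => ?_
    rw [hzc]
    ring
  set q : ℤ[X] := ∑ j ∈ Finset.range (m + 1), C (zz j) * X ^ j with hq
  have hqcoeff : ∀ i, q.coeff i = if i ≤ m then zz i else 0 := fun i => doerge_sum_coeff zz m i
  have hzzm : zz m = a0 := by
    have : (zz m : ℚ) = (a0 : ℚ) := by
      rw [hzzq, ha0q, hFm, eval_C]
    exact_mod_cast this
  have hqm : q.coeff m = a0 := by rw [hqcoeff, if_pos le_rfl, hzzm]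
  have hqdeg : q.natDegree = m := by
    apply le_antisymm
    · rw [natDegree_le_iff_coeff_eq_zero]
      intro N hN
      rw [hqcoeff, if_neg (by omega)]
    · apply le_natDegree_of_ne_zero
      rw [hqm]
      exact ha0ne
  have hqlead : q.leadingCoeff = a0 := by rw [leadingCoeff, hqdeg, hqm]
  have hq0 : q ≠ 0 := by
    intro h
    rw [h, leadingCoeff_zero] at hqlead
    exact ha0ne hqlead.symm
  have hqy : aeval y q = 0 := by
    rw [hq, map_sum]
    have h1 : ∀ j ∈ Finset.range (m + 1), aeval y (C (zz j) * X ^ j : ℤ[X]) =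
        ((b : ℤ) : ℚ) * ((F.coeff j).eval (n : ℚ) * y ^ j) := by
      intro j _
      rw [map_mul, aeval_C, map_pow, aeval_X, ← mul_assoc, ← hzzq]
      rfl
    rw [Finset.sum_congr rfl h1, ← Finset.mul_sum,
      ← doerge_evalEval_eq_sum F m hm.le (n : ℚ) y, hy, mul_zero]
  have hint := integralNormalization_aeval_eq_zero hqy
    (fun x hx => by simpa using hx)
  have hmonic := monic_integralNormalization hq0
  obtain ⟨z, hz⟩ := isInteger_of_is_root_of_monic hmonic hint
  rw [hqlead] at hz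
  have hz' : (z : ℚ) = (a0 : ℚ) * y := hz
  rcases Int.natAbs_eq a0 with h | h
  · refine ⟨z, ?_⟩
    have h2 : (a0 : ℚ) = ((a0.natAbs : ℕ) : ℚ) := by
      have := congrArg (Int.cast : ℤ → ℚ) h
      rwa [Int.cast_natCast] at this
    rw [← h2, hz']
  · refine ⟨-z, ?_⟩
    have h2 : (a0 : ℚ) = -((a0.natAbs : ℕ) : ℚ) := by
      have := congrArg (Int.cast : ℤ → ℚ) h
      rwa [Int.cast_neg, Int.cast_natCast] at this
    rw [Int.cast_neg, hz', h2]
    ring

end Fermat.Agent.H2
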