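import Mathlib

/-!
# Doerge lemma, part 1: vanishing finite differences force a polynomial

If all `(d+1)`-th forward differences of a rational sequence vanish on an initial segment,
the sequence agrees there with a polynomial of degree `≤ d`.
-/

namespace Fermat.Agent.H2

open Polynomial Finset

/-- The alternating binomial sum (the `n`-th forward difference with step one), for a polynomial
of degree `< n`, evaluated along the natural numbers. -/
theorem doerge_poly_altSum_eq_zero {R : Type*} [CommRing R] (Q : R[X]) (n : ℕ)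
    (hQ : Q.natDegree < n) (x : R) :
    ∑ k ∈ range (n + 1), ((-1 : ℤ) ^ (n - k) * (n.choose k : ℤ)) • Q.eval (x + (k : R)) = 0 := by
  have h := congrFun (Polynomial.fwdDiff_iter_eq_zero_of_degree_lt (P := Q) hQ) x
  rw [fwdDiff_iter_eq_sum_shift] at h
  simpa using h

/-- If all `(d+1)`-th forward differences of `y` vanish on `[0, L)`, then `y` agrees on `[0, L)`
with a polynomial of degree `≤ d`. -/
theorem doerge_exists_poly_of_diff_zero (d L : ℕ) (y : ℕ → ℚ)
    (h : ∀ j, j + d + 1 < L →
      ∑ k ∈ range (d + 2), ((-1 : ℤ) ^ (d + 1 - k) * ((d + 1).choose k : ℤ)) • y (j + k) = 0) :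
    ∃ Q : ℚ[X], Q.natDegree ≤ d ∧ ∀ j < L, Q.eval (j : ℚ) = y j := by
  classical
  set v : ℕ → ℚ := fun i => (i : ℚ) with hv
  have hvinj : Set.InjOn v (range (d + 1) : Finset ℕ) := by
    intro a _ b _ hab
    simp only [hv] at hab
    exact_mod_cast hab
  set Q : ℚ[X] := Lagrange.interpolate (range (d + 1)) v y with hQ
  have hdeg : Q.natDegree ≤ d := by
    have h1 : Q.degree < ((range (d + 1)).card : WithBot ℕ) := Lagrange.degree_interpolate_lt _ hvinj
    rw [card_range] at h1
    by_cases hQ0 : Q = 0
    · simp [hQ0]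
    · have := (Polynomial.natDegree_lt_iff_degree_lt hQ0).2 h1
      omega
  refine ⟨Q, hdeg, ?_⟩
  intro j
  induction j using Nat.strong_induction_on with
  | _ j ih =>
    intro hj
    by_cases hjd : j < d + 1
    · have := Lagrange.eval_interpolate_at_node (r := y) hvinj (mem_range.2 hjd)
      simpa [hQ, hv] using this
    · rw [not_lt] at hjd
      obtain ⟨j0, rfl⟩ : ∃ j0, j = j0 + (d + 1) := ⟨j - (d + 1), by omega⟩
      have hy := h j0 (by omega)
      have hq := doerge_poly_altSum_eq_zero Q (d + 1) (by omega) (j0 : ℚ)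
      rw [sum_range_succ] at hy hq
      have hsum : ∑ k ∈ range (d + 1), ((-1 : ℤ) ^ (d + 1 - k) * ((d + 1).choose k : ℤ)) •
            Q.eval ((j0 : ℚ) + (k : ℚ)) =
          ∑ k ∈ range (d + 1), ((-1 : ℤ) ^ (d + 1 - k) * ((d + 1).choose k : ℤ)) • y (j0 + k) := by
        refine sum_congr rfl fun k hk => ?_
        have hk' := mem_range.1 hk
        have := ih (j0 + k) (by omega) (by omega)
        rw [← this]
        push_cast
        rfl
      rw [hsum] at hq
      simp only [Nat.sub_self, pow_zero, Nat.choose_self, Nat.cast_one, mul_one, one_smul] at hy hq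
      have : Q.eval ((j0 : ℚ) + ((d + 1 : ℕ) : ℚ)) = y (j0 + (d + 1)) := by
        linarith
      rw [← this]
      push_cast
      rfl

end Fermat.Agent.H2
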