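import Mathlib
import Fermat.Agent.H2.DoergeDiff
import Fermat.Agent.H2.DoergeDen

/-!
# Doerge lemma: Hilbert irreducibility for rational roots, along an arithmetic progression

Main theorem `doerge_no_rat_root`: let `F ∈ ℚ[t][y]` have `y`-degree `m > 0`, with
`deg_t F_j ≤ d (m - j)` (so the leading coefficient is constant), such that all real roots of the
leading form are simple and `F` has no root in `ℚ[t]`.  Then for every `M > 0` and `N0` there is
`n ≥ N0`, `M ∣ n`, such that `F(·, n)` has no rational root.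
-/

namespace Fermat.Agent.H2

open Polynomial Finset

/-- If `F(Q(j), n0 + D j) = 0` for more than `d m` consecutive `j`, then `F` has a polynomial
root. -/
theorem doerge_poly_root_of_AP (F : ℚ[X][X]) (m d : ℕ) (hm : F.natDegree ≤ m)
    (hdeg : ∀ j ≤ m, (F.coeff j).natDegree ≤ d * (m - j))
    (Q : ℚ[X]) (hQ : Q.natDegree ≤ d) (n0 D : ℚ) (hD : D ≠ 0) (L : ℕ) (hL : d * m < L)
    (h : ∀ j < L, F.evalEval (n0 + D * (j : ℚ)) (Q.eval (j : ℚ)) = 0) :
    ∃ Q' : ℚ[X], F.eval Q' = 0 := by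
  classical
  set lin : ℚ[X] := C n0 + C D * X with hlin
  set ψ : ℚ[X] →+* ℚ[X] := compRingHom lin with hψ
  set Φ : ℚ[X] := F.eval₂ ψ Q with hΦ
  have hlindeg : lin.natDegree ≤ 1 := by
    rw [hlin]
    refine (natDegree_add_le _ _).trans (max_le (by simp) ?_)
    exact (natDegree_C_mul_le _ _).trans (by simp)
  have hΦdeg : Φ.natDegree ≤ d * m := by
    rw [hΦ, eval₂_eq_sum_range' ψ (Nat.lt_succ_of_le hm)]
    refine natDegree_sum_le_of_forall_le _ _ fun j hj => ?_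
    have hj' : j ≤ m := Nat.lt_succ_iff.1 (mem_range.1 hj)
    have h1 : (ψ (F.coeff j)).natDegree ≤ d * (m - j) := by
      rw [hψ, coe_compRingHom_apply]
      refine natDegree_comp_le.trans ?_
      calc (F.coeff j).natDegree * lin.natDegree ≤ (d * (m - j)) * 1 :=
            Nat.mul_le_mul (hdeg j hj') hlindeg
        _ = d * (m - j) := Nat.mul_one _
    have h2 : (Q ^ j).natDegree ≤ j * d := natDegree_pow_le_of_le j hQ
    refine (natDegree_mul_le_of_le h1 h2).trans (le_of_eq ?_)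
    rw [mul_comm j d, ← Nat.mul_add, Nat.sub_add_cancel hj']
  have hΦeval : ∀ x : ℚ, Φ.eval x = F.evalEval (lin.eval x) (Q.eval x) := by
    intro x
    have h1 := Polynomial.hom_eval₂ F ψ (evalRingHom x) Q
    have h2 : (evalRingHom x).comp ψ = evalRingHom (lin.eval x) := by
      ext f
      · simp [hψ]
      · simp [hψ]
    rw [h2, eval₂_evalRingHom] at h1
    exact h1
  have hlineval : ∀ x : ℚ, lin.eval x = n0 + D * x := by
    intro x; simp [hlin]
  have hΦ0 : Φ = 0 := by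
    apply eq_zero_of_natDegree_lt_card_of_eval_eq_zero' Φ ((range L).image (fun j : ℕ => (j : ℚ)))
    · intro x hx
      obtain ⟨j, hj, rfl⟩ := mem_image.1 hx
      rw [hΦeval, hlineval]
      exact h j (mem_range.1 hj)
    · rw [card_image_of_injective _ Nat.cast_injective, card_range]
      omega
  set μ : ℚ[X] := C D⁻¹ * (X - C n0) with hμ
  refine ⟨Q.comp μ, ?_⟩
  have h1 := Polynomial.hom_eval₂ F ψ (compRingHom μ) Q
  have h2 : (compRingHom μ).comp ψ = RingHom.id ℚ[X] := by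
    have hlinμ : lin.comp μ = X := by
      rw [hlin, hμ]
      simp only [add_comp, C_comp, mul_comp, X_comp]
      rw [← mul_assoc, ← C_mul, mul_inv_cancel₀ hD]
      simp
    ext f
    · simp [hψ]
    · simp [hψ, hlinμ]
  rw [h2, ← hΦ, hΦ0, map_zero, coe_compRingHom_apply] at h1
  rw [eval₂_id] at h1
  exact h1.symm

/-- The `(d+1)`-th finite difference of rationals with bounded denominators that are very close to
the values of a real polynomial of degree `≤ d` along an arithmetic progression vanishes. -/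
theorem doerge_diff_zero (d e : ℕ) (he : 0 < e) (Cc : ℝ) (N2 : ℕ)
    (hN2 : 2 ^ (d + 1) * Cc * e < N2) (hN2pos : 0 < N2)
    (Pst : ℝ[X]) (hP : Pst.natDegree ≤ d) (n0 D : ℝ) (Y : ℕ → ℚ) (j0 : ℕ)
    (hint : ∀ k ≤ d + 1, ∃ z : ℤ, (e : ℚ) * Y (j0 + k) = z)
    (happ : ∀ k ≤ d + 1,
      |(Y (j0 + k) : ℝ) - Pst.eval (n0 + D * ((j0 : ℝ) + (k : ℝ)))| ≤ Cc / N2) :
    ∑ k ∈ range (d + 2), ((-1 : ℤ) ^ (d + 1 - k) * ((d + 1).choose k : ℤ)) • Y (j0 + k) = 0 := by
  classical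
  set c : ℕ → ℤ := fun k => (-1 : ℤ) ^ (d + 1 - k) * ((d + 1).choose k : ℤ) with hc
  set S : ℚ := ∑ k ∈ range (d + 2), c k • Y (j0 + k) with hS
  have hle : ∀ k ∈ range (d + 2), k ≤ d + 1 := fun k hk => Nat.lt_succ_iff.1 (mem_range.1 hk)
  -- integrality of `e * S`
  have hz : ∃ z : ℤ, (e : ℚ) * S = z := by
    choose! zf hzf using hint
    refine ⟨∑ k ∈ range (d + 2), c k * zf k, ?_⟩
    rw [hS, mul_sum]
    push_cast
    refine sum_congr rfl fun k hk => ?_
    rw [zsmul_eq_mul, ← hzf k (hle k hk)]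
    ring
  obtain ⟨z, hz⟩ := hz
  -- the polynomial part has vanishing difference
  set R : ℝ[X] := Pst.comp (Polynomial.C n0 + Polynomial.C D * X) with hR
  have hRdeg : R.natDegree < d + 1 := by
    have h1 : (Polynomial.C n0 + Polynomial.C D * X : ℝ[X]).natDegree ≤ 1 := by
      refine (natDegree_add_le _ _).trans (max_le (by simp) ?_)
      exact (natDegree_C_mul_le _ _).trans (by simp)
    have h2 : R.natDegree ≤ d * 1 := natDegree_comp_le.trans (Nat.mul_le_mul hP h1)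
    omega
  have hRsum := doerge_poly_altSum_eq_zero R (d + 1) hRdeg (j0 : ℝ)
  have hReval : ∀ k : ℕ, R.eval ((j0 : ℝ) + (k : ℝ)) = Pst.eval (n0 + D * ((j0 : ℝ) + (k : ℝ))) := by
    intro k
    simp [hR]
  -- the real value of `S`
  have hSR : (S : ℝ) = ∑ k ∈ range (d + 2),
      (c k : ℝ) * ((Y (j0 + k) : ℝ) - Pst.eval (n0 + D * ((j0 : ℝ) + (k : ℝ)))) := by
    have h1 : (S : ℝ) = ∑ k ∈ range (d + 2), (c k : ℝ) * (Y (j0 + k) : ℝ) := by
      rw [hS]
      push_cast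
      refine sum_congr rfl fun k _ => ?_
      rw [zsmul_eq_mul]
      push_cast
      rfl
    have h2 : ∑ k ∈ range (d + 2), (c k : ℝ) * Pst.eval (n0 + D * ((j0 : ℝ) + (k : ℝ))) = 0 := by
      rw [← hRsum]
      refine sum_congr rfl fun k _ => ?_
      rw [zsmul_eq_mul, hReval]
    rw [h1, ← sub_zero (∑ k ∈ range (d + 2), (c k : ℝ) * (Y (j0 + k) : ℝ)), ← h2,
      ← sum_sub_distrib]
    refine sum_congr rfl fun k _ => ?_
    ring
  have hN2R : (0 : ℝ) < N2 := by exact_mod_cast hN2pos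
  have heR : (0 : ℝ) < e := by exact_mod_cast he
  have hcabs : ∀ k, |(c k : ℝ)| = ((d + 1).choose k : ℝ) := by
    intro k
    rw [hc]
    push_cast
    rw [abs_mul, abs_pow, abs_neg, abs_one, one_pow, one_mul, Nat.abs_cast]
  have hCnn : 0 ≤ Cc / N2 := (abs_nonneg _).trans (happ 0 (Nat.zero_le _))
  have hSabs : |(S : ℝ)| ≤ 2 ^ (d + 1) * (Cc / N2) := by
    rw [hSR]
    calc |∑ k ∈ range (d + 2),
          (c k : ℝ) * ((Y (j0 + k) : ℝ) - Pst.eval (n0 + D * ((j0 : ℝ) + (k : ℝ))))|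
        ≤ ∑ k ∈ range (d + 2),
          |(c k : ℝ) * ((Y (j0 + k) : ℝ) - Pst.eval (n0 + D * ((j0 : ℝ) + (k : ℝ))))| :=
          abs_sum_le_sum_abs _ _
      _ ≤ ∑ k ∈ range (d + 2), ((d + 1).choose k : ℝ) * (Cc / N2) := by
          refine sum_le_sum fun k hk => ?_
          rw [abs_mul, hcabs]
          exact mul_le_mul_of_nonneg_left (happ k (hle k hk)) (Nat.cast_nonneg _)
      _ = 2 ^ (d + 1) * (Cc / N2) := by
          rw [← sum_mul]
          congr 1
          have := Nat.sum_range_choose (d + 1)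
          exact_mod_cast this
  have hzabs : |(z : ℝ)| < 1 := by
    have h1 : (z : ℝ) = (e : ℝ) * (S : ℝ) := by
      have := congrArg (fun q : ℚ => (q : ℝ)) hz
      push_cast at this
      exact this.symm
    rw [h1, abs_mul, abs_of_pos heR]
    calc (e : ℝ) * |(S : ℝ)| ≤ (e : ℝ) * (2 ^ (d + 1) * (Cc / N2)) :=
          mul_le_mul_of_nonneg_left hSabs heR.le
      _ = (2 ^ (d + 1) * Cc * e) / N2 := by ring
      _ < 1 := by rw [div_lt_one hN2R]; exact hN2
  have hz0 : z = 0 := by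
    have : |z| < 1 := by exact_mod_cast hzabs
    exact Int.abs_lt_one_iff.1 this
  rw [hz0, Int.cast_zero] at hz
  have heq : (e : ℚ) ≠ 0 := by exact_mod_cast he.ne'
  exact (mul_eq_zero.1 hz).resolve_left heq

/-- **Doerge-type lemma** (Hilbert irreducibility for rational roots along an arithmetic
progression).  `F ∈ ℚ[t][y]` (outer variable `y`, inner variable `t`) of `y`-degree `m > 0` with
`deg_t F_j ≤ d (m - j)`; all real roots of the leading form are simple; `F` has no root in `ℚ[t]`.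
Then for all `M > 0`, `N0` there is `n ≥ N0` with `M ∣ n` such that `F(·, n)` has no rational
root. -/
theorem doerge_no_rat_root (F : ℚ[X][X]) (m d : ℕ) (hm : F.natDegree = m) (hm0 : 0 < m)
    (hdeg : ∀ j ≤ m, (F.coeff j).natDegree ≤ d * (m - j))
    (hsep : ∀ u : ℝ, ((leadForm F m d).map (algebraMap ℚ ℝ)).eval u = 0 →
      ((leadForm F m d).map (algebraMap ℚ ℝ)).derivative.eval u ≠ 0)
    (hroot : ∀ Q : ℚ[X], F.eval Q ≠ 0)
    (M : ℕ) (hM : 0 < M) (N0 : ℕ) :
    ∃ n : ℕ, N0 ≤ n ∧ M ∣ n ∧ ∀ y : ℚ, F.evalEval (n : ℚ) y ≠ 0 := by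
  classical
  by_contra hcon
  push Not at hcon
  obtain ⟨Ps, N1, Cc, hN1, hC, hPsdeg, happrox⟩ := doerge_approx F m d hm hm0 hdeg hsep
  -- the leading coefficient is a nonzero constant
  have hFm0 : F.coeff m ≠ 0 := by
    rw [← hm]
    exact leadingCoeff_ne_zero.2 (fun h => by rw [h, natDegree_zero] at hm; omega)
  have hFmdeg : (F.coeff m).natDegree = 0 := by
    have := hdeg m le_rfl
    simpa using this
  obtain ⟨ℓq, hℓq⟩ : ∃ ℓq : ℚ, F.coeff m = Polynomial.C ℓq :=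
    ⟨(F.coeff m).coeff 0, eq_C_of_natDegree_eq_zero hFmdeg⟩
  have hℓq0 : ℓq ≠ 0 := by
    rintro rfl
    exact hFm0 (by simpa using hℓq)
  obtain ⟨e, he, hden⟩ := doerge_den_bound F m hm ℓq hℓq0 hℓq
  obtain ⟨N3, hN3⟩ := exists_nat_gt (2 ^ (d + 1) * Cc * e)
  set N2 : ℕ := max (max N0 N1) (max N3 1) with hN2def
  have hN2_0 : N0 ≤ N2 := (le_max_left _ _).trans (le_max_left _ _)
  have hN2_1 : N1 ≤ N2 := (le_max_right _ _).trans (le_max_left _ _)
  have hN2_3 : N3 ≤ N2 := (le_max_left _ _).trans (le_max_right _ _)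
  have hN2pos : 0 < N2 := lt_of_lt_of_le one_pos ((le_max_right _ _).trans (le_max_right _ _))
  have hN2lt : 2 ^ (d + 1) * Cc * e < N2 :=
    lt_of_lt_of_le hN3 (by exact_mod_cast hN2_3)
  set nn : ℕ → ℕ := fun k => M * (N2 + k) with hnn
  have hnn_ge : ∀ k, N2 ≤ nn k := fun k => by
    calc N2 ≤ N2 + k := Nat.le_add_right _ _
      _ = 1 * (N2 + k) := (Nat.one_mul _).symm
      _ ≤ M * (N2 + k) := Nat.mul_le_mul_right _ hM
  have hex : ∀ k, ∃ y : ℚ, ∃ P : ℝ[X], P ∈ Ps ∧ F.evalEval ((nn k : ℕ) : ℚ) y = 0 ∧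
      |(y : ℝ) - P.eval ((nn k : ℕ) : ℝ)| ≤ Cc / N2 := by
    intro k
    obtain ⟨y, hy⟩ := hcon (nn k) (hN2_0.trans (hnn_ge k)) (Dvd.intro _ rfl)
    obtain ⟨P, hP, hPb⟩ := happrox (nn k) (hN2_1.trans (hnn_ge k)) y hy
    refine ⟨y, P, hP, hy, hPb.trans ?_⟩
    have h1 : (0 : ℝ) < N2 := by exact_mod_cast hN2pos
    have h2 : (N2 : ℝ) ≤ (nn k : ℕ) := by exact_mod_cast hnn_ge k
    exact div_le_div_of_nonneg_left hC h1 h2
  choose y P hPmem hyroot hyapprox using hex
  set L : ℕ := d * m + d + 2 with hL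
  obtain ⟨a, ha, b, c, hcol⟩ := Combinatorics.exists_mono_homothetic_copy (range L)
    (fun k : ℕ => (⟨P k, hPmem k⟩ : Ps))
  have hPst : ∀ j < L, P (a * j + b) = c.1 := by
    intro j hj
    have := hcol j (mem_range.2 hj)
    rw [smul_eq_mul] at this
    exact congrArg Subtype.val this
  set Y : ℕ → ℚ := fun j => y (a * j + b) with hY
  have hcastR : ∀ j : ℕ, ((nn (a * j + b) : ℕ) : ℝ) =
      ((M * (N2 + b) : ℕ) : ℝ) + ((M * a : ℕ) : ℝ) * (j : ℝ) := by
    intro j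
    rw [hnn]
    push_cast
    ring
  have hcastQ : ∀ j : ℕ, ((nn (a * j + b) : ℕ) : ℚ) =
      ((M * (N2 + b) : ℕ) : ℚ) + ((M * a : ℕ) : ℚ) * (j : ℚ) := by
    intro j
    rw [hnn]
    push_cast
    ring
  have hdiff : ∀ j0, j0 + d + 1 < L →
      ∑ k ∈ range (d + 2), ((-1 : ℤ) ^ (d + 1 - k) * ((d + 1).choose k : ℤ)) • Y (j0 + k) = 0 := by
    intro j0 hj0
    refine doerge_diff_zero d e he Cc N2 hN2lt hN2pos c.1 (hPsdeg _ c.2)
      ((M * (N2 + b) : ℕ) : ℝ) ((M * a : ℕ) : ℝ) Y j0 ?_ ?_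
    · intro k _
      exact hden (nn (a * (j0 + k) + b)) (Y (j0 + k)) (hyroot _)
    · intro k hk
      have h1 := hyapprox (a * (j0 + k) + b)
      rw [hPst (j0 + k) (by omega), hcastR, Nat.cast_add] at h1
      exact h1
  obtain ⟨Q, hQdeg, hQ⟩ := doerge_exists_poly_of_diff_zero d L Y hdiff
  have hD : ((M * a : ℕ) : ℚ) ≠ 0 := by
    have : 0 < M * a := Nat.mul_pos hM ha
    exact_mod_cast this.ne'
  obtain ⟨Q', hQ'⟩ := doerge_poly_root_of_AP F m d hm.le hdeg Q hQdeg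
    ((M * (N2 + b) : ℕ) : ℚ) ((M * a : ℕ) : ℚ) hD L (by omega) (by
      intro j hj
      rw [hQ j hj, ← hcastQ]
      exact hyroot _)
  exact hroot Q' hQ'

end Fermat.Agent.H2
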