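import Mathlib
import Fermat.Agent.H2.DoergeMain

/-!
# Doerge lemma for the 3-division polynomial of a one-parameter family

`Ψ₃(x; A, B) = 3 x⁴ + 6 A x² + 12 B x - A²` for `y² = x³ + A x + B`, with `A, B ∈ ℚ[t]` of degrees
`≤ 2e`, `≤ 3e` whose leading coefficients `(α, β)` satisfy `4 α³ + 27 β² ≠ 0`.  If `Ψ₃` has no root
in `ℚ[t]`, then for every `M > 0` and `N0` there is `n ≥ N0`, `M ∣ n`, such that
`Ψ₃(·; A(n), B(n))` has no rational root.
-/

namespace Fermat.Agent.H2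

open Polynomial

/-- The bivariate polynomial `Ψ₃ = 3 y⁴ + 6 A y² + 12 B y - A²` over `ℚ[t]`. -/
noncomputable def doergePsi3 (A B : ℚ[X]) : ℚ[X][X] :=
  C (3 : ℚ[X]) * X ^ 4 + C (6 * A) * X ^ 2 + C (12 * B) * X - C (A ^ 2)

theorem doergePsi3_eval (A B x : ℚ[X]) :
    (doergePsi3 A B).eval x = 3 * x ^ 4 + 6 * A * x ^ 2 + 12 * B * x - A ^ 2 := by
  simp [doergePsi3]

theorem doergePsi3_evalEval (A B : ℚ[X]) (t y : ℚ) :
    (doergePsi3 A B).evalEval t y =
      3 * y ^ 4 + 6 * A.eval t * y ^ 2 + 12 * B.eval t * y - A.eval t ^ 2 := by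
  simp [doergePsi3, evalEval]

theorem doergePsi3_coeff (A B : ℚ[X]) (j : ℕ) :
    (doergePsi3 A B).coeff j =
      if j = 4 then 3 else if j = 2 then 6 * A else if j = 1 then 12 * B
        else if j = 0 then -A ^ 2 else 0 := by
  have h3 : (C (3 : ℚ[X]) * X ^ 4 : ℚ[X][X]).coeff j = if j = 4 then 3 else 0 := by
    rw [coeff_C_mul, coeff_X_pow]; split_ifs <;> simp
  have h2 : (C (6 * A) * X ^ 2 : ℚ[X][X]).coeff j = if j = 2 then 6 * A else 0 := by
    rw [coeff_C_mul, coeff_X_pow]; split_ifs <;> simp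
  have h1 : (C (12 * B) * X : ℚ[X][X]).coeff j = if j = 1 then 12 * B else 0 := by
    rw [coeff_C_mul, coeff_X]
    by_cases h : j = 1
    · simp [h]
    · have h' : ¬ (1 = j) := fun hh => h hh.symm
      simp [h, h']
  have h0 : (C (A ^ 2) : ℚ[X][X]).coeff j = if j = 0 then A ^ 2 else 0 := by
    rw [coeff_C]
  rw [doergePsi3, coeff_sub, coeff_add, coeff_add, h3, h2, h1, h0]
  by_cases c4 : j = 4
  · subst c4; simp
  by_cases c2 : j = 2
  · subst c2; simp
  by_cases c1 : j = 1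
  · subst c1; simp
  by_cases c0 : j = 0
  · subst c0; simp
  simp [c4, c2, c1, c0]

theorem doergePsi3_natDegree (A B : ℚ[X]) : (doergePsi3 A B).natDegree = 4 := by
  apply le_antisymm
  · rw [natDegree_le_iff_coeff_eq_zero]
    intro N hN
    rw [doergePsi3_coeff]
    have h4 : N ≠ 4 := by omega
    have h2 : N ≠ 2 := by omega
    have h1 : N ≠ 1 := by omega
    have h0 : N ≠ 0 := by omega
    simp [h4, h2, h1, h0]
  · apply le_natDegree_of_ne_zero
    rw [doergePsi3_coeff]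
    simp

theorem doergePsi3_leadForm (A B : ℚ[X]) (e : ℕ) (hA : A.natDegree ≤ 2 * e) :
    leadForm (doergePsi3 A B) 4 e =
      C 3 * X ^ 4 + C (6 * A.coeff (2 * e)) * X ^ 2 + C (12 * B.coeff (3 * e)) * X
        - C (A.coeff (2 * e) ^ 2) := by
  have hA2 : (A ^ 2).coeff (4 * e) = A.coeff (2 * e) ^ 2 := by
    have := coeff_pow_of_natDegree_le (m := 2) hA
    rw [show 4 * e = 2 * (2 * e) by ring]
    exact this
  rw [leadForm]
  simp only [Finset.sum_range_succ, Finset.range_zero, Finset.sum_empty, zero_add,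
    doergePsi3_coeff]
  norm_num
  rw [mul_comm e 4, hA2, mul_comm e 3, mul_comm e 2]
  simp only [map_pow]
  ring

/-- **Doerge lemma for `Ψ₃`.** -/
theorem doerge_psi3 (A B : ℚ[X]) (e : ℕ) (hA : A.natDegree ≤ 2 * e) (hB : B.natDegree ≤ 3 * e)
    (hdisc : 4 * A.coeff (2 * e) ^ 3 + 27 * B.coeff (3 * e) ^ 2 ≠ 0)
    (hroot : ∀ x : ℚ[X], 3 * x ^ 4 + 6 * A * x ^ 2 + 12 * B * x - A ^ 2 ≠ 0)
    (M : ℕ) (hM : 0 < M) (N0 : ℕ) :
    ∃ n : ℕ, N0 ≤ n ∧ M ∣ n ∧ ∀ y : ℚ,
      3 * y ^ 4 + 6 * A.eval (n : ℚ) * y ^ 2 + 12 * B.eval (n : ℚ) * y - A.eval (n : ℚ) ^ 2 ≠ 0 := by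
  have h12 : (12 : ℚ[X]) = C 12 := (map_ofNat C 12).symm
  have h6 : (6 : ℚ[X]) = C 6 := (map_ofNat C 6).symm
  have h3 : (3 : ℚ[X]) = C 3 := (map_ofNat C 3).symm
  have hdeg : ∀ j ≤ 4, ((doergePsi3 A B).coeff j).natDegree ≤ e * (4 - j) := by
    intro j hj
    rw [doergePsi3_coeff]
    interval_cases j
    · simp only [OfNat.zero_ne_ofNat, if_false, if_true, zero_ne_one]
      rw [natDegree_neg]
      exact (natDegree_pow_le_of_le 2 hA).trans (by omega)
    · simp only [OfNat.one_ne_ofNat, if_false, if_true]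
      rw [h12]
      exact (natDegree_C_mul_le _ _).trans (hB.trans (by omega))
    · norm_num
      rw [h6]
      exact (natDegree_C_mul_le _ _).trans (hA.trans (by omega))
    · norm_num
    · norm_num
  have hsep : ∀ u : ℝ, ((leadForm (doergePsi3 A B) 4 e).map (algebraMap ℚ ℝ)).eval u = 0 →
      ((leadForm (doergePsi3 A B) 4 e).map (algebraMap ℚ ℝ)).derivative.eval u ≠ 0 := by
    intro u h0 h1
    set α : ℝ := ((A.coeff (2 * e) : ℚ) : ℝ) with hα
    set β : ℝ := ((B.coeff (3 * e) : ℚ) : ℝ) with hβ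
    have hmap : (leadForm (doergePsi3 A B) 4 e).map (algebraMap ℚ ℝ) =
        C 3 * X ^ 4 + C (6 * α) * X ^ 2 + C (12 * β) * X - C (α ^ 2) := by
      rw [doergePsi3_leadForm A B e hA]
      simp only [Polynomial.map_sub, Polynomial.map_add, Polynomial.map_mul, Polynomial.map_pow,
        map_C, map_X, hα, hβ]
      simp
    rw [hmap] at h0 h1
    have h0' : 3 * u ^ 4 + 6 * α * u ^ 2 + 12 * β * u - α ^ 2 = 0 := by
      simpa using h0
    have hd : derivative (C 3 * X ^ 4 + C (6 * α) * X ^ 2 + C (12 * β) * X - C (α ^ 2) : ℝ[X]) =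
        C 3 * (C 4 * X ^ 3) + C (6 * α) * (C 2 * X) + C (12 * β) := by
      rw [derivative_sub, derivative_add, derivative_add, derivative_C, derivative_C_mul,
        derivative_C_mul, derivative_C_mul, derivative_X_pow, derivative_X_pow, derivative_X]
      simp
    rw [hd] at h1
    have h1' : 3 * (4 * u ^ 3) + 6 * α * (2 * u) + 12 * β = 0 := by
      simpa using h1
    have hΔu : (4 * α ^ 3 + 27 * β ^ 2) * u = 0 := by
      linear_combination (3 * β - α * u) * h0' + (3 * α ^ 2 - 9 * β * u + 3 * α * u ^ 2) / 12 * h1'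
    have hΔ : (4 * α ^ 3 + 27 * β ^ 2) ≠ 0 := by
      rw [hα, hβ]
      exact_mod_cast hdisc
    have hu : u = 0 := (mul_eq_zero.1 hΔu).resolve_left hΔ
    rw [hu] at h0' h1'
    have hβ0 : β = 0 := by linarith
    have hα0 : α = 0 := by
      have : α ^ 2 = 0 := by linarith
      exact pow_eq_zero_iff (two_ne_zero) |>.1 this
    apply hΔ
    rw [hα0, hβ0]
    ring
  obtain ⟨n, hn, hMn, hno⟩ := doerge_no_rat_root (doergePsi3 A B) 4 e (doergePsi3_natDegree A B)
    (by norm_num) hdeg hsep (fun Q => by rw [doergePsi3_eval]; exact hroot Q) M hM N0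
  refine ⟨n, hn, hMn, fun y => ?_⟩
  rw [← doergePsi3_evalEval]
  exact hno y

end Fermat.Agent.H2
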