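import Fermat.Agent.H2.KLBRJ

/-!
# P-ES / KL-BR (helper2): branch data of the Hauptmoduln `t_2`, `t_3` from those of `j`

Pure place calculus.  `F / L` a field extension (`char L = 0`), `j, t ∈ F` with

* `j * t ^ 2 = (t + 256) ^ 3` (the relation of `t_2 = Δ(q)/Δ(q²)`), resp.
* `j * t ^ 3 = (t + 27) * (t + 243) ^ 3` (the relation of `t_3 = (η(q)/η(q³))^12`).

If `j` is unramified outside `0, 1728, ∞` with indices dividing `3, 2, N`, then `t` is unramified
outside `0, -64, ∞` (resp. `0, -27, ∞`) with indices dividing `N, 2, N` (resp. `N, 3, N`).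

* `BranchClean` : branch data with branch values `0, c, ∞`, clean form over `L`.
* `klbr_branchOrd_iff_clean` : `BranchOrd K0 L y {0, c} (branchExp K0 e0 e1) einf ↔ BranchClean`.
* `klbr_clean_t2`, `klbr_clean_t3` : the transfer.
* `klbr_ord_t2_of_ord_j`, `klbr_ord_t3_of_ord_j` : a simple pole of `j` is a simple pole of `t`.
* `klbr_transcendental_of_mem_adjoin`, `klbr_finiteDimensional_of_mem_adjoin`.
-/

set_option autoImplicit false
set_option synthInstance.maxHeartbeats 400000
set_option linter.style.haveILetI false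

noncomputable section

open AlgebraicCurve IntermediateField Polynomial

namespace Fermat.Agent.H2

open Fermat.Agent.H23

section placecalc

variable {L F : Type} [Field L] [Field F] [Algebra L F]

theorem klbr_ord_pow (w : Place L F) (f : F) (n : ℕ) : w.ord (f ^ n) = (n : ℤ) * w.ord f := by
  have := w.ord_zpow f (n : ℤ)
  simpa using this

theorem klbr_ne_zero_of_ord_ne {w : Place L F} {f : F} (h : w.ord f ≠ 0) : f ≠ 0 := by
  rintro rfl
  simp at h

/-- at a pole of `t`: `ord (t - c) = ord t` -/
theorem klbr_sub_const_of_neg (w : Place L F) {t : F} (ht : w.ord t < 0) (c : L) :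
    t - algebraMap L F c ≠ 0 ∧ w.ord (t - algebraMap L F c) = w.ord t := by
  have ht0 : t ≠ 0 := klbr_ne_zero_of_ord_ne ht.ne
  by_cases hc : c = 0
  · subst hc
    simp [ht0]
  · have hc0 : algebraMap L F c ≠ 0 := by simpa using hc
    have hcn : -algebraMap L F c ≠ 0 := neg_ne_zero.mpr hc0
    have hord : w.ord (-algebraMap L F c) = 0 := by rw [ord_neg, ord_algebraMap]
    have h := ord_add_eq_of_lt w ht0 hcn (by rw [hord]; exact ht)
    rw [← sub_eq_add_neg] at h
    refine ⟨?_, h⟩
    intro h0
    rw [h0] at h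
    simp at h
    omega

/-- at a point `t = a`: `t - b` is a unit for `b ≠ a` -/
theorem klbr_sub_const_of_pos (w : Place L F) {t : F} {a : L}
    (ht : 0 < w.ord (t - algebraMap L F a)) {b : L} (hb : b ≠ a) :
    t - algebraMap L F b ≠ 0 ∧ w.ord (t - algebraMap L F b) = 0 := by
  have h1 : t - algebraMap L F a ≠ 0 := klbr_ne_zero_of_ord_ne ht.ne'
  have hab : a - b ≠ 0 := sub_ne_zero.mpr (Ne.symm hb)
  have hc : algebraMap L F (a - b) ≠ 0 := by
    rwa [Ne, map_eq_zero]
  have hord : w.ord (algebraMap L F (a - b)) = 0 := ord_algebraMap w _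
  have h := ord_add_eq_of_lt w hc h1 (by rw [hord]; exact ht)
  have e : algebraMap L F (a - b) + (t - algebraMap L F a) = t - algebraMap L F b := by
    rw [map_sub]
    ring
  rw [e, hord] at h
  refine ⟨?_, h⟩
  intro h0
  have h2 : t - algebraMap L F a = -algebraMap L F (a - b) := by
    rw [map_sub]
    linear_combination h0
  rw [h2, ord_neg, hord] at ht
  exact lt_irrefl _ ht

/-- the same at a zero of `t` -/
theorem klbr_sub_const_of_pos_zero (w : Place L F) {t : F} (ht : 0 < w.ord t) {b : L}
    (hb : b ≠ 0) : t - algebraMap L F b ≠ 0 ∧ w.ord (t - algebraMap L F b) = 0 := by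
  have ht' : 0 < w.ord (t - algebraMap L F 0) := by simpa using ht
  exact klbr_sub_const_of_pos w ht' hb

theorem klbr_mem_of_ord_sub_pos (w : Place L F) {t : F} {a : L}
    (ht : 0 < w.ord (t - algebraMap L F a)) : t ∈ w.toValuationSubring := by
  have h1 : t - algebraMap L F a ∈ w.toValuationSubring := mem_of_ord_nonneg w ht.le
  have h2 := add_mem h1 (w.algebraMap_mem' a)
  rwa [sub_add_cancel] at h2

/-- Branch data with branch values `0`, `c`, `∞` and exponents `e0`, `e1`, `einf`: clean form
over `L`. -/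
def BranchClean (L : Type) {F : Type} [Field L] [Field F] [Algebra L F] (y : F) (c : L)
    (e0 e1 einf : ℕ) : Prop :=
  ∀ w : Place L F,
    (∀ a : L, a ≠ 0 → a ≠ c → 0 < w.ord (y - algebraMap L F a) →
      w.ord (y - algebraMap L F a) = 1) ∧
    (0 < w.ord y → w.ord y ∣ (e0 : ℤ)) ∧
    (0 < w.ord (y - algebraMap L F c) → w.ord (y - algebraMap L F c) ∣ (e1 : ℤ)) ∧
    (0 < w.ord y⁻¹ → w.ord y⁻¹ ∣ (einf : ℤ))

theorem klbr_branchOrd_iff_clean {K0 : Type} [Field K0] [Algebra K0 L] (y : F) (c : K0)
    (hc : c ≠ 0) (e0 e1 einf : ℕ) :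
    BranchOrd K0 L y ({0, c} : Set K0) (branchExp K0 e0 e1) einf ↔
      BranchClean L y (algebraMap K0 L c) e0 e1 einf := by
  constructor
  · intro h w
    obtain ⟨h1, h2, h3⟩ := h w
    refine ⟨?_, ?_, ?_, h3⟩
    · intro a ha0 hac
      refine h1 a ?_
      intro c' hc'
      rcases hc' with rfl | hc'
      · simpa using ha0
      · rw [Set.mem_singleton_iff] at hc'
        subst hc'
        exact hac
    · intro hpos
      have := h2 0 (by simp) (by simpa using hpos)
      simpa [branchExp_zero] using this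
    · intro hpos
      have := h2 c (by simp) hpos
      rwa [branchExp_of_ne _ _ _ hc] at this
  · intro h w
    obtain ⟨h1, h2, h3, h4⟩ := h w
    refine ⟨?_, ?_, h4⟩
    · intro a ha
      refine h1 a ?_ ?_
      · have := ha 0 (by simp)
        simpa using this
      · exact ha c (by simp)
    · intro c' hc'
      rcases hc' with rfl | hc'
      · intro hpos
        rw [branchExp_zero]
        simp only [map_zero, sub_zero] at hpos ⊢
        exact h2 hpos
      · rw [Set.mem_singleton_iff] at hc'
        subst hc'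
        intro hpos
        rw [branchExp_of_ne _ _ _ hc]
        exact h3 hpos

end placecalc

section adjoin

variable {L F : Type} [Field L] [Field F] [Algebra L F]

/-- if `j ∈ L(t)` is transcendental over `L`, so is `t` -/
theorem klbr_transcendental_of_mem_adjoin {j t : F} (hj : Transcendental L j)
    (hmem : j ∈ L⟮t⟯) : Transcendental L t := by
  intro ht
  apply hj
  have halg : Algebra.IsAlgebraic L L⟮t⟯ :=
    IntermediateField.isAlgebraic_adjoin_simple ht.isIntegral
  have h1 : IsAlgebraic L (⟨j, hmem⟩ : L⟮t⟯) := Algebra.IsAlgebraic.isAlgebraic _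
  exact (isAlgebraic_algebraMap_iff (algebraMap L⟮t⟯ F).injective).mpr h1

/-- if `j ∈ L(t)` and `F` is finite over `L(j)`, then `F` is finite over `L(t)` -/
theorem klbr_finiteDimensional_of_mem_adjoin {j t : F} (hfin : FiniteDimensional L⟮j⟯ F)
    (hmem : j ∈ L⟮t⟯) : FiniteDimensional L⟮t⟯ F := by
  have hle : L⟮j⟯ ≤ L⟮t⟯ := IntermediateField.adjoin_simple_le_iff.mpr hmem
  letI alg : Algebra L⟮j⟯ L⟮t⟯ := (IntermediateField.inclusion hle).toRingHom.toAlgebra
  haveI tow : IsScalarTower L⟮j⟯ L⟮t⟯ F := IsScalarTower.of_algebraMap_eq (fun _ => rfl)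
  exact Module.Finite.of_restrictScalars_finite L⟮j⟯ L⟮t⟯ F

end adjoin

end Fermat.Agent.H2
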