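import Fermat.Agent.H2.KLBRBranchCalc

/-!
# P-ES / KL-BR (helper2): branch data of `t_2` from those of `j` (place calculus)

`j * t ^ 2 = (t + 256) ^ 3`, hence `(j - 1728) * t ^ 2 = (t + 64) * (t - 512) ^ 2`.
-/

set_option autoImplicit false
set_option synthInstance.maxHeartbeats 400000
set_option linter.style.haveILetI false

noncomputable section

open AlgebraicCurve IntermediateField Polynomial

namespace Fermat.Agent.H2

open Fermat.Agent.H23

section t2

variable {L F : Type} [Field L] [Field F] [Algebra L F] [CharZero L]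

/-- `j ∈ L(t)` -/
theorem klbr_j_mem_adjoin_t2 {j t : F} (hrel : j * t ^ 2 = (t + 256) ^ 3) : j ∈ L⟮t⟯ := by
  haveI : CharZero F := charZero_of_injective_algebraMap (algebraMap L F).injective
  have ht0 : t ≠ 0 := by
    rintro rfl
    have h : (256 : F) ^ 3 = 0 := by simpa using hrel.symm
    exact absurd h (by norm_num)
  have hj : j = (t + 256) ^ 3 / t ^ 2 := by
    field_simp
    exact hrel
  rw [hj]
  have ht : t ∈ L⟮t⟯ := mem_adjoin_simple_self L t
  have h256 : (256 : F) ∈ L⟮t⟯ := by
    have := L⟮t⟯.algebraMap_mem (256 : L)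
    rwa [map_ofNat] at this
  exact div_mem (pow_mem (add_mem ht h256) 3) (pow_mem ht 2)

/-- **a simple pole of `j` is a simple pole of `t`** (more generally `ord t = ord j` as soon as
`ord j` is negative and odd). -/
theorem klbr_ord_t2_of_ord_j (w : Place L F) {j t : F} (hrel : j * t ^ 2 = (t + 256) ^ 3)
    (hj : w.ord j = -1) : w.ord t = -1 := by
  haveI : CharZero F := charZero_of_injective_algebraMap (algebraMap L F).injective
  have ht0 : t ≠ 0 := by
    rintro rfl
    have h : (256 : F) ^ 3 = 0 := by simpa using hrel.symm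
    exact absurd h (by norm_num)
  have hj0 : j ≠ 0 := klbr_ne_zero_of_ord_ne (by rw [hj]; norm_num)
  have s256 : t + 256 = t - algebraMap L F (-256) := by
    rw [map_neg, map_ofNat, sub_neg_eq_add]
  have h256 : (-256 : L) ≠ 0 := by norm_num
  have hL : j * t ^ 2 ≠ 0 := mul_ne_zero hj0 (pow_ne_zero _ ht0)
  have hR0 : t + 256 ≠ 0 := by
    intro h
    rw [hrel, h] at hL
    simp at hL
  have hord : w.ord j + 2 * w.ord t = 3 * w.ord (t + 256) := by
    have h := congrArg w.ord hrel
    rwa [w.ord_mul hj0 (pow_ne_zero _ ht0), klbr_ord_pow, klbr_ord_pow] at h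
  rcases lt_trichotomy (w.ord t) 0 with h | h | h
  · have := (klbr_sub_const_of_neg w h (-256)).2
    rw [← s256] at this
    omega
  · have hmem : t + 256 ∈ w.toValuationSubring := by
      refine add_mem (mem_of_ord_nonneg w h.ge) ?_
      have := w.algebraMap_mem' (256 : L)
      rwa [map_ofNat] at this
    have := ord_nonneg_of_mem w hmem
    omega
  · have := (klbr_sub_const_of_pos_zero w h h256).2
    rw [← s256] at this
    omega

/-- **Branch data of `t_2` from those of `j`.** -/
theorem klbr_clean_t2 {j t : F} (N : ℕ) (hjc : ∀ b : L, j ≠ algebraMap L F b)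
    (hrel : j * t ^ 2 = (t + 256) ^ 3) (hJ : BranchClean L j (1728 : L) 3 2 N) :
    BranchClean L t (-64 : L) N 2 N := by
  haveI : CharZero F := charZero_of_injective_algebraMap (algebraMap L F).injective
  intro w
  obtain ⟨J1, J0, J1728, Jinf⟩ := hJ w
  have ht0 : t ≠ 0 := by
    rintro rfl
    have h : (256 : F) ^ 3 = 0 := by simpa using hrel.symm
    exact absurd h (by norm_num)
  have hj0 : j ≠ 0 := by
    have := hjc 0
    simpa using this
  have hj1728 : j - 1728 ≠ 0 := by
    have := hjc 1728
    rw [map_ofNat] at this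
    exact sub_ne_zero.mpr this
  have hrel2 : (j - 1728) * t ^ 2 = (t + 64) * (t - 512) ^ 2 := by
    linear_combination hrel
  have s256 : t + 256 = t - algebraMap L F (-256) := by
    rw [map_neg, map_ofNat, sub_neg_eq_add]
  have s64 : t + 64 = t - algebraMap L F (-64) := by
    rw [map_neg, map_ofNat, sub_neg_eq_add]
  have s512 : t - 512 = t - algebraMap L F 512 := by
    rw [map_ofNat]
  have s1728 : j - 1728 = j - algebraMap L F 1728 := by
    rw [map_ofNat]
  have hL : j * t ^ 2 ≠ 0 := mul_ne_zero hj0 (pow_ne_zero _ ht0)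
  have hR0 : t + 256 ≠ 0 := by
    intro h
    rw [hrel, h] at hL
    simp at hL
  have hL2 : (j - 1728) * t ^ 2 ≠ 0 := mul_ne_zero hj1728 (pow_ne_zero _ ht0)
  have hR64 : t + 64 ≠ 0 := by
    intro h
    rw [hrel2, h] at hL2
    simp at hL2
  have hR512 : t - 512 ≠ 0 := by
    intro h
    rw [hrel2, h] at hL2
    simp at hL2
  have hord : w.ord j + 2 * w.ord t = 3 * w.ord (t + 256) := by
    have h := congrArg w.ord hrel
    rwa [w.ord_mul hj0 (pow_ne_zero _ ht0), klbr_ord_pow, klbr_ord_pow] at h
  have hord2 : w.ord (j - 1728) + 2 * w.ord t = w.ord (t + 64) + 2 * w.ord (t - 512) := by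
    have h := congrArg w.ord hrel2
    rwa [w.ord_mul hj1728 (pow_ne_zero _ ht0), w.ord_mul hR64 (pow_ne_zero _ hR512),
      klbr_ord_pow, klbr_ord_pow] at h
  refine ⟨?_, ?_, ?_, ?_⟩
  · -- unramified points
    intro a ha0 ha64 hpos
    have hta : t - algebraMap L F a ≠ 0 := klbr_ne_zero_of_ord_ne hpos.ne'
    have hordt : w.ord t = 0 := by
      have := (klbr_sub_const_of_pos w hpos (b := 0) (Ne.symm ha0)).2
      simpa using this
    by_cases h256 : a = -256
    · subst h256
      rw [← s256] at hpos ⊢
      have hjpos : 0 < w.ord j := by omega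
      have h3 := Int.le_of_dvd (by norm_num) (J0 hjpos)
      omega
    by_cases h512 : a = 512
    · subst h512
      rw [← s512] at hpos ⊢
      have h64 : w.ord (t + 64) = 0 := by
        have := (klbr_sub_const_of_pos w (by rwa [← s512]) (b := -64) (by norm_num)).2
        rwa [← s64] at this
      have hjpos : 0 < w.ord (j - algebraMap L F 1728) := by
        rw [← s1728]
        omega
      have h3 := Int.le_of_dvd (by norm_num) (J1728 hjpos)
      rw [← s1728] at h3
      omega
    -- the generic case
    set b : L := (a + 256) ^ 3 / a ^ 2 with hb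
    have hb0 : b ≠ 0 := by
      rw [hb]
      refine div_ne_zero (pow_ne_zero _ ?_) (pow_ne_zero _ ha0)
      intro h
      exact h256 (by linear_combination h)
    have hb1728 : b ≠ 1728 := by
      rw [hb]
      intro h
      rw [div_eq_iff (pow_ne_zero _ ha0)] at h
      have h2 : (a + 64) * (a - 512) ^ 2 = 0 := by linear_combination h
      rcases mul_eq_zero.mp h2 with h3 | h3
      · exact ha64 (by linear_combination h3)
      · exact h512 (by linear_combination pow_eq_zero_iff (two_ne_zero) |>.mp h3)
    let G : L[X] := C (a ^ 2) * (X + 256) ^ 3 - C ((a + 256) ^ 3) * X ^ 2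
    have hG : G.IsRoot a := by
      simp only [G, IsRoot.def, eval_sub, eval_mul, eval_C, eval_pow, eval_add, eval_X,
        eval_ofNat]
      ring
    obtain ⟨R, hR⟩ := dvd_iff_isRoot.mpr hG
    have h1 : aeval t G = algebraMap L F a ^ 2 * (t + 256) ^ 3 -
        algebraMap L F ((a + 256) ^ 3) * t ^ 2 := by
      simp only [G, map_sub, map_mul, aeval_C, map_pow, map_add, aeval_X, map_ofNat]
    have h2 : aeval t G = (t - algebraMap L F a) * aeval t R := by
      rw [hR]
      simp
    have h3 : algebraMap L F b * algebraMap L F a ^ 2 = algebraMap L F ((a + 256) ^ 3) := by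
      rw [← map_pow, ← map_mul]
      congr 1
      rw [hb]
      field_simp
    have key : (j - algebraMap L F b) * (algebraMap L F a ^ 2 * t ^ 2) =
        (t - algebraMap L F a) * aeval t R := by
      rw [← h2, h1]
      linear_combination (algebraMap L F a ^ 2) * hrel - t ^ 2 * h3
    have hA0 : algebraMap L F a ≠ 0 := by rwa [Ne, map_eq_zero]
    have hjb : j - algebraMap L F b ≠ 0 := sub_ne_zero.mpr (hjc b)
    have hAt : algebraMap L F a ^ 2 * t ^ 2 ≠ 0 :=
      mul_ne_zero (pow_ne_zero _ hA0) (pow_ne_zero _ ht0)
    have hR0' : aeval t R ≠ 0 := by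
      intro h
      rw [h, mul_zero] at key
      exact mul_ne_zero hjb hAt key
    have hRmem : 0 ≤ w.ord (aeval t R) :=
      ord_nonneg_of_mem w (klbr_aeval_mem w (klbr_mem_of_ord_sub_pos w hpos) R)
    have hordkey : w.ord (j - algebraMap L F b) =
        w.ord (t - algebraMap L F a) + w.ord (aeval t R) := by
      have h := congrArg w.ord key
      rw [w.ord_mul hjb hAt, w.ord_mul (pow_ne_zero _ hA0) (pow_ne_zero _ ht0), klbr_ord_pow,
        klbr_ord_pow, ord_algebraMap, hordt, w.ord_mul hta hR0'] at h
      simpa using h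
    have hjpos : 0 < w.ord (j - algebraMap L F b) := by omega
    have := J1 b hb0 hb1728 hjpos
    omega
  · -- zeros of `t`
    intro hpos
    have h256 : w.ord (t + 256) = 0 := by
      have := (klbr_sub_const_of_pos_zero w hpos (b := -256) (by norm_num)).2
      rwa [← s256] at this
    have hjinv : w.ord j⁻¹ = 2 * w.ord t := by
      rw [w.ord_inv]
      omega
    have hdvd := Jinf (by omega)
    rw [hjinv] at hdvd
    exact (dvd_mul_left _ _).trans hdvd
  · -- the branch value `-64`
    intro hpos
    have hordt : w.ord t = 0 := by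
      have := (klbr_sub_const_of_pos w hpos (b := 0) (by norm_num)).2
      simpa using this
    have h512 : w.ord (t - 512) = 0 := by
      have := (klbr_sub_const_of_pos w hpos (b := 512) (by norm_num)).2
      rwa [← s512] at this
    rw [← s64] at hpos ⊢
    have hjeq : w.ord (j - algebraMap L F 1728) = w.ord (t + 64) := by
      rw [← s1728]
      omega
    have := J1728 (by omega)
    rwa [hjeq] at this
  · -- poles of `t`
    intro hpos
    have hneg : w.ord t < 0 := by
      rw [w.ord_inv] at hpos
      omega
    have h256 : w.ord (t + 256) = w.ord t := by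
      have := (klbr_sub_const_of_neg w hneg (-256)).2
      rwa [← s256] at this
    have hjinv : w.ord j⁻¹ = w.ord t⁻¹ := by
      rw [w.ord_inv, w.ord_inv]
      omega
    have := Jinf (by omega)
    rwa [hjinv] at this

end t2

end Fermat.Agent.H2
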