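import Fermat.Agent.H2.KLBRBranchCalc

/-!
# P-ES / KL-BR (helper2): branch data of `t_3` from those of `j` (place calculus)

`j * t ^ 3 = (t + 27) * (t + 243) ^ 3`, hence
`(j - 1728) * t ^ 3 = (t ^ 2 - 486 * t - 19683) ^ 2`.
-/

set_option autoImplicit false
set_option synthInstance.maxHeartbeats 400000
set_option linter.style.haveILetI false

noncomputable section

open AlgebraicCurve IntermediateField Polynomial

namespace Fermat.Agent.H2

open Fermat.Agent.H23

section t3

variable {L F : Type} [Field L] [Field F] [Algebra L F] [CharZero L]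

/-- `j ∈ L(t)` -/
theorem klbr_j_mem_adjoin_t3 {j t : F} (hrel : j * t ^ 3 = (t + 27) * (t + 243) ^ 3) :
    j ∈ L⟮t⟯ := by
  haveI : CharZero F := charZero_of_injective_algebraMap (algebraMap L F).injective
  have ht0 : t ≠ 0 := by
    rintro rfl
    have h : (27 : F) * (243 : F) ^ 3 = 0 := by simpa using hrel.symm
    exact absurd h (by norm_num)
  have hj : j = (t + 27) * (t + 243) ^ 3 / t ^ 3 := by
    field_simp
    exact hrel
  rw [hj]
  have ht : t ∈ L⟮t⟯ := mem_adjoin_simple_self L t
  have h27 : (27 : F) ∈ L⟮t⟯ := by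
    have := L⟮t⟯.algebraMap_mem (27 : L)
    rwa [map_ofNat] at this
  have h243 : (243 : F) ∈ L⟮t⟯ := by
    have := L⟮t⟯.algebraMap_mem (243 : L)
    rwa [map_ofNat] at this
  exact div_mem (mul_mem (add_mem ht h27) (pow_mem (add_mem ht h243) 3)) (pow_mem ht 3)

/-- **a simple pole of `j` is a simple pole of `t`**. -/
theorem klbr_ord_t3_of_ord_j (w : Place L F) {j t : F}
    (hrel : j * t ^ 3 = (t + 27) * (t + 243) ^ 3) (hj : w.ord j = -1) : w.ord t = -1 := by
  haveI : CharZero F := charZero_of_injective_algebraMap (algebraMap L F).injective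
  have ht0 : t ≠ 0 := by
    rintro rfl
    have h : (27 : F) * (243 : F) ^ 3 = 0 := by simpa using hrel.symm
    exact absurd h (by norm_num)
  have hj0 : j ≠ 0 := klbr_ne_zero_of_ord_ne (by rw [hj]; norm_num)
  have s27 : t + 27 = t - algebraMap L F (-27) := by
    rw [map_neg, map_ofNat, sub_neg_eq_add]
  have s243 : t + 243 = t - algebraMap L F (-243) := by
    rw [map_neg, map_ofNat, sub_neg_eq_add]
  have hL : j * t ^ 3 ≠ 0 := mul_ne_zero hj0 (pow_ne_zero _ ht0)
  have hR27 : t + 27 ≠ 0 := by
    intro h
    rw [hrel, h] at hL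
    simp at hL
  have hR243 : t + 243 ≠ 0 := by
    intro h
    rw [hrel, h] at hL
    simp at hL
  have hord : w.ord j + 3 * w.ord t = w.ord (t + 27) + 3 * w.ord (t + 243) := by
    have h := congrArg w.ord hrel
    rwa [w.ord_mul hj0 (pow_ne_zero _ ht0), w.ord_mul hR27 (pow_ne_zero _ hR243), klbr_ord_pow,
      klbr_ord_pow] at h
  rcases lt_trichotomy (w.ord t) 0 with h | h | h
  · have h1 := (klbr_sub_const_of_neg w h (-27)).2
    have h2 := (klbr_sub_const_of_neg w h (-243)).2
    rw [← s27] at h1
    rw [← s243] at h2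
    omega
  · have hmem27 : t + 27 ∈ w.toValuationSubring := by
      refine add_mem (mem_of_ord_nonneg w h.ge) ?_
      have := w.algebraMap_mem' (27 : L)
      rwa [map_ofNat] at this
    have hmem243 : t + 243 ∈ w.toValuationSubring := by
      refine add_mem (mem_of_ord_nonneg w h.ge) ?_
      have := w.algebraMap_mem' (243 : L)
      rwa [map_ofNat] at this
    have h1 := ord_nonneg_of_mem w hmem27
    have h2 := ord_nonneg_of_mem w hmem243
    omega
  · have h1 := (klbr_sub_const_of_pos_zero w h (b := -27) (by norm_num)).2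
    have h2 := (klbr_sub_const_of_pos_zero w h (b := -243) (by norm_num)).2
    rw [← s27] at h1
    rw [← s243] at h2
    omega

/-- **Branch data of `t_3` from those of `j`.** -/
theorem klbr_clean_t3 {j t : F} (N : ℕ) (hjc : ∀ b : L, j ≠ algebraMap L F b)
    (hrel : j * t ^ 3 = (t + 27) * (t + 243) ^ 3) (hJ : BranchClean L j (1728 : L) 3 2 N) :
    BranchClean L t (-27 : L) N 3 N := by
  haveI : CharZero F := charZero_of_injective_algebraMap (algebraMap L F).injective
  intro w
  obtain ⟨J1, J0, J1728, Jinf⟩ := hJ w
  have ht0 : t ≠ 0 := by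
    rintro rfl
    have h : (27 : F) * (243 : F) ^ 3 = 0 := by simpa using hrel.symm
    exact absurd h (by norm_num)
  have hj0 : j ≠ 0 := by
    have := hjc 0
    simpa using this
  have hj1728 : j - 1728 ≠ 0 := by
    have := hjc 1728
    rw [map_ofNat] at this
    exact sub_ne_zero.mpr this
  have hrel2 : (j - 1728) * t ^ 3 = (t ^ 2 - 486 * t - 19683) ^ 2 := by
    linear_combination hrel
  have s27 : t + 27 = t - algebraMap L F (-27) := by
    rw [map_neg, map_ofNat, sub_neg_eq_add]
  have s243 : t + 243 = t - algebraMap L F (-243) := by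
    rw [map_neg, map_ofNat, sub_neg_eq_add]
  have s1728 : j - 1728 = j - algebraMap L F 1728 := by
    rw [map_ofNat]
  have hL : j * t ^ 3 ≠ 0 := mul_ne_zero hj0 (pow_ne_zero _ ht0)
  have hR27 : t + 27 ≠ 0 := by
    intro h
    rw [hrel, h] at hL
    simp at hL
  have hR243 : t + 243 ≠ 0 := by
    intro h
    rw [hrel, h] at hL
    simp at hL
  have hL2 : (j - 1728) * t ^ 3 ≠ 0 := mul_ne_zero hj1728 (pow_ne_zero _ ht0)
  have hord : w.ord j + 3 * w.ord t = w.ord (t + 27) + 3 * w.ord (t + 243) := by
    have h := congrArg w.ord hrel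
    rwa [w.ord_mul hj0 (pow_ne_zero _ ht0), w.ord_mul hR27 (pow_ne_zero _ hR243), klbr_ord_pow,
      klbr_ord_pow] at h
  refine ⟨?_, ?_, ?_, ?_⟩
  · -- unramified points
    intro a ha0 ha27 hpos
    have hta : t - algebraMap L F a ≠ 0 := klbr_ne_zero_of_ord_ne hpos.ne'
    have hordt : w.ord t = 0 := by
      have := (klbr_sub_const_of_pos w hpos (b := 0) (Ne.symm ha0)).2
      simpa using this
    have htmem : t ∈ w.toValuationSubring := klbr_mem_of_ord_sub_pos w hpos
    by_cases h243 : a = -243
    · subst h243
      have h27 : w.ord (t + 27) = 0 := by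
        have := (klbr_sub_const_of_pos w hpos (b := -27) (by norm_num)).2
        rwa [← s27] at this
      rw [← s243] at hpos ⊢
      have hjpos : 0 < w.ord j := by omega
      have h3 := Int.le_of_dvd (by norm_num) (J0 hjpos)
      omega
    by_cases hquad : a ^ 2 - 486 * a - 19683 = 0
    · -- over `j = 1728`
      have hfac : t ^ 2 - 486 * t - 19683 =
          (t - algebraMap L F a) * (t - algebraMap L F (486 - a)) := by
        have h := congrArg (algebraMap L F) hquad
        simp only [map_sub, map_mul, map_pow, map_ofNat, map_zero] at h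
        rw [map_sub, map_ofNat]
        linear_combination h
      have hs0 : t - algebraMap L F (486 - a) ≠ 0 := by
        intro h
        rw [hrel2, hfac, h] at hL2
        simp at hL2
      have hsmem : 0 ≤ w.ord (t - algebraMap L F (486 - a)) :=
        ord_nonneg_of_mem w (sub_mem htmem (w.algebraMap_mem' _))
      have hord2 : w.ord (j - 1728) + 3 * w.ord t =
          2 * (w.ord (t - algebraMap L F a) + w.ord (t - algebraMap L F (486 - a))) := by
        have h := congrArg w.ord hrel2
        rwa [w.ord_mul hj1728 (pow_ne_zero _ ht0), klbr_ord_pow, klbr_ord_pow, hfac,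
          w.ord_mul hta hs0] at h
      have hjpos : 0 < w.ord (j - algebraMap L F 1728) := by
        rw [← s1728]
        omega
      have h3 := Int.le_of_dvd (by norm_num) (J1728 hjpos)
      rw [← s1728] at h3
      omega
    -- the generic case
    set b : L := (a + 27) * (a + 243) ^ 3 / a ^ 3 with hb
    have hb0 : b ≠ 0 := by
      rw [hb]
      refine div_ne_zero (mul_ne_zero ?_ (pow_ne_zero _ ?_)) (pow_ne_zero _ ha0)
      · intro h
        exact ha27 (by linear_combination h)
      · intro h
        exact h243 (by linear_combination h)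
    have hb1728 : b ≠ 1728 := by
      rw [hb]
      intro h
      rw [div_eq_iff (pow_ne_zero _ ha0)] at h
      have h2 : (a ^ 2 - 486 * a - 19683) ^ 2 = 0 := by linear_combination h
      exact hquad (pow_eq_zero_iff (two_ne_zero) |>.mp h2)
    let G : L[X] := C (a ^ 3) * ((X + 27) * (X + 243) ^ 3) -
      C ((a + 27) * (a + 243) ^ 3) * X ^ 3
    have hG : G.IsRoot a := by
      simp only [G, IsRoot.def, eval_sub, eval_mul, eval_C, eval_pow, eval_add, eval_X,
        eval_ofNat]
      ring
    obtain ⟨R, hR⟩ := dvd_iff_isRoot.mpr hG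
    have h1 : aeval t G = algebraMap L F a ^ 3 * ((t + 27) * (t + 243) ^ 3) -
        algebraMap L F ((a + 27) * (a + 243) ^ 3) * t ^ 3 := by
      simp only [G, map_sub, map_mul, aeval_C, map_pow, map_add, aeval_X, map_ofNat]
    have h2 : aeval t G = (t - algebraMap L F a) * aeval t R := by
      rw [hR]
      simp
    have h3 : algebraMap L F b * algebraMap L F a ^ 3 =
        algebraMap L F ((a + 27) * (a + 243) ^ 3) := by
      rw [← map_pow, ← map_mul]
      congr 1
      rw [hb]
      field_simp
    have key : (j - algebraMap L F b) * (algebraMap L F a ^ 3 * t ^ 3) =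
        (t - algebraMap L F a) * aeval t R := by
      rw [← h2, h1]
      linear_combination (algebraMap L F a ^ 3) * hrel - t ^ 3 * h3
    have hA0 : algebraMap L F a ≠ 0 := by rwa [Ne, map_eq_zero]
    have hjb : j - algebraMap L F b ≠ 0 := sub_ne_zero.mpr (hjc b)
    have hAt : algebraMap L F a ^ 3 * t ^ 3 ≠ 0 :=
      mul_ne_zero (pow_ne_zero _ hA0) (pow_ne_zero _ ht0)
    have hR0' : aeval t R ≠ 0 := by
      intro h
      rw [h, mul_zero] at key
      exact mul_ne_zero hjb hAt key
    have hRmem : 0 ≤ w.ord (aeval t R) :=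
      ord_nonneg_of_mem w (klbr_aeval_mem w htmem R)
    have hordkey : w.ord (j - algebraMap L F b) =
        w.ord (t - algebraMap L F a) + w.ord (aeval t R) := by
      have h := congrArg w.ord key
      rw [w.ord_mul hjb hAt, w.ord_mul (pow_ne_zero _ hA0) (pow_ne_zero _ ht0), klbr_ord_pow,
        klbr_ord_pow, ord_algebraMap, hordt, w.ord_mul hta hR0'] at h
      simpa using h
    have hjpos : 0 < w.ord (j - algebraMap L F b) := by omega
    have := J1 b hb0 hb1728 hjpos
    omega
  · -- zeros of `t`
    intro hpos
    have h27 : w.ord (t + 27) = 0 := by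
      have := (klbr_sub_const_of_pos_zero w hpos (b := -27) (by norm_num)).2
      rwa [← s27] at this
    have h243 : w.ord (t + 243) = 0 := by
      have := (klbr_sub_const_of_pos_zero w hpos (b := -243) (by norm_num)).2
      rwa [← s243] at this
    have hjinv : w.ord j⁻¹ = 3 * w.ord t := by
      rw [w.ord_inv]
      omega
    have hdvd := Jinf (by omega)
    rw [hjinv] at hdvd
    exact (dvd_mul_left _ _).trans hdvd
  · -- the branch value `-27`
    intro hpos
    have hordt : w.ord t = 0 := by
      have := (klbr_sub_const_of_pos w hpos (b := 0) (by norm_num)).2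
      simpa using this
    have h243 : w.ord (t + 243) = 0 := by
      have := (klbr_sub_const_of_pos w hpos (b := -243) (by norm_num)).2
      rwa [← s243] at this
    rw [← s27] at hpos ⊢
    have hjeq : w.ord j = w.ord (t + 27) := by omega
    have := J0 (by omega)
    rwa [hjeq] at this
  · -- poles of `t`
    intro hpos
    have hneg : w.ord t < 0 := by
      rw [w.ord_inv] at hpos
      omega
    have h27 : w.ord (t + 27) = w.ord t := by
      have := (klbr_sub_const_of_neg w hneg (-27)).2
      rwa [← s27] at this
    have h243 : w.ord (t + 243) = w.ord t := by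
      have := (klbr_sub_const_of_neg w hneg (-243)).2
      rwa [← s243] at this
    have hjinv : w.ord j⁻¹ = w.ord t⁻¹ := by
      rw [w.ord_inv, w.ord_inv]
      omega
    have := Jinf (by omega)
    rwa [hjinv] at this

end t3

end Fermat.Agent.H2
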