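import Fermat.Agent.H2.KLBRJFinal

/-!
# P-ES / KL-BR (helper2): bridge to `Fermat.Agent.H22.KL.BranchHypAt` (KLSetting v2)

The corrected definitions of `H22.KL` (v2, commit 967a80b) coincide with the local copies
`InDiscC`, `UnramifiedNearC`, `TameNearC`, `BranchHypAtC` used in `Fermat.Agent.H2.KLBR*`.

* `branchHypAtC_iff` : `BranchHypAtC ↔ H22.KL.BranchHypAt`.
* `klbr_branchHypAt` : generic final form in the language of `H22.KL`.
* `klbr_branchHypAt_j` : **the target of row 358 for `x = j`**: the two branch hypotheses of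
  `H22.KL.AbstractKeyLemmaStatement`.
-/

set_option autoImplicit false
set_option synthInstance.maxHeartbeats 400000

noncomputable section

open AlgebraicCurve IntermediateField Polynomial

namespace Fermat.Agent.H2

open Fermat.Agent.H23 Fermat.Agent.H22.KL

theorem inDiscC_iff (A : Type) [CommRing A] (E : Type) [Field E] [Algebra A E]
    (ϖ : A) (x : E) (g : A[X]) (v : ValuationSubring E) :
    InDiscC A E ϖ x g v ↔ InDisc A E ϖ x g v := Iff.rfl

theorem unramifiedNearC_iff (A : Type) [CommRing A] (E : Type) [Field E] [Algebra A E]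
    (ϖ : A) (x : E) (g : A[X]) :
    UnramifiedNearC A E ϖ x g ↔ UnramifiedNear A E ϖ x g := Iff.rfl

theorem tameNearC_iff (A : Type) [CommRing A] (E : Type) [Field E] [Algebra A E]
    (ϖ : A) (x : E) (c : A) (e : ℕ) :
    TameNearC A E ϖ x c e ↔ TameNear A E ϖ x c e := Iff.rfl

theorem branchHypAtC_iff (A : Type) [CommRing A] (E : Type) [Field E] [Algebra A E]
    (ϖ : A) (x : E) (g : A[X]) :
    BranchHypAtC A E ϖ x g ↔ BranchHypAt A E ϖ x g := Iff.rfl

section final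

variable {A : Type} [CommRing A] [IsDomain A] [IsDiscreteValuationRing A]
  {K0 : Type} [Field K0] [Algebra A K0] [IsFractionRing A K0]
  {E : Type} [Field E] [Algebra A E] [Algebra K0 E] [IsScalarTower A K0 E]

/-- **KL-BR, generic final form** in the language of `H22.KL` (KLSetting v2). -/
theorem klbr_branchHypAt (ϖ : A) (hϖ : Irreducible ϖ) (x : E) (hxtr : Transcendental K0 x)
    [Algebra.IsAlgebraic K0⟮x⟯ E] (c1 : A) (e : K0 → ℕ) (einf : ℕ)
    (hB : BranchPlaceForm K0 E x (algebraMap A K0 '' ({0, c1} : Set A)) e einf)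
    (hc1 : ¬ ϖ ∣ c1)
    (he0 : 0 < e 0 ∧ IsUnit ((e 0 : ℕ) : A) ∧ ∃ ζ : A, IsPrimitiveRoot ζ (e 0))
    (he1 : 0 < e (algebraMap A K0 c1) ∧ IsUnit ((e (algebraMap A K0 c1) : ℕ) : A) ∧
      ∃ ζ : A, IsPrimitiveRoot ζ (e (algebraMap A K0 c1)))
    (heinf : 0 < einf ∧ IsUnit ((einf : ℕ) : A) ∧ ∃ ζ : A, IsPrimitiveRoot ζ einf)
    (hcusp : ∃ P : Place K0 E, P.ord x = -1) :
    (∀ g : A[X], g.Monic → Irreducible (g.map (IsLocalRing.residue A)) →
      BranchHypAt A E ϖ x g) ∧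
    BranchHypAt A E ϖ x⁻¹ X :=
  klbr_branchHyp ϖ hϖ x hxtr c1 e einf hB hc1 he0 he1 heinf hcusp

variable (N : ℕ) [NeZero N] [Algebra K0 (AlgebraicClosure ℚ)]
  [Algebra.IsAlgebraic K0 (AlgebraicClosure ℚ)]

/-- **KL-BR for `x = j`** (row 358): the two branch hypotheses of
`H22.KL.AbstractKeyLemmaStatement` for any field `E` over `K0 = Frac A` with
`ι : E → modularFunctionFieldBar N`, `ι x = j`, residue characteristic prime to `6 N`,
`μ_3, μ_N ⊆ A`. -/
theorem klbr_branchHypAt_j (ϖ : A) (hϖ : Irreducible ϖ)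
    (ι : E →+* ↥(ModularCurve.modularFunctionFieldBar N))
    (hι : ∀ a : K0, ι (algebraMap K0 E a) =
      algebraMap (AlgebraicClosure ℚ) ↥(ModularCurve.modularFunctionFieldBar N)
        (algebraMap K0 (AlgebraicClosure ℚ) a))
    (x : E) (hx : ι x = jBar N) [Algebra.IsAlgebraic K0⟮x⟯ E]
    (h2 : IsUnit ((2 : ℕ) : A)) (h3 : IsUnit ((3 : ℕ) : A)) (hN : IsUnit ((N : ℕ) : A))
    (hζ3 : ∃ ζ : A, IsPrimitiveRoot ζ 3) (hζN : ∃ ζ : A, IsPrimitiveRoot ζ N) :
    (∀ g : A[X], g.Monic → Irreducible (g.map (IsLocalRing.residue A)) →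
      BranchHypAt A E ϖ x g) ∧
    BranchHypAt A E ϖ x⁻¹ X :=
  klbr_branchHyp_j N ϖ hϖ ι hι x hx h2 h3 hN hζ3 hζN

end final

end Fermat.Agent.H2
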