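import Fermat.Agent.H2.KLBRAdapter
import Fermat.Agent.H2.KLBRCusp

/-!
# P-ES / KL-BR (helper2): the branch hypotheses of the abstract key lemma

`BranchHypAtC` is `H22.KL.BranchHypAt` with the two corrections
(F1) disc = centre of `v` contained in `(ϖ, g)` (`InDiscC`),
(F2) the tame alternative for every `g ≡ X - c mod ϖ`.

* `klbr_branchHyp` : for a coordinate `x` with branch values `{0, c₁}` (exponents `e₀`, `e₁`),
  exponent `einf` at the poles and a place with `ord x = -1`:
  `∀ g monic, ḡ irreducible → BranchHypAtC A E ϖ x g`  and  `BranchHypAtC A E ϖ x⁻¹ X`.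
-/

set_option autoImplicit false

noncomputable section

open AlgebraicCurve IntermediateField Polynomial IsDedekindDomain

namespace Fermat.Agent.H2

open Fermat.Agent.H22.KL

/-- `H22.KL.BranchHypAt` with the corrections (F1), (F2). -/
def BranchHypAtC (A : Type) [CommRing A] (E : Type) [Field E] [Algebra A E]
    (ϖ : A) (x : E) (g : A[X]) : Prop :=
  UnramifiedNearC A E ϖ x g ∨
    ∃ (c : A) (e : ℕ), (∃ p : A[X], g = X - C c + C ϖ * p) ∧ 0 < e ∧ IsUnit ((e : ℕ) : A) ∧
      (∃ ζ : A, IsPrimitiveRoot ζ e) ∧ TameNearC A E ϖ x c e ∧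
      (∀ d : ℕ, d.Prime → d ∣ e →
        ∃ v : ValuationSubring E, IsPlace A E v ∧ ¬ OrdDvd E v d (x - algebraMap A E c))

section poly

variable {A : Type} [CommRing A] [IsDomain A] [IsDiscreteValuationRing A]

/-- if `X - c ∈ (ϖ, g)` with `g` monic and irreducible modulo `ϖ`, then `g ≡ X - c mod ϖ` -/
theorem klbr_congr_of_mem (ϖ : A) (hϖ : Irreducible ϖ) (g : A[X]) (hg : g.Monic)
    (hgirr : Irreducible (g.map (IsLocalRing.residue A))) (c : A)
    (h : ∃ p q : A[X], X - C c = C ϖ * p + g * q) : ∃ p : A[X], g = X - C c + C ϖ * p := by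
  obtain ⟨p, q, hpq⟩ := h
  set r := IsLocalRing.residue A with hr
  have hrϖ : r ϖ = 0 := by
    rw [hr, IsLocalRing.residue_eq_zero_iff, hϖ.maximalIdeal_eq]
    exact Ideal.mem_span_singleton_self ϖ
  have h1 : (X - C (r c) : (IsLocalRing.ResidueField A)[X]) = g.map r * q.map r := by
    have := congrArg (Polynomial.map r) hpq
    simpa [hrϖ] using this
  have hgm : (g.map r).Monic := hg.map r
  have hq0 : q.map r ≠ 0 := by
    intro h0
    rw [h0, mul_zero] at h1
    exact X_sub_C_ne_zero _ h1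
  have hdeg : (g.map r).natDegree + (q.map r).natDegree = 1 := by
    rw [← natDegree_mul hgm.ne_zero hq0, ← h1, natDegree_X_sub_C]
  have hgpos : 0 < (g.map r).natDegree :=
    Polynomial.natDegree_pos_iff_degree_pos.mpr (Polynomial.degree_pos_of_irreducible hgirr)
  have hqdeg : (q.map r).natDegree = 0 := by omega
  obtain ⟨a, ha⟩ := natDegree_eq_zero.mp hqdeg
  have hlc := congrArg Polynomial.leadingCoeff h1
  rw [leadingCoeff_X_sub_C, leadingCoeff_mul, hgm.leadingCoeff, one_mul, ← ha,
    leadingCoeff_C] at hlc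
  have hgeq : g.map r = X - C (r c) := by
    rw [h1, ← ha, ← hlc, map_one, mul_one]
  have hzero : (g - (X - C c)).map r = 0 := by
    rw [Polynomial.map_sub, hgeq]
    simp
  have hdvd : C ϖ ∣ g - (X - C c) := by
    rw [C_dvd_iff_dvd_coeff]
    intro i
    have := congrArg (fun f => Polynomial.coeff f i) hzero
    simp only [coeff_map, coeff_zero] at this
    rw [hr, IsLocalRing.residue_eq_zero_iff, hϖ.maximalIdeal_eq,
      Ideal.mem_span_singleton] at this
    exact this
  obtain ⟨p', hp'⟩ := hdvd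
  exact ⟨p', by rw [← hp']; ring⟩

end poly

section final

variable {A : Type} [CommRing A] [IsDomain A] [IsDiscreteValuationRing A]
  {K0 : Type} [Field K0] [Algebra A K0] [IsFractionRing A K0]
  {E : Type} [Field E] [Algebra A E] [Algebra K0 E] [IsScalarTower A K0 E]

/-- **KL-BR, final form**: the branch hypotheses of the abstract key lemma for a coordinate
with finite branch values `{0, c₁}` (exponents `e 0`, `e c₁`), exponent `einf` at the poles,
and a place with `ord x = -1` (the cusp `∞`). -/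
theorem klbr_branchHyp (ϖ : A) (hϖ : Irreducible ϖ) (x : E) (hxtr : Transcendental K0 x)
    [Algebra.IsAlgebraic K0⟮x⟯ E] (c1 : A) (e : K0 → ℕ) (einf : ℕ)
    (hB : BranchPlaceForm K0 E x (algebraMap A K0 '' ({0, c1} : Set A)) e einf)
    (hc1 : ¬ ϖ ∣ c1)
    (he0 : 0 < e 0 ∧ IsUnit ((e 0 : ℕ) : A) ∧ ∃ ζ : A, IsPrimitiveRoot ζ (e 0))
    (he1 : 0 < e (algebraMap A K0 c1) ∧ IsUnit ((e (algebraMap A K0 c1) : ℕ) : A) ∧
      ∃ ζ : A, IsPrimitiveRoot ζ (e (algebraMap A K0 c1)))
    (heinf : 0 < einf ∧ IsUnit ((einf : ℕ) : A) ∧ ∃ ζ : A, IsPrimitiveRoot ζ einf)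
    (hcusp : ∃ P : Place K0 E, P.ord x = -1) :
    (∀ g : A[X], g.Monic → Irreducible (g.map (IsLocalRing.residue A)) →
      BranchHypAtC A E ϖ x g) ∧
    BranchHypAtC A E ϖ x⁻¹ X := by
  obtain ⟨P, hP⟩ := hcusp
  have hx0 : x ≠ 0 := by
    rintro rfl
    simp at hP
  have hc10 : c1 ≠ 0 := by
    rintro rfl
    exact hc1 (dvd_zero _)
  have hplace : ∀ c : A, ∀ d : ℕ, d.Prime → ∃ v : ValuationSubring E, IsPlace A E v ∧
      ¬ OrdDvd E v d (x - algebraMap A E c) := by
    intro c d hd
    refine ⟨P.toValuationSubring, isPlace_of_place P,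
      klbr_not_ordDvd P _ (Or.inr ?_) d hd.two_le⟩
    by_cases hc : algebraMap A E c = 0
    · rw [hc, sub_zero, hP]
    · have hc0 : P.ord (-(algebraMap A E c)) = 0 := by
        rw [Fermat.Agent.H23.ord_neg, IsScalarTower.algebraMap_apply A K0 E]
        exact Fermat.Agent.H23.ord_algebraMap P _
      rw [sub_eq_add_neg, Fermat.Agent.H23.ord_add_eq_of_lt P hx0 (neg_ne_zero.mpr hc)
        (by rw [hP, hc0]; norm_num), hP]
  refine ⟨?_, ?_⟩
  · intro g hg hgirr
    by_cases h0 : ∃ p q : A[X], X - C (0 : A) = C ϖ * p + g * q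
    · right
      obtain ⟨p, hp⟩ := klbr_congr_of_mem ϖ hϖ g hg hgirr 0 h0
      refine ⟨0, e 0, ⟨p, hp⟩, he0.1, he0.2.1, he0.2.2, ?_, fun d hd _ => hplace 0 d hd⟩
      have := klbr_tameNearC ϖ x ({0, c1} : Set A) e einf hB hxtr 0 (by simp) (by
        intro c' hc' hne
        rcases hc' with rfl | hc'
        · exact absurd rfl hne
        · rw [Set.mem_singleton_iff] at hc'
          subst hc'
          rwa [zero_sub, dvd_neg])
      rwa [map_zero] at this
    · by_cases h1 : ∃ p q : A[X], X - C c1 = C ϖ * p + g * q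
      · right
        obtain ⟨p, hp⟩ := klbr_congr_of_mem ϖ hϖ g hg hgirr c1 h1
        refine ⟨c1, e (algebraMap A K0 c1), ⟨p, hp⟩, he1.1, he1.2.1, he1.2.2, ?_,
          fun d hd _ => hplace c1 d hd⟩
        exact klbr_tameNearC ϖ x ({0, c1} : Set A) e einf hB hxtr c1 (by simp) (by
          intro c' hc' hne
          rcases hc' with rfl | hc'
          · rwa [sub_zero]
          · rw [Set.mem_singleton_iff] at hc'
            exact absurd hc' hne)
      · left
        refine klbr_unramifiedNearC ϖ x ({0, c1} : Set A) e einf hB hxtr g ?_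
        intro c hc
        rcases hc with rfl | hc
        · exact h0
        · rw [Set.mem_singleton_iff] at hc
          subst hc
          exact h1
  · right
    refine ⟨0, einf, ⟨0, by simp⟩, heinf.1, heinf.2.1, heinf.2.2,
      klbr_tameNearC_inf ϖ hϖ.not_isUnit x _ e einf hB hxtr, ?_⟩
    intro d hd _
    refine ⟨P.toValuationSubring, isPlace_of_place P,
      klbr_not_ordDvd P _ (Or.inl ?_) d hd.two_le⟩
    rw [map_zero, sub_zero, P.ord_inv, hP]
    norm_num

end final

end Fermat.Agent.H2
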