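import Fermat.Agent.H2.KLBRModelOrd
import Fermat.Agent.H17.ESD.PsiTwo
import Fermat.Agent.H1.ESD.T3Laurent

/-!
# P-ES / KL-BR (helper2): `H22.KL.ModelBranchStatement` for `x₀ = t_2`, `t_3`

* `klbr_model_t2S` : `ModelBranchStatement N ℓ (H17.ESD.t2S ℚ) M` for `ℓ` prime to `2 N`,
  given the membership `t2S ℚ̄ ∈ modularFunctionFieldBar N` (true for `2 ∣ N`).
* `klbr_model_t3` : `ModelBranchStatement N ℓ (H1.ESD.t3 ℚ) M` for `ℓ` prime to `3 N`,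
  given the membership `t3 ℚ̄ ∈ modularFunctionFieldBar N` (true for `3 ∣ N`).
-/

set_option autoImplicit false
set_option synthInstance.maxHeartbeats 400000
set_option linter.style.haveILetI false

noncomputable section

open AlgebraicCurve IntermediateField Polynomial ModularCurve

namespace Fermat.Agent.H2

open Fermat.Agent.H23 Fermat.Agent.H22.KL

section model

variable (N : ℕ) [NeZero N]

local notation "Kbar" => AlgebraicClosure ℚ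

theorem klbr_coeffEmb_t2S : coeffEmb Kbar (Fermat.Agent.H17.ESD.t2S ℚ) =
    Fermat.Agent.H17.ESD.t2S Kbar := by
  rw [coeffEmb]
  exact Fermat.Agent.H17.ESD.coeffMap_t2S _

theorem klbr_coeffEmb_t3 : coeffEmb Kbar (Fermat.Agent.H1.ESD.t3 ℚ) =
    Fermat.Agent.H1.ESD.t3 Kbar := by
  rw [coeffEmb]
  exact Fermat.Agent.H1.ESD.coeffMap_t3 _

/-- **KL-BR, concrete model, `x = t_2`** (`ℓ = 3`, `2 ∣ N`). -/
theorem klbr_model_t2S (ℓ : ℕ)
    (hmem : Fermat.Agent.H17.ESD.t2S Kbar ∈ modularFunctionFieldBar N)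
    (h2ℓ : Nat.Coprime 2 ℓ) (hNℓ : Nat.Coprime N ℓ)
    (M : ℕ) (hM : M ≠ 0) (h2M : 2 ∣ M) (hNM : N ∣ M) :
    ModelBranchStatement N ℓ (Fermat.Agent.H17.ESD.t2S ℚ) M := by
  refine klbr_model_rel2 N ℓ _ ?_ ?_ h2ℓ hNℓ M hM h2M hNM
  · rw [klbr_coeffEmb_t2S]
    exact hmem
  · rw [klbr_coeffEmb_t2S, Fermat.Agent.H54.coeffEmb_jq_eq]
    exact Fermat.Agent.H17.ESD.t2S_identity Kbar

/-- **KL-BR, concrete model, `x = t_3`** (`ℓ = 2`, `3 ∣ N`). -/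
theorem klbr_model_t3 (ℓ : ℕ)
    (hmem : Fermat.Agent.H1.ESD.t3 Kbar ∈ modularFunctionFieldBar N)
    (h3ℓ : Nat.Coprime 3 ℓ) (hNℓ : Nat.Coprime N ℓ)
    (M : ℕ) (hM : M ≠ 0) (h3M : 3 ∣ M) (hNM : N ∣ M) :
    ModelBranchStatement N ℓ (Fermat.Agent.H1.ESD.t3 ℚ) M := by
  refine klbr_model_rel3 N ℓ _ ?_ ?_ h3ℓ hNℓ M hM h3M hNM
  · rw [klbr_coeffEmb_t3]
    exact hmem
  · rw [klbr_coeffEmb_t3, Fermat.Agent.H54.coeffEmb_jq_eq]
    exact Fermat.Agent.H1.ESD.t3_rel Kbar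

end model

end Fermat.Agent.H2
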