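import Fermat.Agent.H2.KLBRGen
import Fermat.Agent.H2.KLBRModelT23

/-!
# P-ES / P-DS, KL-BR (helper2): the branch hypotheses for the charts `t_2`, `t_3`, GENERIC in
the level field `F₀`

`F₀ : IntermediateField ℚ (LaurentSeries ℚ)` a level field containing `j`, with
`[F_B : ℚ̄(j)] < ∞` and clean branch data of `j` on `F_B := laurentBaseChange ℚ̄ F₀`
(`BranchClean ℚ̄ j 1728 3 2 N`).

* `klbr_modelGen_rel2` / `klbr_modelGen_rel3` : `ModelBranchGen F₀ ℓ x₀ M` for every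
  `x₀ : LaurentSeries ℚ` whose base change lies in `F_B` and satisfies the relation of `t_2`
  (`j t² = (t + 256)³`) resp. `t_3` (`j t³ = (t + 27) (t + 243)³`).
* `klbr_modelGen_t2S` / `klbr_modelGen_t3` : the cases `x₀ = H17.ESD.t2S ℚ`, `H1.ESD.t3 ℚ`.
-/

set_option autoImplicit false
set_option synthInstance.maxHeartbeats 400000
set_option linter.style.haveILetI false
set_option linter.unusedSectionVars false

noncomputable section

open AlgebraicCurve IntermediateField Polynomial ModularCurve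

namespace Fermat.Agent.H2

open Fermat.Agent.H23 Fermat.Agent.H22.KL Fermat.Agent.H91.ES1KL

section model

variable (F₀ : IntermediateField ℚ (LaurentSeries ℚ))

local notation "Kbar" => AlgebraicClosure ℚ
set_option quotPrecheck false in
local notation "FB" => ↥(ModularCurve.laurentBaseChange (AlgebraicClosure ℚ) F₀)

theorem klbr_jBarGen_ne_const (hj : jq ∈ F₀) (b : Kbar) :
    jBarGen F₀ hj ≠ algebraMap Kbar FB b := by
  intro h
  exact klbr_jBarGen_transcendental F₀ hj (h ▸ isAlgebraic_algebraMap b)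

/-- the cusp place of `F_B / ℚ̄` -/
theorem klbr_cusp_place_barGen (hj : jq ∈ F₀) :
    ∃ P : Place Kbar FB, ∀ f : FB, P.ord f = ((f : FB) : LaurentSeries Kbar).order := by
  let ι' : FB →+* LaurentSeries Kbar :=
    ((ModularCurve.laurentBaseChange Kbar F₀).val : FB →+* LaurentSeries Kbar)
  have hconst : ∀ a : Kbar, a ≠ 0 → (ι' (algebraMap Kbar FB a)).order = 0 := by
    intro a ha
    have : ι' (algebraMap Kbar FB a) = HahnSeries.single 0 a := by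
      show algebraMap Kbar (LaurentSeries Kbar) a = _
      have h1 : algebraMap Kbar (PowerSeries Kbar) a = PowerSeries.C a := by simp
      rw [HahnSeries.algebraMap_apply', h1, HahnSeries.ofPowerSeries_C]
      rfl
    rw [this, HahnSeries.order_single ha]
  exact klbr_cusp_place ι' hconst (jBarGen F₀ hj) klbr_order_coeffEmb_jq

/-- **KL-BR, generic level field, chart `t_2`**: for every `x₀ : LaurentSeries ℚ` whose base
change to `ℚ̄` lies in `F_B` and satisfies `j * t ^ 2 = (t + 256) ^ 3`. -/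
theorem klbr_modelGen_rel2 (hj : jq ∈ F₀) (N : ℕ)
    (hfin : FiniteDimensional Kbar⟮jBarGen F₀ hj⟯ FB)
    (H : BranchClean Kbar (jBarGen F₀ hj) (1728 : Kbar) 3 2 N)
    (ℓ : ℕ) (x₀ : LaurentSeries ℚ)
    (hmem : coeffEmb Kbar x₀ ∈ ModularCurve.laurentBaseChange Kbar F₀)
    (hrel : coeffEmb Kbar jq * coeffEmb Kbar x₀ ^ 2 = (coeffEmb Kbar x₀ + 256) ^ 3)
    (h2ℓ : Nat.Coprime 2 ℓ) (hNℓ : Nat.Coprime N ℓ)
    (M : ℕ) (hM : M ≠ 0) (h2M : 2 ∣ M) (hNM : N ∣ M) :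
    ModelBranchGen F₀ ℓ x₀ M := by
  let t : FB := ⟨coeffEmb Kbar x₀, hmem⟩
  have hrelF : jBarGen F₀ hj * t ^ 2 = (t + 256) ^ 3 := by
    apply Subtype.ext
    exact hrel
  have hjmem : jBarGen F₀ hj ∈ Kbar⟮t⟯ := klbr_j_mem_adjoin_t2 hrelF
  have httr : Transcendental Kbar t :=
    klbr_transcendental_of_mem_adjoin (klbr_jBarGen_transcendental F₀ hj) hjmem
  have hfin' : FiniteDimensional Kbar⟮t⟯ FB :=
    klbr_finiteDimensional_of_mem_adjoin hfin hjmem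
  have hord : (coeffEmb Kbar x₀).order = -1 := by
    obtain ⟨P, hP⟩ := klbr_cusp_place_barGen F₀ hj
    have hjo : P.ord (jBarGen F₀ hj) = -1 := by
      rw [hP]
      exact klbr_order_coeffEmb_jq
    have := klbr_ord_t2_of_ord_j P hrelF hjo
    rwa [hP] at this
  have hclean : BranchClean Kbar t (((-64 : ℤ) : ℤ) : Kbar) N 2 N := by
    have h := klbr_clean_t2 N (klbr_jBarGen_ne_const F₀ hj) hrelF H
    have e : (((-64 : ℤ) : ℤ) : Kbar) = (-64 : Kbar) := by norm_num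
    rwa [e]
  have hc : IsCoprime (-64 : ℤ) (ℓ : ℤ) := by
    have h2 : IsCoprime (2 : ℤ) (ℓ : ℤ) := by
      have := Nat.isCoprime_iff_coprime.mpr h2ℓ
      simpa using this
    have h64 : IsCoprime ((2 : ℤ) ^ 6) (ℓ : ℤ) := h2.pow_left
    have e : (-64 : ℤ) = -((2 : ℤ) ^ 6) := by norm_num
    rw [e]
    exact h64.neg_left
  exact klbr_modelGen_of_clean F₀ ℓ x₀ t rfl httr hfin' hord (-64) (by norm_num) N 2 N hc hNℓ
    h2ℓ hNℓ hclean M hM hNM h2M hNM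

/-- **KL-BR, generic level field, chart `t_3`**: for every `x₀ : LaurentSeries ℚ` whose base
change to `ℚ̄` lies in `F_B` and satisfies `j * t ^ 3 = (t + 27) * (t + 243) ^ 3`. -/
theorem klbr_modelGen_rel3 (hj : jq ∈ F₀) (N : ℕ)
    (hfin : FiniteDimensional Kbar⟮jBarGen F₀ hj⟯ FB)
    (H : BranchClean Kbar (jBarGen F₀ hj) (1728 : Kbar) 3 2 N)
    (ℓ : ℕ) (x₀ : LaurentSeries ℚ)
    (hmem : coeffEmb Kbar x₀ ∈ ModularCurve.laurentBaseChange Kbar F₀)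
    (hrel : coeffEmb Kbar jq * coeffEmb Kbar x₀ ^ 3 =
      (coeffEmb Kbar x₀ + 27) * (coeffEmb Kbar x₀ + 243) ^ 3)
    (h3ℓ : Nat.Coprime 3 ℓ) (hNℓ : Nat.Coprime N ℓ)
    (M : ℕ) (hM : M ≠ 0) (h3M : 3 ∣ M) (hNM : N ∣ M) :
    ModelBranchGen F₀ ℓ x₀ M := by
  let t : FB := ⟨coeffEmb Kbar x₀, hmem⟩
  have hrelF : jBarGen F₀ hj * t ^ 3 = (t + 27) * (t + 243) ^ 3 := by
    apply Subtype.ext
    exact hrel
  have hjmem : jBarGen F₀ hj ∈ Kbar⟮t⟯ := klbr_j_mem_adjoin_t3 hrelF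
  have httr : Transcendental Kbar t :=
    klbr_transcendental_of_mem_adjoin (klbr_jBarGen_transcendental F₀ hj) hjmem
  have hfin' : FiniteDimensional Kbar⟮t⟯ FB :=
    klbr_finiteDimensional_of_mem_adjoin hfin hjmem
  have hord : (coeffEmb Kbar x₀).order = -1 := by
    obtain ⟨P, hP⟩ := klbr_cusp_place_barGen F₀ hj
    have hjo : P.ord (jBarGen F₀ hj) = -1 := by
      rw [hP]
      exact klbr_order_coeffEmb_jq
    have := klbr_ord_t3_of_ord_j P hrelF hjo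
    rwa [hP] at this
  have hclean : BranchClean Kbar t (((-27 : ℤ) : ℤ) : Kbar) N 3 N := by
    have h := klbr_clean_t3 N (klbr_jBarGen_ne_const F₀ hj) hrelF H
    have e : (((-27 : ℤ) : ℤ) : Kbar) = (-27 : Kbar) := by norm_num
    rwa [e]
  have hc : IsCoprime (-27 : ℤ) (ℓ : ℤ) := by
    have h3 : IsCoprime (3 : ℤ) (ℓ : ℤ) := by
      have := Nat.isCoprime_iff_coprime.mpr h3ℓ
      simpa using this
    have h27 : IsCoprime ((3 : ℤ) ^ 3) (ℓ : ℤ) := h3.pow_left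
    have e : (-27 : ℤ) = -((3 : ℤ) ^ 3) := by norm_num
    rw [e]
    exact h27.neg_left
  exact klbr_modelGen_of_clean F₀ ℓ x₀ t rfl httr hfin' hord (-27) (by norm_num) N 3 N hc hNℓ
    h3ℓ hNℓ hclean M hM hNM h3M hNM

/-- **KL-BR, generic level field, `x₀ = t_2`** (for `ℓ` prime to `2 N`). -/
theorem klbr_modelGen_t2S (hj : jq ∈ F₀) (ht : Fermat.Agent.H17.ESD.t2S ℚ ∈ F₀) (N : ℕ)
    (hfin : FiniteDimensional Kbar⟮jBarGen F₀ hj⟯ FB)
    (H : BranchClean Kbar (jBarGen F₀ hj) (1728 : Kbar) 3 2 N)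
    (ℓ : ℕ) (h2ℓ : Nat.Coprime 2 ℓ) (hNℓ : Nat.Coprime N ℓ)
    (M : ℕ) (hM : M ≠ 0) (h2M : 2 ∣ M) (hNM : N ∣ M) :
    ModelBranchGen F₀ ℓ (Fermat.Agent.H17.ESD.t2S ℚ) M := by
  refine klbr_modelGen_rel2 F₀ hj N hfin H ℓ _
    (coeffEmb_mem_laurentBaseChange Kbar ht) ?_ h2ℓ hNℓ M hM h2M hNM
  rw [klbr_coeffEmb_t2S, Fermat.Agent.H54.coeffEmb_jq_eq]
  exact Fermat.Agent.H17.ESD.t2S_identity Kbar

/-- **KL-BR, generic level field, `x₀ = t_3`** (for `ℓ` prime to `3 N`). -/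
theorem klbr_modelGen_t3 (hj : jq ∈ F₀) (ht : Fermat.Agent.H1.ESD.t3 ℚ ∈ F₀) (N : ℕ)
    (hfin : FiniteDimensional Kbar⟮jBarGen F₀ hj⟯ FB)
    (H : BranchClean Kbar (jBarGen F₀ hj) (1728 : Kbar) 3 2 N)
    (ℓ : ℕ) (h3ℓ : Nat.Coprime 3 ℓ) (hNℓ : Nat.Coprime N ℓ)
    (M : ℕ) (hM : M ≠ 0) (h3M : 3 ∣ M) (hNM : N ∣ M) :
    ModelBranchGen F₀ ℓ (Fermat.Agent.H1.ESD.t3 ℚ) M := by
  refine klbr_modelGen_rel3 F₀ hj N hfin H ℓ _
    (coeffEmb_mem_laurentBaseChange Kbar ht) ?_ h3ℓ hNℓ M hM h3M hNM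
  rw [klbr_coeffEmb_t3, Fermat.Agent.H54.coeffEmb_jq_eq]
  exact Fermat.Agent.H1.ESD.t3_rel Kbar

end model

end Fermat.Agent.H2
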