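import Fermat.Agent.H2.KLBRPlace
import Fermat.Agent.H17.ESD.BranchJ

/-!
# P-ES / KL-BR (helper2): branch data of `j` over a number field, Dedekind form

`K0` any field with an algebraic embedding into `ℚ̄` (e.g. a number field inside `ℚ̄`),
`E0 / K0` any field with a ring homomorphism `ι : E0 → modularFunctionFieldBar N` over
`K0 → ℚ̄` and `x ∈ E0` with `ι x = j` (e.g. `E0 = K0(j(q^d) : d ∣ N)`).

* `klbr_branchOrd_j` : the branch data of `j` over `ℚ̄` in `ord` form (from helper17's `BranchJ`).
* `klbr_j` : `BranchPlaceForm K0 E0 x {0, 1728} (3, 2) N` for the places of `E0 / K0`.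
* `klbr_j_dedekind`, `klbr_j_dedekind_inf` : the Dedekind forms for any Dedekind domain with
  fraction field `E0` containing `K0` and `x` (resp. `x⁻¹`).
* `klbr_branchOrd_of_ramIdx` : bridge from the `ramIdx` shape of the branch statements of
  `t_2`, `t_3` (row 306) to `BranchOrd`.
-/

set_option autoImplicit false
set_option synthInstance.maxHeartbeats 400000

noncomputable section

open AlgebraicCurve IntermediateField Polynomial IsDedekindDomain

namespace Fermat.Agent.H2

open Fermat.Agent.H23 Fermat.Agent.H27.ESD Fermat.Agent.H17.ESD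

/-- the exponents of a two-point branch set `{0, c₁}` -/
def branchExp (K0 : Type) [Field K0] (e0 e1 : ℕ) (c : K0) : ℕ :=
  open Classical in if c = 0 then e0 else e1

theorem branchExp_zero (K0 : Type) [Field K0] (e0 e1 : ℕ) : branchExp K0 e0 e1 0 = e0 := by
  simp [branchExp]

theorem branchExp_of_ne (K0 : Type) [Field K0] (e0 e1 : ℕ) {c : K0} (hc : c ≠ 0) :
    branchExp K0 e0 e1 c = e1 := by
  simp [branchExp, hc]

section bridge

variable {K0 L F : Type} [Field K0] [Field L] [Field F] [Algebra L F] [Algebra K0 L]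
  [IsAlgClosed L] [CharZero L]

/-- **Bridge** from branch data in `ramIdx` form (the shape of `BranchJStatement`,
`BranchT2Statement`, `BranchT3Statement`) to `BranchOrd`, for a branch set `{0, c₁}`. -/
theorem klbr_branchOrd_of_ramIdx (y : F) (c1 : K0) (e0 e1 einf : ℕ) (hc1 : c1 ≠ 0)
    (H : ∀ v : Place L F,
      (1 < ramIdx y v → v.ord y < 0 ∨ 0 < v.ord y ∨
        0 < v.ord (y - algebraMap L F (algebraMap K0 L c1))) ∧
      (v.ord y < 0 → ramIdx y v ∣ einf) ∧
      (0 < v.ord y → ramIdx y v ∣ e0) ∧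
      (0 < v.ord (y - algebraMap L F (algebraMap K0 L c1)) → ramIdx y v ∣ e1)) :
    BranchOrd K0 L y ({0, c1} : Set K0) (branchExp K0 e0 e1) einf := by
  intro w
  obtain ⟨h1, h2, h3, h4⟩ := H w
  have hdvd : ∀ {a : ℤ} {n : ℕ}, 0 < a → a.toNat ∣ n → a ∣ (n : ℤ) := by
    intro a n ha h
    have h1 : ((a.toNat : ℕ) : ℤ) = a := Int.toNat_of_nonneg ha.le
    rw [← h1]
    exact Int.natCast_dvd_natCast.mpr h
  refine ⟨?_, ?_, ?_⟩
  · intro a ha hv
    have ha0 : a ≠ 0 := by
      have := ha 0 (by simp)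
      simpa using this
    have ha1 : a ≠ algebraMap K0 L c1 := ha c1 (by simp)
    by_contra hne
    have hram : 1 < ramIdx y w := by
      rw [ramIdx_of_ord_sub_pos w y hv]
      omega
    rcases h1 hram with h | h | h
    · have := ord_nonneg_of_ord_sub_pos w y hv
      omega
    · have h' : 0 < w.ord (y - algebraMap L F 0) := by simpa using h
      exact not_pos_pos_of_ne w y ha0 hv h'
    · exact not_pos_pos_of_ne w y ha1 hv h
  · intro c hc hv
    rcases hc with rfl | hc
    · rw [branchExp_zero]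
      have hv' : 0 < w.ord y := by simpa using hv
      have := h3 hv'
      have hv0 : 0 < w.ord (y - algebraMap L F 0) := by simpa using hv'
      rw [ramIdx_of_ord_sub_pos w y hv0] at this
      simp only [map_zero, sub_zero] at this ⊢
      exact hdvd hv' this
    · rw [Set.mem_singleton_iff] at hc
      subst hc
      rw [branchExp_of_ne _ _ _ hc1]
      have := h4 hv
      rw [ramIdx_of_ord_sub_pos w y hv] at this
      exact hdvd hv this
  · intro hv
    have hneg : w.ord y < 0 := by
      rw [w.ord_inv] at hv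
      omega
    have := h2 hneg
    rw [ramIdx_of_ord_neg w y hneg] at this
    rw [w.ord_inv]
    exact hdvd (by omega) this

end bridge

section modular

variable (N : ℕ) [NeZero N]

local notation "Kbar" => AlgebraicClosure ℚ
set_option quotPrecheck false in
local notation "FN" => ↥(ModularCurve.modularFunctionFieldBar N)

/-- **Branch data of `j` over `ℚ̄`, `ord` form**: branch values `0`, `1728` with exponents
`3`, `2`, and exponent `N` at the poles. -/
theorem klbr_branchOrd_j (K0 : Type) [Field K0] [Algebra K0 Kbar] :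
    BranchOrd K0 Kbar (jBar N) ({0, 1728} : Set K0) (branchExp K0 3 2) N := by
  have h1728 : (1728 : K0) ≠ 0 := by
    intro h
    have := congrArg (algebraMap K0 Kbar) h
    rw [map_ofNat, map_zero] at this
    norm_num at this
  have hmap : algebraMap K0 Kbar 1728 = 1728 := map_ofNat _ _
  intro w
  refine ⟨?_, ?_, ?_⟩
  · intro a ha hv
    have ha0 : a ≠ 0 := by
      have := ha 0 (by simp)
      simpa using this
    have ha1 : a ≠ 1728 := by
      have := ha 1728 (by simp)
      rwa [hmap] at this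
    exact ord_jBar_sub_eq_one N w ha0 ha1 hv
  · intro c hc hv
    rcases hc with rfl | hc
    · rw [branchExp_zero]
      simp only [map_zero, sub_zero] at hv ⊢
      exact_mod_cast ord_jBar_dvd_three N w hv
    · rw [Set.mem_singleton_iff] at hc
      subst hc
      rw [branchExp_of_ne _ _ _ h1728]
      rw [hmap] at hv ⊢
      exact_mod_cast ord_jBar_sub_dvd_two N w hv
  · intro hv
    exact ord_jBar_inv_dvd N w hv

variable {K0 E0 : Type} [Field K0] [Field E0] [Algebra K0 E0] [Algebra K0 Kbar]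
  [Algebra.IsAlgebraic K0 Kbar]

/-- **KL-BR for `x = j`, place form.**  For every place `v` of `E0 / K0`:
`ord_v x ∣ 3` at the zeros of `x`, `ord_v (x - 1728) ∣ 2`, `ord_v x⁻¹ ∣ N` at the poles, and `v`
is unramified over `K0[x]` elsewhere. -/
theorem klbr_j (ι : E0 →+* FN)
    (hι : ∀ a : K0, ι (algebraMap K0 E0 a) = algebraMap Kbar FN (algebraMap K0 Kbar a))
    (x : E0) (hx : ι x = jBar N) :
    BranchPlaceForm K0 E0 x ({0, 1728} : Set K0) (branchExp K0 3 2) N := by
  have htr : Transcendental Kbar (ι x) := hx ▸ jBar_transcendental N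
  have hfin : FiniteDimensional Kbar⟮ι x⟯ FN := by
    rw [hx]
    exact (degreeStatement_holds N).2.1
  exact klbr_place_form ι hι x htr hfin _ _ _ (hx ▸ klbr_branchOrd_j N K0)

omit [Algebra.IsAlgebraic K0 Kbar] in
/-- `x` is transcendental over `K0`. -/
theorem klbr_j_transcendental (ι : E0 →+* FN)
    (hι : ∀ a : K0, ι (algebraMap K0 E0 a) = algebraMap Kbar FN (algebraMap K0 Kbar a))
    (x : E0) (hx : ι x = jBar N) : Transcendental K0 x := by
  rintro ⟨p, hp0, hp⟩
  apply jBar_transcendental N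
  refine ⟨p.map (algebraMap K0 Kbar), ?_, ?_⟩
  · rwa [Ne, Polynomial.map_eq_zero]
  · have h := congrArg ι hp
    rw [map_zero, aeval_def, hom_eval₂, hx] at h
    have hcomp : (algebraMap Kbar FN).comp (algebraMap K0 Kbar) = ι.comp (algebraMap K0 E0) :=
      RingHom.ext fun a => (hι a).symm
    rw [aeval_def, eval₂_map, hcomp, h]

variable {R : Type} [CommRing R] [IsDedekindDomain R] [Algebra R E0] [IsFractionRing R E0]
  [Algebra K0 R] [IsScalarTower K0 R E0]

/-- **KL-BR for `x = j`, Dedekind form (finite chart).** -/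
theorem klbr_j_dedekind (ι : E0 →+* FN)
    (hι : ∀ a : K0, ι (algebraMap K0 E0 a) = algebraMap Kbar FN (algebraMap K0 Kbar a))
    (xR : R) (hx : ι (algebraMap R E0 xR) = jBar N)
    (q : Ideal R) (hq : q.IsPrime) (hq0 : q ≠ ⊥) :
    (∀ n : ℕ, xR ∈ q → xR ∈ q ^ n → xR ∉ q ^ (n + 1) → n ∣ 3) ∧
    (∀ n : ℕ, xR - 1728 ∈ q → xR - 1728 ∈ q ^ n → xR - 1728 ∉ q ^ (n + 1) → n ∣ 2) ∧
    (∀ h : K0[X], Irreducible h → aeval xR h ∈ q → xR ∉ q → xR - 1728 ∉ q →
      aeval xR h ∉ q ^ 2) := by
  have h1728 : (1728 : K0) ≠ 0 := by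
    intro h
    have := congrArg (algebraMap K0 Kbar) h
    rw [map_ofNat, map_zero] at this
    norm_num at this
  have h1728R : algebraMap K0 R 1728 = 1728 := map_ofNat _ _
  obtain ⟨h1, h2⟩ := klbr_dedekind_form (algebraMap R E0 xR) _ _ _
    (klbr_j N ι hι (algebraMap R E0 xR) hx)
    (klbr_j_transcendental N ι hι _ hx) xR rfl q hq hq0
  refine ⟨?_, ?_, ?_⟩
  · intro n hm hn hn1
    have := h1 0 (by simp) n (by simpa using hm) (by simpa using hn) (by simpa using hn1)
    rwa [branchExp_zero] at this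
  · intro n hm hn hn1
    have := h1 1728 (by simp) n (by rwa [h1728R]) (by rwa [h1728R]) (by rwa [h1728R])
    rwa [branchExp_of_ne _ _ _ h1728] at this
  · intro h hirr hm hx0 hx1
    refine h2 h hirr hm ?_
    intro c hc
    rcases hc with rfl | hc
    · simpa using hx0
    · rw [Set.mem_singleton_iff] at hc
      subst hc
      rwa [h1728R]

/-- **KL-BR for `x = j`, Dedekind form (chart at infinity).** -/
theorem klbr_j_dedekind_inf (ι : E0 →+* FN)
    (hι : ∀ a : K0, ι (algebraMap K0 E0 a) = algebraMap Kbar FN (algebraMap K0 Kbar a))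
    (xinvR : R) (hx : ι (algebraMap R E0 xinvR) = (jBar N)⁻¹)
    (q : Ideal R) (hq : q.IsPrime) (hq0 : q ≠ ⊥) (n : ℕ) (hmem : xinvR ∈ q)
    (hn : xinvR ∈ q ^ n) (hn1 : xinvR ∉ q ^ (n + 1)) : n ∣ N := by
  have hx' : ι (algebraMap R E0 xinvR)⁻¹ = jBar N := by
    rw [map_inv₀, hx, inv_inv]
  exact klbr_dedekind_form_inf (algebraMap R E0 xinvR)⁻¹ _ _ _
    (klbr_j N ι hι _ hx') xinvR (by rw [inv_inv]) q hq hq0 n hmem hn hn1

end modular

end Fermat.Agent.H2
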