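import Fermat.Agent.H2.KLBRJ
import Fermat.Agent.H2.KLBRFinal

/-!
# P-ES / KL-BR (helper2): the branch hypotheses of the abstract key lemma for `x = j`

`A` a DVR with fraction field `K0 ⊂ ℚ̄` (algebraic), residue characteristic prime to `6 N`,
containing primitive 3rd and `N`-th roots of unity; `E / K0` a field, algebraic over `K0(x)`,
with `ι : E → modularFunctionFieldBar N` over `K0 → ℚ̄` and `ι x = j`.

* `klbr_cusp_place_j` : the cusp place of `E`: `ord x = -1`.
* `klbr_branchHyp_j` : `∀ g monic, ḡ irreducible → BranchHypAtC A E ϖ x g` and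
  `BranchHypAtC A E ϖ x⁻¹ X`.
-/

set_option autoImplicit false
set_option synthInstance.maxHeartbeats 400000

noncomputable section

open AlgebraicCurve IntermediateField Polynomial IsDedekindDomain

namespace Fermat.Agent.H2

open Fermat.Agent.H23 Fermat.Agent.H22.KL

section modular

variable (N : ℕ) [NeZero N]

local notation "Kbar" => AlgebraicClosure ℚ
set_option quotPrecheck false in
local notation "FN" => ↥(ModularCurve.modularFunctionFieldBar N)

/-- the `q`-order of `j` is `-1` -/
theorem klbr_order_jBar : ((jBar N : FN) : LaurentSeries Kbar).order = -1 := by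
  have hcoe : ((jBar N : FN) : LaurentSeries Kbar) =
      ModularCurve.coeffEmb Kbar ModularCurve.jq := rfl
  rw [hcoe]
  have h1 : (ModularCurve.coeffEmb Kbar ModularCurve.jq).coeff (-1) ≠ 0 := by
    rw [ModularCurve.coeffEmb_coeff, ModularCurve.coeff_jq_neg_one, map_one]
    exact one_ne_zero
  have hne : ModularCurve.coeffEmb Kbar ModularCurve.jq ≠ 0 := by
    intro h
    rw [h] at h1
    simp at h1
  apply le_antisymm (HahnSeries.order_le_of_coeff_ne_zero h1)
  by_contra hlt
  rw [not_le] at hlt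
  apply hne
  rw [← HahnSeries.coeff_order_eq_zero, ModularCurve.coeffEmb_coeff,
    ModularCurve.coeff_jq_of_lt hlt, map_zero]

variable {K0 E : Type} [Field K0] [Field E] [Algebra K0 E] [Algebra K0 Kbar]

/-- **the cusp place** of `E / K0`: `ord x = -1`. -/
theorem klbr_cusp_place_j (ι : E →+* FN)
    (hι : ∀ a : K0, ι (algebraMap K0 E a) = algebraMap Kbar FN (algebraMap K0 Kbar a))
    (x : E) (hx : ι x = jBar N) : ∃ P : Place K0 E, P.ord x = -1 := by
  let ι' : E →+* LaurentSeries Kbar :=
    ((ModularCurve.modularFunctionFieldBar N).val : FN →+* LaurentSeries Kbar).comp ι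
  have hι' : ∀ f : E, ι' f = ((ι f : FN) : LaurentSeries Kbar) := fun f => rfl
  have hconst : ∀ a : K0, a ≠ 0 → (ι' (algebraMap K0 E a)).order = 0 := by
    intro a ha
    rw [hι', hι]
    have hne : algebraMap K0 Kbar a ≠ 0 := by simpa using ha
    have : ((algebraMap Kbar FN (algebraMap K0 Kbar a) : FN) : LaurentSeries Kbar) =
        HahnSeries.single 0 (algebraMap K0 Kbar a) := by
      show algebraMap Kbar (LaurentSeries Kbar) (algebraMap K0 Kbar a) = _
      have h1 : algebraMap Kbar (PowerSeries Kbar) (algebraMap K0 Kbar a) =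
          PowerSeries.C (algebraMap K0 Kbar a) := by simp
      rw [HahnSeries.algebraMap_apply', h1, HahnSeries.ofPowerSeries_C]
      rfl
    rw [this, HahnSeries.order_single hne]
  have hxo : (ι' x).order = -1 := by
    rw [hι', hx]
    exact klbr_order_jBar N
  obtain ⟨P, hP⟩ := klbr_cusp_place ι' hconst x hxo
  exact ⟨P, by rw [hP, hxo]⟩

variable {A : Type} [CommRing A] [IsDomain A] [IsDiscreteValuationRing A]
  [Algebra A K0] [IsFractionRing A K0] [Algebra A E] [IsScalarTower A K0 E]
  [Algebra.IsAlgebraic K0 Kbar]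

/-- **KL-BR for `x = j`, final form** (residue characteristic prime to `6 N`). -/
theorem klbr_branchHyp_j (ϖ : A) (hϖ : Irreducible ϖ) (ι : E →+* FN)
    (hι : ∀ a : K0, ι (algebraMap K0 E a) = algebraMap Kbar FN (algebraMap K0 Kbar a))
    (x : E) (hx : ι x = jBar N) [Algebra.IsAlgebraic K0⟮x⟯ E]
    (h2 : IsUnit ((2 : ℕ) : A)) (h3 : IsUnit ((3 : ℕ) : A)) (hN : IsUnit ((N : ℕ) : A))
    (hζ3 : ∃ ζ : A, IsPrimitiveRoot ζ 3) (hζN : ∃ ζ : A, IsPrimitiveRoot ζ N) :
    (∀ g : A[X], g.Monic → Irreducible (g.map (IsLocalRing.residue A)) →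
      BranchHypAtC A E ϖ x g) ∧
    BranchHypAtC A E ϖ x⁻¹ X := by
  have h1728K : (1728 : K0) ≠ 0 := by
    intro h
    have := congrArg (algebraMap K0 Kbar) h
    rw [map_ofNat, map_zero] at this
    norm_num at this
  have hmap : algebraMap A K0 1728 = 1728 := map_ofNat _ _
  have himg : algebraMap A K0 '' ({0, 1728} : Set A) = ({0, 1728} : Set K0) := by
    rw [Set.image_pair, map_zero, hmap]
  have hB : BranchPlaceForm K0 E x (algebraMap A K0 '' ({0, 1728} : Set A))
      (branchExp K0 3 2) N := by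
    rw [himg]
    exact klbr_j N ι hι x hx
  have hunit : IsUnit (1728 : A) := by
    have h : (1728 : A) = ((2 : ℕ) : A) ^ 6 * ((3 : ℕ) : A) ^ 3 := by
      push_cast
      norm_num
    rw [h]
    exact (h2.pow 6).mul (h3.pow 3)
  have hc1 : ¬ ϖ ∣ (1728 : A) := fun hdvd => hϖ.not_isUnit (isUnit_of_dvd_unit hdvd hunit)
  have h2ne : (-1 : A) ≠ 1 := by
    intro h
    have h0 : ((2 : ℕ) : A) = 0 := by
      push_cast
      linear_combination -h
    rw [h0] at h2
    exact not_isUnit_zero h2
  have hζ2 : IsPrimitiveRoot (-1 : A) 2 := by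
    refine IsPrimitiveRoot.mk_of_lt _ (by norm_num) (by norm_num) ?_
    intro l hl0 hl2
    have : l = 1 := by omega
    subst this
    simpa using h2ne
  refine klbr_branchHyp ϖ hϖ x (klbr_j_transcendental N ι hι x hx) 1728 (branchExp K0 3 2) N
    hB hc1 ?_ ?_ ⟨Nat.pos_of_ne_zero (NeZero.ne N), hN, hζN⟩ (klbr_cusp_place_j N ι hι x hx)
  · rw [branchExp_zero]
    exact ⟨by norm_num, h3, hζ3⟩
  · rw [hmap, branchExp_of_ne _ _ _ h1728K]
    exact ⟨by norm_num, h2, ⟨-1, hζ2⟩⟩

end modular

end Fermat.Agent.H2
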