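import Fermat.Agent.H2.KLBRModelT
import Fermat.Agent.H2.KLBRBranchT2
import Fermat.Agent.H2.KLBRBranchT3

/-!
# P-ES / KL-BR (helper2): `H22.KL.ModelBranchStatement` for the Hauptmoduln `t_2`, `t_3`,
from the algebraic relation with `j` alone

* `klbr_branchHypAt_ord` : the two branch hypotheses from branch data in `ord` form.
* `klbr_model_of_clean` : `ModelBranchStatement` from `BranchClean` over `ℚ̄`.
* `klbr_model_rel2` : **`ModelBranchStatement N ℓ x₀ M`** for every `x₀ : LaurentSeries ℚ` whose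
  base change `t` to `ℚ̄` lies in `modularFunctionFieldBar N` and satisfies
  `j * t ^ 2 = (t + 256) ^ 3` (i.e. `x₀ = t_2`), `ℓ` prime to `2 N`, `M ≠ 0`, `2 ∣ M`, `N ∣ M`.
* `klbr_model_rel3` : the same for `j * t ^ 3 = (t + 27) * (t + 243) ^ 3` (i.e. `x₀ = t_3`),
  `ℓ` prime to `3 N`, `3 ∣ M`, `N ∣ M`.

The only input which is not proved here is the MEMBERSHIP `t ∈ modularFunctionFieldBar N`
(true for `2 ∣ N`, resp. `3 ∣ N`).
-/

set_option autoImplicit false
set_option synthInstance.maxHeartbeats 400000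
set_option linter.style.haveILetI false

noncomputable section

open AlgebraicCurve IntermediateField Polynomial ModularCurve

namespace Fermat.Agent.H2

open Fermat.Agent.H23 Fermat.Agent.H22.KL Fermat.Agent.H27.ESD

section general

variable (N : ℕ) [NeZero N]

local notation "Kbar" => AlgebraicClosure ℚ
set_option quotPrecheck false in
local notation "FN" => ↥(ModularCurve.modularFunctionFieldBar N)

variable {K0 E : Type} [Field K0] [Field E] [Algebra K0 E] [Algebra K0 Kbar]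

variable {A : Type} [CommRing A] [IsDomain A] [IsDiscreteValuationRing A]
  [Algebra A K0] [IsFractionRing A K0] [Algebra A E] [IsScalarTower A K0 E]
  [Algebra.IsAlgebraic K0 Kbar]

omit [NeZero N] in
/-- **KL-BR for a general coordinate**, branch data in `ord` form over `ℚ̄`. -/
theorem klbr_branchHypAt_ord (ϖ : A) (hϖ : Irreducible ϖ) (ι : E →+* FN)
    (hι : ∀ a : K0, ι (algebraMap K0 E a) = algebraMap Kbar FN (algebraMap K0 Kbar a))
    (x : E) [Algebra.IsAlgebraic K0⟮x⟯ E]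
    (httr : Transcendental Kbar (ι x)) (hfin : FiniteDimensional Kbar⟮ι x⟯ FN)
    (hord : ((ι x : FN) : LaurentSeries Kbar).order = -1)
    (c1 : A) (hc1 : ¬ ϖ ∣ c1) (e0 e1 einf : ℕ)
    (hBO : BranchOrd K0 Kbar (ι x) ({0, algebraMap A K0 c1} : Set K0)
      (branchExp K0 e0 e1) einf)
    (he0 : 0 < e0 ∧ IsUnit ((e0 : ℕ) : A) ∧ ∃ ζ : A, IsPrimitiveRoot ζ e0)
    (he1 : 0 < e1 ∧ IsUnit ((e1 : ℕ) : A) ∧ ∃ ζ : A, IsPrimitiveRoot ζ e1)
    (heinf : 0 < einf ∧ IsUnit ((einf : ℕ) : A) ∧ ∃ ζ : A, IsPrimitiveRoot ζ einf) :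
    (∀ g : A[X], g.Monic → Irreducible (g.map (IsLocalRing.residue A)) →
      BranchHypAt A E ϖ x g) ∧
    BranchHypAt A E ϖ x⁻¹ X := by
  have hc10 : c1 ≠ 0 := by
    rintro rfl
    exact hc1 (dvd_zero _)
  have hc1K : algebraMap A K0 c1 ≠ 0 := by
    rwa [Ne, map_eq_zero_iff _ (IsFractionRing.injective A K0)]
  have hxtr : Transcendental K0 x := by
    rintro ⟨p, hp0, hp⟩
    apply httr
    refine ⟨p.map (algebraMap K0 Kbar), ?_, ?_⟩
    · rwa [Ne, Polynomial.map_eq_zero]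
    · have h := congrArg ι hp
      rw [map_zero, aeval_def, hom_eval₂] at h
      have hcomp : (algebraMap Kbar FN).comp (algebraMap K0 Kbar) =
          ι.comp (algebraMap K0 E) := RingHom.ext fun a => (hι a).symm
      rw [aeval_def, eval₂_map, hcomp, h]
  have himg : algebraMap A K0 '' ({0, c1} : Set A) = ({0, algebraMap A K0 c1} : Set K0) := by
    rw [Set.image_pair, map_zero]
  have hB : BranchPlaceForm K0 E x (algebraMap A K0 '' ({0, c1} : Set A))
      (branchExp K0 e0 e1) einf := by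
    rw [himg]
    exact klbr_place_form ι hι x httr hfin _ _ _ hBO
  refine klbr_branchHypAt ϖ hϖ x hxtr c1 (branchExp K0 e0 e1) einf hB hc1 ?_ ?_ heinf
    (klbr_cusp_place_t N ι hι x hord)
  · rw [branchExp_zero]
    exact he0
  · rw [branchExp_of_ne _ _ _ hc1K]
    exact he1

end general

section model

variable (N : ℕ) [NeZero N]

local notation "Kbar" => AlgebraicClosure ℚ
set_option quotPrecheck false in
local notation "FN" => ↥(ModularCurve.modularFunctionFieldBar N)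

/-- **KL-BR, concrete model, from clean branch data over `ℚ̄`.** -/
theorem klbr_model_of_clean (ℓ : ℕ) (x₀ : LaurentSeries ℚ) (t : FN)
    (ht : (t : LaurentSeries Kbar) = coeffEmb Kbar x₀)
    (httr : Transcendental Kbar t) (hfin : FiniteDimensional Kbar⟮t⟯ FN)
    (hord : (coeffEmb Kbar x₀).order = -1)
    (c1 : ℤ) (hc10 : c1 ≠ 0) (e0 e1 einf : ℕ)
    (hc1 : IsCoprime c1 (ℓ : ℤ)) (he0 : Nat.Coprime e0 ℓ) (he1 : Nat.Coprime e1 ℓ)
    (heinf : Nat.Coprime einf ℓ)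
    (H : BranchClean Kbar t ((c1 : ℤ) : Kbar) e0 e1 einf)
    (M : ℕ) (hM : M ≠ 0) (h0M : e0 ∣ M) (h1M : e1 ∣ M) (hinfM : einf ∣ M) :
    ModelBranchStatement N ℓ x₀ M := by
  intro K₁ _ _ _ A₀ _ _ _ _ _ _ _ hℓA hζ ϖ hϖ x hx
  -- an embedding of `K₁` into `ℚ̄`
  haveI : Algebra.IsAlgebraic ℚ K₁ := Algebra.IsAlgebraic.of_finite ℚ K₁
  let φ : K₁ →ₐ[ℚ] AlgebraicClosure ℚ := IsAlgClosed.lift
  letI algK : Algebra K₁ (AlgebraicClosure ℚ) := φ.toRingHom.toAlgebra
  haveI tow : IsScalarTower ℚ K₁ (AlgebraicClosure ℚ) :=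
    IsScalarTower.of_algebraMap_eq (fun a => (φ.commutes a).symm)
  haveI : Algebra.IsAlgebraic ℚ (AlgebraicClosure ℚ) := AlgebraicClosure.isAlgebraic ℚ
  haveI : Algebra.IsAlgebraic K₁ (AlgebraicClosure ℚ) :=
    Algebra.IsAlgebraic.tower_top (K := ℚ) K₁
  haveI : CharZero K₁ := charZero_of_injective_algebraMap (algebraMap ℚ K₁).injective
  -- the comparison map
  let ι : ModelField K₁ N →+* ↥(modularFunctionFieldBar N) :=
    Fermat.Agent.H93.KL.klBc φ.toRingHom (modularFunctionFieldFull N)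
  have hι : ∀ a : K₁, ι (algebraMap K₁ (ModelField K₁ N) a) =
      algebraMap (AlgebraicClosure ℚ) ↥(modularFunctionFieldBar N)
        (algebraMap K₁ (AlgebraicClosure ℚ) a) := fun a =>
    Fermat.Agent.H73.KLDesc.klBc_algebraMap φ.toRingHom (modularFunctionFieldFull N) a
  have hxt : ι x = t := by
    apply Subtype.ext
    show coeffMap φ.toRingHom (x : LaurentSeries K₁) = (t : LaurentSeries Kbar)
    rw [hx, ht, coeffEmb, coeffEmb, coeffMap_coeffMap]
    exact coeffMap_congr (Subsingleton.elim _ _) x₀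
  -- algebraicity over `K₁(x)`
  haveI hfin' : FiniteDimensional Kbar⟮ι x⟯ FN := by
    rw [hxt]
    exact hfin
  haveI : Algebra.IsAlgebraic Kbar⟮ι x⟯ FN := Algebra.IsAlgebraic.of_finite _ _
  haveI : Algebra.IsAlgebraic K₁⟮x⟯ (ModelField K₁ N) := klbr_isAlgebraic_descent ι hι x
  -- units
  have hcop : ∀ n : ℕ, Nat.Coprime n ℓ → IsUnit ((n : ℕ) : A₀) := fun n hn =>
    klbr_isUnit_natCast_of_coprime hℓA hn
  have hpos : ∀ n : ℕ, n ∣ M → 0 < n := fun n hn =>
    Nat.pos_of_ne_zero (fun h => hM (by rw [h] at hn; exact zero_dvd_iff.mp hn))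
  have hc1u : IsUnit ((c1 : ℤ) : A₀) := klbr_isUnit_intCast_of_isCoprime hℓA hc1
  have hc1' : ¬ ϖ ∣ ((c1 : ℤ) : A₀) := fun h => hϖ.not_isUnit (isUnit_of_dvd_unit h hc1u)
  have hc1K : ((c1 : ℤ) : K₁) ≠ 0 := Int.cast_ne_zero.mpr hc10
  have hBO : BranchOrd K₁ Kbar (ι x) ({0, algebraMap A₀ K₁ ((c1 : ℤ) : A₀)} : Set K₁)
      (branchExp K₁ e0 e1) einf := by
    rw [hxt, map_intCast]
    refine (klbr_branchOrd_iff_clean t ((c1 : ℤ) : K₁) hc1K e0 e1 einf).mpr ?_
    rwa [map_intCast]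
  refine klbr_branchHypAt_ord N ϖ hϖ ι hι x (hxt ▸ httr) hfin' ?_ ((c1 : ℤ) : A₀) hc1'
    e0 e1 einf hBO ⟨hpos _ h0M, hcop _ he0, klbr_exists_primitiveRoot_of_dvd hM hζ h0M⟩
    ⟨hpos _ h1M, hcop _ he1, klbr_exists_primitiveRoot_of_dvd hM hζ h1M⟩
    ⟨hpos _ hinfM, hcop _ heinf, klbr_exists_primitiveRoot_of_dvd hM hζ hinfM⟩
  rw [hxt, ht]
  exact hord

/-- the branch data of `j` over `ℚ̄`, clean form -/
theorem klbr_clean_j : BranchClean Kbar (jBar N) (1728 : Kbar) 3 2 N := by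
  have h1728 : (1728 : Kbar) ≠ 0 := by norm_num
  exact (klbr_branchOrd_iff_clean (K0 := Kbar) (jBar N) (1728 : Kbar) h1728 3 2 N).mp
    (klbr_branchOrd_j N Kbar)

theorem klbr_jBar_ne_const (b : Kbar) : jBar N ≠ algebraMap Kbar FN b := by
  intro h
  exact Fermat.Agent.H17.ESD.jBar_transcendental N (h ▸ isAlgebraic_algebraMap b)

/-- the cusp place of `F_N / ℚ̄` -/
theorem klbr_cusp_place_bar :
    ∃ P : Place Kbar FN, ∀ f : FN, P.ord f = ((f : FN) : LaurentSeries Kbar).order := by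
  let ι' : FN →+* LaurentSeries Kbar :=
    ((ModularCurve.modularFunctionFieldBar N).val : FN →+* LaurentSeries Kbar)
  have hconst : ∀ a : Kbar, a ≠ 0 → (ι' (algebraMap Kbar FN a)).order = 0 := by
    intro a ha
    have : ι' (algebraMap Kbar FN a) = HahnSeries.single 0 a := by
      show algebraMap Kbar (LaurentSeries Kbar) a = _
      have h1 : algebraMap Kbar (PowerSeries Kbar) a = PowerSeries.C a := by simp
      rw [HahnSeries.algebraMap_apply', h1, HahnSeries.ofPowerSeries_C]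
      rfl
    rw [this, HahnSeries.order_single ha]
  exact klbr_cusp_place ι' hconst (jBar N) (klbr_order_jBar N)

/-- **KL-BR, concrete model, `x = t_2`**: for every `x₀ : LaurentSeries ℚ` whose base change to
`ℚ̄` lies in the function field of `X₀(N)` and satisfies `j * t ^ 2 = (t + 256) ^ 3`. -/
theorem klbr_model_rel2 (ℓ : ℕ) (x₀ : LaurentSeries ℚ)
    (hmem : coeffEmb Kbar x₀ ∈ modularFunctionFieldBar N)
    (hrel : coeffEmb Kbar jq * coeffEmb Kbar x₀ ^ 2 = (coeffEmb Kbar x₀ + 256) ^ 3)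
    (h2ℓ : Nat.Coprime 2 ℓ) (hNℓ : Nat.Coprime N ℓ)
    (M : ℕ) (hM : M ≠ 0) (h2M : 2 ∣ M) (hNM : N ∣ M) :
    ModelBranchStatement N ℓ x₀ M := by
  let t : FN := ⟨coeffEmb Kbar x₀, hmem⟩
  have hrelF : jBar N * t ^ 2 = (t + 256) ^ 3 := by
    apply Subtype.ext
    exact hrel
  have hjmem : jBar N ∈ Kbar⟮t⟯ := klbr_j_mem_adjoin_t2 hrelF
  have httr : Transcendental Kbar t :=
    klbr_transcendental_of_mem_adjoin (Fermat.Agent.H17.ESD.jBar_transcendental N) hjmem
  have hfin : FiniteDimensional Kbar⟮t⟯ FN :=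
    klbr_finiteDimensional_of_mem_adjoin (degreeStatement_holds N).2.1 hjmem
  have hord : (coeffEmb Kbar x₀).order = -1 := by
    obtain ⟨P, hP⟩ := klbr_cusp_place_bar N
    have hj : P.ord (jBar N) = -1 := by
      rw [hP]
      exact klbr_order_jBar N
    have := klbr_ord_t2_of_ord_j P hrelF hj
    rwa [hP] at this
  have hclean : BranchClean Kbar t (((-64 : ℤ) : ℤ) : Kbar) N 2 N := by
    have h := klbr_clean_t2 N (klbr_jBar_ne_const N) hrelF (klbr_clean_j N)
    have e : (((-64 : ℤ) : ℤ) : Kbar) = (-64 : Kbar) := by norm_num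
    rwa [e]
  have hc : IsCoprime (-64 : ℤ) (ℓ : ℤ) := by
    have h2 : IsCoprime (2 : ℤ) (ℓ : ℤ) := by
      have := Nat.isCoprime_iff_coprime.mpr h2ℓ
      simpa using this
    have h64 : IsCoprime ((2 : ℤ) ^ 6) (ℓ : ℤ) := h2.pow_left
    have e : (-64 : ℤ) = -((2 : ℤ) ^ 6) := by norm_num
    rw [e]
    exact h64.neg_left
  exact klbr_model_of_clean N ℓ x₀ t rfl httr hfin hord (-64) (by norm_num) N 2 N hc hNℓ h2ℓ hNℓ
    hclean M hM hNM h2M hNM

/-- **KL-BR, concrete model, `x = t_3`**: for every `x₀ : LaurentSeries ℚ` whose base change to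
`ℚ̄` lies in the function field of `X₀(N)` and satisfies
`j * t ^ 3 = (t + 27) * (t + 243) ^ 3`. -/
theorem klbr_model_rel3 (ℓ : ℕ) (x₀ : LaurentSeries ℚ)
    (hmem : coeffEmb Kbar x₀ ∈ modularFunctionFieldBar N)
    (hrel : coeffEmb Kbar jq * coeffEmb Kbar x₀ ^ 3 =
      (coeffEmb Kbar x₀ + 27) * (coeffEmb Kbar x₀ + 243) ^ 3)
    (h3ℓ : Nat.Coprime 3 ℓ) (hNℓ : Nat.Coprime N ℓ)
    (M : ℕ) (hM : M ≠ 0) (h3M : 3 ∣ M) (hNM : N ∣ M) :
    ModelBranchStatement N ℓ x₀ M := by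
  let t : FN := ⟨coeffEmb Kbar x₀, hmem⟩
  have hrelF : jBar N * t ^ 3 = (t + 27) * (t + 243) ^ 3 := by
    apply Subtype.ext
    exact hrel
  have hjmem : jBar N ∈ Kbar⟮t⟯ := klbr_j_mem_adjoin_t3 hrelF
  have httr : Transcendental Kbar t :=
    klbr_transcendental_of_mem_adjoin (Fermat.Agent.H17.ESD.jBar_transcendental N) hjmem
  have hfin : FiniteDimensional Kbar⟮t⟯ FN :=
    klbr_finiteDimensional_of_mem_adjoin (degreeStatement_holds N).2.1 hjmem
  have hord : (coeffEmb Kbar x₀).order = -1 := by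
    obtain ⟨P, hP⟩ := klbr_cusp_place_bar N
    have hj : P.ord (jBar N) = -1 := by
      rw [hP]
      exact klbr_order_jBar N
    have := klbr_ord_t3_of_ord_j P hrelF hj
    rwa [hP] at this
  have hclean : BranchClean Kbar t (((-27 : ℤ) : ℤ) : Kbar) N 3 N := by
    have h := klbr_clean_t3 N (klbr_jBar_ne_const N) hrelF (klbr_clean_j N)
    have e : (((-27 : ℤ) : ℤ) : Kbar) = (-27 : Kbar) := by norm_num
    rwa [e]
  have hc : IsCoprime (-27 : ℤ) (ℓ : ℤ) := by
    have h3 : IsCoprime (3 : ℤ) (ℓ : ℤ) := by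
      have := Nat.isCoprime_iff_coprime.mpr h3ℓ
      simpa using this
    have h27 : IsCoprime ((3 : ℤ) ^ 3) (ℓ : ℤ) := h3.pow_left
    have e : (-27 : ℤ) = -((3 : ℤ) ^ 3) := by norm_num
    rw [e]
    exact h27.neg_left
  exact klbr_model_of_clean N ℓ x₀ t rfl httr hfin hord (-27) (by norm_num) N 3 N hc hNℓ h3ℓ hNℓ
    hclean M hM hNM h3M hNM

end model

end Fermat.Agent.H2
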