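import Mathlib.RingTheory.Regular.ProjectiveDimension
import Mathlib.RingTheory.FiniteLength
import Mathlib.RingTheory.SimpleModule.Basic
import Mathlib.Algebra.Category.ModuleCat.Abelian
import Mathlib.Algebra.Homology.ShortComplex.ModuleCat

set_option autoImplicit false

universe u

open CategoryTheory

namespace Fermat.Agent.H2

/-- Dévissage: over a local ring, a module of finite length has projective dimension
bounded by that of the residue field. -/
theorem hasProjectiveDimensionLT_of_isFiniteLength {R : Type u} [CommRing R] [IsLocalRing R]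
    (n : ℕ)
    (hk : HasProjectiveDimensionLT
      (ModuleCat.of R (R ⧸ IsLocalRing.maximalIdeal R)) n)
    (L : Type u) [AddCommGroup L] [Module R L] (hL : IsFiniteLength R L) :
    HasProjectiveDimensionLT (ModuleCat.of R L) n := by
  induction hL with
  | @of_subsingleton M _ _ _ =>
    have hz : Limits.IsZero (ModuleCat.of R M) := ModuleCat.isZero_of_subsingleton _
    have := hz.hasProjectiveDimensionLT_zero
    exact hasProjectiveDimensionLT_of_ge (ModuleCat.of R M) 0 n (Nat.zero_le n)
  | @of_simple_quotient M _ _ N hsimple _ ih =>
    -- the quotient is isomorphic to the residue field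
    obtain ⟨I, hI, ⟨e⟩⟩ := isSimpleModule_iff_quot_maximal.mp hsimple
    have hIm : I = IsLocalRing.maximalIdeal R := IsLocalRing.eq_maximalIdeal hI
    subst hIm
    have h3 : HasProjectiveDimensionLT (ModuleCat.of R (M ⧸ N)) n :=
      hasProjectiveDimensionLT_of_iso (e.symm.toModuleIso) n
    have hS : (N.mkQ).shortComplexKer.ShortExact :=
      LinearMap.shortExact_shortComplexKer N.mkQ_surjective
    have h1 : HasProjectiveDimensionLT (N.mkQ).shortComplexKer.X₁ n := by
      have e1 : (LinearMap.ker N.mkQ) ≃ₗ[R] N := LinearEquiv.ofEq _ _ N.ker_mkQ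
      exact hasProjectiveDimensionLT_of_iso (e1.symm.toModuleIso) n
    exact hS.hasProjectiveDimensionLT_X₂ n h1 h3

end Fermat.Agent.H2
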