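import Fermat.Agent.H2.PatchDevissage
import Mathlib.RingTheory.LocalRing.Module

set_option autoImplicit false

universe u

open CategoryTheory RingTheory.Sequence

namespace Fermat.Agent.H2

/-- Auslander–Buchsbaum by hand: over a Noetherian local ring whose maximal ideal is generated
by a regular sequence `rs`, a finite module admitting a weakly regular sequence `ys` inside the
maximal ideal of length at least `rs.length`, whose quotient has finite length, is free. -/
theorem free_of_isWeaklyRegular_of_maximalIdeal_eq {R : Type u} [CommRing R] [IsLocalRing R]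
    [IsNoetherianRing R]
    (rs : List R) (hrs : IsRegular R rs)
    (hm : Ideal.ofList rs = IsLocalRing.maximalIdeal R)
    (N : Type u) [AddCommGroup N] [Module R N] [Module.Finite R N]
    (ys : List R) (hys : IsWeaklyRegular N ys)
    (hmem : ∀ y ∈ ys, y ∈ IsLocalRing.maximalIdeal R)
    (hlen : rs.length ≤ ys.length)
    (hfl : IsFiniteLength R (N ⧸ Ideal.ofList ys • (⊤ : Submodule R N))) :
    Module.Free R N := by
  rcases subsingleton_or_nontrivial N with hN | hN
  · exact Module.Free.of_subsingleton R N
  -- projective dimension of the residue field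
  have hk0 := ModuleCat.projectiveDimension_quotient_eq_length.{u, u} rs hrs
  have ek : (Shrink.{u} (R ⧸ Ideal.ofList rs)) ≃ₗ[R] (R ⧸ IsLocalRing.maximalIdeal R) :=
    (Shrink.linearEquiv R _).trans (Submodule.quotEquivOfEq _ _ hm)
  have hk1 : projectiveDimension (ModuleCat.of R (R ⧸ IsLocalRing.maximalIdeal R)) = rs.length := by
    rw [← hk0]
    exact (projectiveDimension_eq_of_iso ek.toModuleIso).symm
  have hk : HasProjectiveDimensionLT (ModuleCat.of R (R ⧸ IsLocalRing.maximalIdeal R))
      (rs.length + 1) := by
    have := (projectiveDimension_le_iff (ModuleCat.of R (R ⧸ IsLocalRing.maximalIdeal R))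
      rs.length).mp hk1.le
    exact this
  -- dévissage
  have hL := hasProjectiveDimensionLT_of_isFiniteLength (rs.length + 1) hk _ hfl
  have hL' : projectiveDimension
      (ModuleCat.of R (N ⧸ Ideal.ofList ys • (⊤ : Submodule R N))) ≤ rs.length :=
    (projectiveDimension_le_iff _ _).mpr hL
  -- the regular sequence raises projective dimension
  have hadd := ModuleCat.projectiveDimension_quotient_eq_add_length_of_isWeaklyRegular.{u, u}
    (ModuleCat.of R N) ys hys hmem
  rw [hadd] at hL'
  have hle : projectiveDimension (ModuleCat.of R N) ≤ 0 := by
    have h1 : projectiveDimension (ModuleCat.of R N) + (ys.length : WithBot ℕ∞) ≤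
        (0 : WithBot ℕ∞) + (ys.length : WithBot ℕ∞) := by
      rw [zero_add]
      exact hL'.trans (by exact_mod_cast hlen)
    exact (ENat.WithBot.add_le_add_natCast_right_iff).mp h1
  have hproj : Projective (ModuleCat.of R N) := by
    rw [projective_iff_hasProjectiveDimensionLE_zero]
    exact (projectiveDimension_le_iff _ 0).mp (by simpa using hle)
  have hproj' : Module.Projective R N := (IsProjective.iff_projective N).mpr hproj
  exact Module.free_of_flat_of_isLocalRing

end Fermat.Agent.H2
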