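import Mathlib.RingTheory.MvPowerSeries.Basic
import Mathlib.RingTheory.MvPowerSeries.Inverse
import Mathlib.RingTheory.Regular.RegularSequence
import Mathlib.RingTheory.Ideal.Span

set_option autoImplicit false

open MvPowerSeries RingTheory.Sequence

namespace Fermat.Agent.H2

variable {σ : Type*} {A : Type*} [CommRing A]

/-- Coefficient description of the ideal generated by a finite set of variables in a
multivariate power series ring. -/
theorem mem_span_X_image_iff (s : Finset σ) (f : MvPowerSeries σ A) :
    f ∈ Ideal.span ((X : σ → MvPowerSeries σ A) '' (s : Set σ)) ↔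
      ∀ m : σ →₀ ℕ, (∀ j ∈ s, m j = 0) → coeff m f = 0 := by
  classical
  constructor
  · intro hf
    induction hf using Submodule.span_induction with
    | mem x hx =>
      obtain ⟨j, hj, rfl⟩ := hx
      intro m hm
      rw [coeff_X, if_neg]
      rintro rfl
      have := hm j hj
      simp at this
    | zero => intro m _; simp
    | add x y _ _ hx hy =>
      intro m hm
      rw [map_add, hx m hm, hy m hm, add_zero]
    | smul g x _ hx =>
      intro m hm
      rw [smul_eq_mul, coeff_mul]
      refine Finset.sum_eq_zero ?_
      rintro ⟨p, q⟩ hpq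
      rw [Finset.mem_antidiagonal] at hpq
      have hq : ∀ j ∈ s, q j = 0 := by
        intro j hj
        have h1 := hm j hj
        rw [← hpq] at h1
        simp only [Finsupp.coe_add, Pi.add_apply, Nat.add_eq_zero_iff] at h1
        exact h1.2
      simp only
      rw [hx q hq, mul_zero]
  · induction s using Finset.induction_on generalizing f with
    | empty =>
      intro h
      have : f = 0 := by
        ext m
        simpa using h m (by simp)
      rw [this]
      exact Submodule.zero_mem _
    | insert a t hat ih =>
      intro h
      -- the part of `f` not involving the variable `a`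
      let g : MvPowerSeries σ A := fun m => if m a = 0 then coeff m f else 0
      have hg : ∀ m, coeff m g = if m a = 0 then coeff m f else 0 := fun m => rfl
      have hg_mem : g ∈ Ideal.span ((X : σ → MvPowerSeries σ A) '' (t : Set σ)) := by
        apply ih
        intro m hm
        rw [hg]
        split_ifs with hma
        · apply h
          intro j hj
          rcases Finset.mem_insert.mp hj with rfl | hj
          · exact hma
          · exact hm j hj
        · rfl
      have hdiv : (X a : MvPowerSeries σ A) ∣ f - g := by
        rw [X_dvd_iff]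
        intro m hma
        rw [map_sub, hg, if_pos hma, sub_self]
      have hsub : Ideal.span ((X : σ → MvPowerSeries σ A) '' (t : Set σ)) ≤
          Ideal.span ((X : σ → MvPowerSeries σ A) '' ((insert a t : Finset σ) : Set σ)) := by
        apply Ideal.span_mono
        apply Set.image_mono
        intro x hx
        simp only [Finset.coe_insert, Set.mem_insert_iff, Finset.mem_coe]
        exact Or.inr hx
      have hXa : (X a : MvPowerSeries σ A) ∈
          Ideal.span ((X : σ → MvPowerSeries σ A) '' ((insert a t : Finset σ) : Set σ)) := by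
        apply Ideal.subset_span
        exact ⟨a, by simp, rfl⟩
      have hfg : f = (f - g) + g := by ring
      rw [hfg]
      refine Ideal.add_mem _ ?_ (hsub hg_mem)
      obtain ⟨c, hc⟩ := hdiv
      rw [hc]
      exact Ideal.mul_mem_right _ _ hXa

/-- Multiplication by a variable outside `s` is injective modulo the ideal generated by the
variables in `s`. -/
theorem mem_span_X_image_of_X_mul_mem (s : Finset σ) (a : σ) (ha : a ∉ s)
    (f : MvPowerSeries σ A)
    (h : X a * f ∈ Ideal.span ((X : σ → MvPowerSeries σ A) '' (s : Set σ))) :
    f ∈ Ideal.span ((X : σ → MvPowerSeries σ A) '' (s : Set σ)) := by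
  classical
  rw [mem_span_X_image_iff] at h ⊢
  intro m hm
  have h1 := h (Finsupp.single a 1 + m) (by
    intro j hj
    have hja : j ≠ a := fun e => ha (e ▸ hj)
    rw [Finsupp.add_apply, hm j hj, Finsupp.single_apply, if_neg (Ne.symm hja)])
  have h2 : coeff (Finsupp.single a 1 + m) (X a * f) = coeff m f := by
    rw [X, coeff_add_monomial_mul, one_mul]
  rw [← h2, h1]

/-- Multiplication by a constant which is a non-zero-divisor is injective modulo the ideal
generated by all the variables. -/
theorem mem_span_X_image_of_C_mul_mem [Fintype σ] (c : A) (hc : IsSMulRegular A c)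
    (f : MvPowerSeries σ A)
    (h : C c * f ∈ Ideal.span ((X : σ → MvPowerSeries σ A) '' ((Finset.univ : Finset σ) : Set σ))) :
    f ∈ Ideal.span ((X : σ → MvPowerSeries σ A) '' ((Finset.univ : Finset σ) : Set σ)) := by
  classical
  rw [mem_span_X_image_iff] at h ⊢
  intro m hm
  have h1 := h m hm
  rw [coeff_C_mul] at h1
  exact hc (by simpa using h1)

end Fermat.Agent.H2

namespace Fermat.Agent.H2

variable {σ : Type*} {A : Type*} [CommRing A]

theorem ofList_map_X_eq (l : List σ) [DecidableEq σ] :
    Ideal.ofList (l.map (X : σ → MvPowerSeries σ A)) =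
      Ideal.span ((X : σ → MvPowerSeries σ A) '' ((l.toFinset : Finset σ) : Set σ)) := by
  unfold Ideal.ofList
  congr 1
  ext x
  simp only [List.mem_map, Set.mem_ofPred_eq, List.coe_toFinset, Set.mem_image]

theorem ideal_smul_top_eq (R : Type*) [CommRing R] (I : Ideal R) :
    (I • (⊤ : Submodule R R) : Submodule R R) = I := by
  rw [smul_eq_mul, Ideal.mul_top]

/-- Distinct variables form a weakly regular sequence on the power series ring. -/
theorem isWeaklyRegular_map_X (l : List σ) (hl : l.Nodup) :
    IsWeaklyRegular (MvPowerSeries σ A) (l.map (X : σ → MvPowerSeries σ A)) := by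
  classical
  induction l using List.reverseRecOn with
  | nil => exact IsWeaklyRegular.nil _ _
  | append_singleton l a ih =>
    have hl' : l.Nodup := (List.nodup_append.mp hl).1
    have ha : a ∉ l := by
      intro h
      have := (List.nodup_append.mp hl).2.2 a h a (by simp)
      exact this rfl
    rw [List.map_append, isWeaklyRegular_append_iff]
    refine ⟨ih hl', ?_⟩
    rw [List.map_singleton, isWeaklyRegular_singleton_iff,
      isSMulRegular_quotient_iff_mem_of_smul_mem]
    intro f hf
    rw [ideal_smul_top_eq, ofList_map_X_eq] at hf ⊢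
    rw [smul_eq_mul] at hf
    exact mem_span_X_image_of_X_mul_mem _ a (by simpa using ha) f hf

/-- The sequence `X_0, …, X_{r-1}, C c` on `A⟦X_0, …, X_{r-1}⟧`. -/
noncomputable def paramList (r : ℕ) (c : A) : List (MvPowerSeries (Fin r) A) :=
  (List.finRange r).map (X : Fin r → MvPowerSeries (Fin r) A) ++ [C c]

theorem paramList_length (r : ℕ) (c : A) : (paramList r c).length = r + 1 := by
  simp [paramList]

theorem isWeaklyRegular_paramList (r : ℕ) (c : A) (hc : IsSMulRegular A c) :
    IsWeaklyRegular (MvPowerSeries (Fin r) A) (paramList r c) := by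
  classical
  unfold paramList
  rw [isWeaklyRegular_append_iff]
  refine ⟨isWeaklyRegular_map_X _ (List.nodup_finRange r), ?_⟩
  rw [isWeaklyRegular_singleton_iff, isSMulRegular_quotient_iff_mem_of_smul_mem]
  intro f hf
  rw [ideal_smul_top_eq, ofList_map_X_eq] at hf ⊢
  rw [smul_eq_mul] at hf
  have huniv : ((List.finRange r).toFinset : Finset (Fin r)) = Finset.univ := by
    ext x; simp
  rw [huniv] at hf ⊢
  exact mem_span_X_image_of_C_mul_mem c hc f hf

theorem ofList_paramList (r : ℕ) (c : A) :
    Ideal.ofList (paramList r c) =
      Ideal.span ((X : Fin r → MvPowerSeries (Fin r) A) '' (Set.univ : Set (Fin r))) ⊔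
        Ideal.span {C c} := by
  classical
  unfold paramList
  rw [Ideal.ofList_append, Ideal.ofList_singleton, ofList_map_X_eq]
  congr 2
  ext x
  simp

/-- If the maximal ideal of the local ring `A` is generated by `c`, then the maximal ideal of
`A⟦X_0, …, X_{r-1}⟧` is generated by `X_0, …, X_{r-1}, c`. -/
theorem ofList_paramList_eq_maximalIdeal [IsLocalRing A] (r : ℕ) (c : A)
    (hc : IsLocalRing.maximalIdeal A = Ideal.span {c}) :
    Ideal.ofList (paramList r c) = IsLocalRing.maximalIdeal (MvPowerSeries (Fin r) A) := by
  classical
  rw [ofList_paramList]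
  apply le_antisymm
  · rw [sup_le_iff]
    constructor
    · rw [Ideal.span_le]
      rintro _ ⟨j, -, rfl⟩
      rw [SetLike.mem_coe, IsLocalRing.mem_maximalIdeal, mem_nonunits_iff,
        MvPowerSeries.isUnit_iff_constantCoeff]
      simp
    · rw [Ideal.span_le]
      rintro _ rfl
      rw [SetLike.mem_coe, IsLocalRing.mem_maximalIdeal, mem_nonunits_iff,
        MvPowerSeries.isUnit_iff_constantCoeff]
      simp only [constantCoeff_C]
      have : c ∈ IsLocalRing.maximalIdeal A := by
        rw [hc]; exact Ideal.subset_span rfl
      exact this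
  · intro f hf
    rw [IsLocalRing.mem_maximalIdeal, mem_nonunits_iff,
      MvPowerSeries.isUnit_iff_constantCoeff] at hf
    have hcc : constantCoeff f ∈ IsLocalRing.maximalIdeal A := hf
    rw [hc, Ideal.mem_span_singleton] at hcc
    obtain ⟨a', ha'⟩ := hcc
    have hdecomp : f = (f - C (constantCoeff f)) + C c * C a' := by
      rw [← map_mul, ← ha']; ring
    rw [hdecomp]
    refine Ideal.add_mem _ (Ideal.mem_sup_left ?_) (Ideal.mem_sup_right ?_)
    · have : (Set.univ : Set (Fin r)) = ((Finset.univ : Finset (Fin r)) : Set (Fin r)) := by simp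
      rw [this, mem_span_X_image_iff]
      intro m hm
      have hm0 : m = 0 := by
        ext j
        exact hm j (Finset.mem_univ j)
      subst hm0
      simp [coeff_zero_eq_constantCoeff_apply]
    · exact Ideal.mul_mem_right _ _ (Ideal.subset_span rfl)

theorem isRegular_paramList [IsLocalRing A] (r : ℕ) (c : A) (hc : IsSMulRegular A c)
    (hmax : IsLocalRing.maximalIdeal A = Ideal.span {c}) :
    IsRegular (MvPowerSeries (Fin r) A) (paramList r c) := by
  refine ⟨isWeaklyRegular_paramList r c hc, ?_⟩
  rw [ideal_smul_top_eq, ofList_paramList_eq_maximalIdeal r c hmax]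
  intro h
  exact (IsLocalRing.maximalIdeal.isMaximal (MvPowerSeries (Fin r) A)).ne_top
    (by rw [← h])

end Fermat.Agent.H2

namespace Fermat.Agent.H2

variable {A : Type*} [CommRing A]

theorem sub_C_constantCoeff_mem_span_X (r : ℕ) (f : MvPowerSeries (Fin r) A) :
    f - C (constantCoeff f) ∈
      Ideal.span ((X : Fin r → MvPowerSeries (Fin r) A) '' (Set.univ : Set (Fin r))) := by
  classical
  have : (Set.univ : Set (Fin r)) = ((Finset.univ : Finset (Fin r)) : Set (Fin r)) := by simp
  rw [this, mem_span_X_image_iff]
  intro m hm
  have hm0 : m = 0 := by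
    ext j
    exact hm j (Finset.mem_univ j)
  subst hm0
  simp [coeff_zero_eq_constantCoeff_apply]

theorem sub_C_constantCoeff_mem_ofList (r : ℕ) (c : A) (f : MvPowerSeries (Fin r) A) :
    f - C (constantCoeff f) ∈ Ideal.ofList (paramList r c) := by
  rw [ofList_paramList]
  exact Ideal.mem_sup_left (sub_C_constantCoeff_mem_span_X r f)

theorem C_mem_ofList_paramList (r : ℕ) (c : A) :
    (C c : MvPowerSeries (Fin r) A) ∈ Ideal.ofList (paramList r c) := by
  rw [ofList_paramList]
  exact Ideal.mem_sup_right (Ideal.subset_span rfl)

end Fermat.Agent.H2
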