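import Fermat.Prelude.Def_Algebra_PatchingDatum
import Fermat.Agent.H2.PatchMCM
import Fermat.Agent.H2.PatchRegularX
import Mathlib.RingTheory.MvPowerSeries.Equiv
import Mathlib.RingTheory.DiscreteValuationRing.Basic
import Mathlib.Algebra.Module.Torsion.Basic
import Mathlib.LinearAlgebra.FreeModule.Basic

set_option autoImplicit false

open MvPowerSeries RingTheory.Sequence

namespace Fermat.Agent.H2

section

variable {𝒪 : Type} [CommRing 𝒪]
    {r : ℕ} {R : Type} [CommRing R] [Algebra 𝒪 R]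
    {M : Type} [AddCommGroup M] [Module R M]
    (L : Algebra.PatchingLevel 𝒪 r R M ⊥)

/-- The twisted coordinate map `c ↦ ∑ i, φ (c i) • b i`. -/
noncomputable def patchTwist : (Fin L.d → MvPowerSeries (Fin r) 𝒪) →+ L.N where
  toFun c := ∑ i, L.φ (c i) • L.b i
  map_zero' := by simp
  map_add' c c' := by
    simp only [Pi.add_apply, map_add, add_smul, Finset.sum_add_distrib]

theorem patchTwist_apply (c : Fin L.d → MvPowerSeries (Fin r) 𝒪) :
    patchTwist L c = ∑ i, L.φ (c i) • L.b i := rfl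

theorem patchTwist_smul (f : MvPowerSeries (Fin r) 𝒪) (c : Fin L.d → MvPowerSeries (Fin r) 𝒪) :
    patchTwist L (f • c) = L.φ f • patchTwist L c := by
  simp only [patchTwist_apply, Pi.smul_apply, smul_eq_mul, map_mul, mul_smul, Finset.smul_sum]

theorem patchTwist_injective : Function.Injective (patchTwist L) := by
  rw [injective_iff_map_eq_zero]
  intro c hc
  have := (L.b_rel c).mp hc
  funext i
  simpa using this i

theorem patchTwist_surjective : Function.Surjective (patchTwist L) := by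
  intro x
  obtain ⟨c, hc⟩ := L.b_span x
  exact ⟨c, hc.symm⟩

/-- The twisted coordinate map as an additive equivalence. -/
noncomputable def patchTwistEquiv : (Fin L.d → MvPowerSeries (Fin r) 𝒪) ≃+ L.N :=
  AddEquiv.ofBijective (patchTwist L) ⟨patchTwist_injective L, patchTwist_surjective L⟩

theorem patchTwistEquiv_smul (f : MvPowerSeries (Fin r) 𝒪)
    (c : Fin L.d → MvPowerSeries (Fin r) 𝒪) :
    patchTwistEquiv L (f • c) = L.φ f • patchTwistEquiv L c :=
  patchTwist_smul L f c

theorem patch_finite : Module.Finite (MvPowerSeries (Fin r) 𝒪) L.N := by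
  rw [Module.finite_def, Submodule.fg_def]
  refine ⟨Set.range L.b, Set.finite_range L.b, ?_⟩
  rw [eq_top_iff]
  rintro x -
  obtain ⟨c, rfl⟩ := L.b_span x
  exact Submodule.sum_mem _ fun i _ =>
    Submodule.smul_mem _ _ (Submodule.subset_span (Set.mem_range_self i))

end

end Fermat.Agent.H2

namespace Fermat.Agent.H2

section

variable {𝒪 : Type} [CommRing 𝒪]
    {r : ℕ} {R : Type} [CommRing R] [Algebra 𝒪 R]
    {M : Type} [AddCommGroup M] [Module R M]
    (L : Algebra.PatchingLevel 𝒪 r R M ⊥)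

theorem patch_phi_C (a : 𝒪) : L.φ (C a) = C a := by
  have h := L.φ.commutes a
  rwa [MvPowerSeries.algebraMap_apply, Algebra.algebraMap_self, RingHom.id_apply] at h

theorem patch_isWeaklyRegular (c : 𝒪) (hc : IsSMulRegular 𝒪 c) :
    IsWeaklyRegular L.N ((paramList r c).map L.φ) := by
  have h1 : IsWeaklyRegular (MvPowerSeries (Fin r) 𝒪) (paramList r c) :=
    isWeaklyRegular_paramList r c hc
  have h2 : IsWeaklyRegular (Fin L.d → MvPowerSeries (Fin r) 𝒪) (paramList r c) :=
    ((TensorProduct.rid (MvPowerSeries (Fin r) 𝒪)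
      (Fin L.d → MvPowerSeries (Fin r) 𝒪)).isWeaklyRegular_congr _).mp
      (h1.isWeaklyRegular_lTensor (M₂ := Fin L.d → MvPowerSeries (Fin r) 𝒪))
  exact ((patchTwistEquiv L).isWeaklyRegular_congr
    (List.forall₂_map_right_iff.mpr
      (List.forall₂_same.mpr fun f _ x => patchTwistEquiv_smul L f x))).mp h2

theorem patch_phi_X_mem [IsLocalRing 𝒪] [Nontrivial M] (i : Fin r) :
    L.φ (X i) ∈ IsLocalRing.maximalIdeal (MvPowerSeries (Fin r) 𝒪) := by
  rw [IsLocalRing.mem_maximalIdeal, mem_nonunits_iff]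
  intro hu
  have h0 : L.ψ (L.φ (X i)) = 0 := L.ψ_φ_X i
  have hu' : IsUnit (L.ψ (L.φ (X i))) := hu.map L.ψ
  rw [h0, isUnit_zero_iff] at hu'
  have hR : Subsingleton R := subsingleton_of_zero_eq_one hu'
  have hM : Subsingleton M := Module.subsingleton R M
  exact not_subsingleton M hM

theorem patch_mem_maximalIdeal [IsLocalRing 𝒪] [Nontrivial M] (c : 𝒪)
    (hc : c ∈ IsLocalRing.maximalIdeal 𝒪) :
    ∀ y ∈ (paramList r c).map L.φ, y ∈ IsLocalRing.maximalIdeal (MvPowerSeries (Fin r) 𝒪) := by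
  intro y hy
  rw [List.mem_map] at hy
  obtain ⟨x, hx, rfl⟩ := hy
  unfold paramList at hx
  rw [List.mem_append] at hx
  rcases hx with hx | hx
  · rw [List.mem_map] at hx
    obtain ⟨i, -, rfl⟩ := hx
    exact patch_phi_X_mem L i
  · rw [List.mem_singleton] at hx
    subst hx
    rw [patch_phi_C, IsLocalRing.mem_maximalIdeal, mem_nonunits_iff,
      MvPowerSeries.isUnit_iff_constantCoeff]
    simpa using hc

end

end Fermat.Agent.H2

namespace Fermat.Agent.H2

section

variable {𝒪 : Type} [CommRing 𝒪] [IsDomain 𝒪] [IsDiscreteValuationRing 𝒪]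
    {r : ℕ} {R : Type} [CommRing R] [Algebra 𝒪 R]
    {M : Type} [AddCommGroup M] [Module R M]
    (L : Algebra.PatchingLevel 𝒪 r R M ⊥)

omit [IsDomain 𝒪] [IsDiscreteValuationRing 𝒪] in
theorem patch_phi_mem_ofList (c : 𝒪) (f : MvPowerSeries (Fin r) 𝒪)
    (hf : f ∈ Ideal.ofList (paramList r c)) :
    L.φ f ∈ Ideal.ofList ((paramList r c).map L.φ) := by
  have h := Ideal.mem_map_of_mem (L.φ : MvPowerSeries (Fin r) 𝒪 →+* MvPowerSeries (Fin r) 𝒪) hf
  rw [Ideal.map_ofList] at h
  exact h

theorem patch_isFiniteLength (c : 𝒪) (hmax : IsLocalRing.maximalIdeal 𝒪 = Ideal.span {c}) :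
    IsFiniteLength (MvPowerSeries (Fin r) 𝒪)
      (L.N ⧸ (Ideal.ofList ((paramList r c).map L.φ) •
        (⊤ : Submodule (MvPowerSeries (Fin r) 𝒪) L.N))) := by
  have := patch_finite L
  rw [isFiniteLength_iff_isNoetherian_isArtinian]
  refine ⟨inferInstance, ?_⟩
  set S : Submodule (MvPowerSeries (Fin r) 𝒪) L.N :=
    Ideal.ofList ((paramList r c).map L.φ) • (⊤ : Submodule (MvPowerSeries (Fin r) 𝒪) L.N)
    with hS
  let _ : Module 𝒪 (L.N ⧸ S) :=
    Module.compHom (L.N ⧸ S) (algebraMap 𝒪 (MvPowerSeries (Fin r) 𝒪))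
  have : IsScalarTower 𝒪 (MvPowerSeries (Fin r) 𝒪) (L.N ⧸ S) :=
    IsScalarTower.of_algebraMap_smul fun a x => rfl
  have hsmul : ∀ (a : 𝒪) (q : L.N ⧸ S), a • q = (C a : MvPowerSeries (Fin r) 𝒪) • q :=
    fun a q => rfl
  -- elements of the ideal kill the quotient
  have hkill : ∀ (f : MvPowerSeries (Fin r) 𝒪), f ∈ Ideal.ofList ((paramList r c).map L.φ) →
      ∀ x : L.N, S.mkQ (f • x) = 0 := by
    intro f hf x
    rw [Submodule.mkQ_apply, Submodule.Quotient.mk_eq_zero]
    exact Submodule.smul_mem_smul hf Submodule.mem_top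
  have hCc : (C c : MvPowerSeries (Fin r) 𝒪) ∈ Ideal.ofList ((paramList r c).map L.φ) := by
    have := patch_phi_mem_ofList L c (C c) (C_mem_ofList_paramList r c)
    rwa [patch_phi_C] at this
  have htors : Module.IsTorsionBySet 𝒪 (L.N ⧸ S) (IsLocalRing.maximalIdeal 𝒪 : Set 𝒪) := by
    intro q ⟨a, ha⟩
    obtain ⟨x, rfl⟩ := S.mkQ_surjective q
    have ha' : a ∈ Ideal.span {c} := hmax ▸ ha
    rw [Ideal.mem_span_singleton] at ha'
    obtain ⟨a', rfl⟩ := ha'
    show (c * a') • S.mkQ x = 0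
    rw [hsmul, ← map_smul, map_mul, mul_smul]
    exact hkill _ hCc _
  have hfin : Module.Finite 𝒪 (L.N ⧸ S) := by
    rw [Module.finite_def, Submodule.fg_def]
    refine ⟨Set.range (fun i => S.mkQ (L.b i)), Set.finite_range _, ?_⟩
    rw [eq_top_iff]
    rintro q -
    obtain ⟨x, rfl⟩ := S.mkQ_surjective q
    obtain ⟨cs, rfl⟩ := L.b_span x
    rw [map_sum]
    refine Submodule.sum_mem _ fun i _ => ?_
    have h1 : S.mkQ (L.φ (cs i) • L.b i) = (constantCoeff (cs i)) • S.mkQ (L.b i) := by
      rw [hsmul, ← map_smul, ← sub_eq_zero, ← map_sub, ← sub_smul]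
      apply hkill
      have := patch_phi_mem_ofList L c _ (sub_C_constantCoeff_mem_ofList r c (cs i))
      rwa [map_sub, patch_phi_C] at this
    rw [h1]
    exact Submodule.smul_mem _ _ (Submodule.subset_span (Set.mem_range_self i))
  have hss : IsSemisimpleModule 𝒪 (L.N ⧸ S) := by
    letI := htors.module
    letI : Field (𝒪 ⧸ IsLocalRing.maximalIdeal 𝒪) :=
      Ideal.Quotient.field (IsLocalRing.maximalIdeal 𝒪)
    exact htors.isSemisimpleModule_iff.mp inferInstance
  have hart : IsArtinian 𝒪 (L.N ⧸ S) := inferInstance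
  exact isArtinian_of_tower 𝒪 hart

end

end Fermat.Agent.H2

namespace Fermat.Agent.H2

section

variable {𝒪 : Type} [CommRing 𝒪] [IsDomain 𝒪] [IsDiscreteValuationRing 𝒪]
    {r : ℕ} {R : Type} [CommRing R] [Algebra 𝒪 R]
    {M : Type} [AddCommGroup M] [Module R M]
    (L : Algebra.PatchingLevel 𝒪 r R M ⊥)

/-- The patched module `N` is free over the power series ring. -/
theorem patch_free [Nontrivial M] : Module.Free (MvPowerSeries (Fin r) 𝒪) L.N := by
  obtain ⟨c, hc⟩ := IsDiscreteValuationRing.exists_irreducible 𝒪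
  have hmax : IsLocalRing.maximalIdeal 𝒪 = Ideal.span {c} := hc.maximalIdeal_eq
  have hc0 : c ≠ 0 := hc.ne_zero
  have hreg : IsSMulRegular 𝒪 c := by
    intro x y hxy
    exact mul_left_cancel₀ hc0 hxy
  have hcm : c ∈ IsLocalRing.maximalIdeal 𝒪 := by
    rw [hmax]; exact Ideal.subset_span rfl
  have := patch_finite L
  refine free_of_isWeaklyRegular_of_maximalIdeal_eq (paramList r c)
    (isRegular_paramList r c hreg hmax) (ofList_paramList_eq_maximalIdeal r c hmax) L.N
    ((paramList r c).map L.φ) (patch_isWeaklyRegular L c hreg)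
    (patch_mem_maximalIdeal L c hcm) (by simp) (patch_isFiniteLength L c hmax)

/-- Patching, descent step. -/
theorem patch_descent [Nontrivial M] :
    Module.Free R M ∧ Module.annihilator R M = ⊥ ∧
      RingHom.ker L.ψ = Ideal.span (Set.range fun i : Fin r => L.φ (MvPowerSeries.X i)) := by
  classical
  have hfin := patch_finite L
  have hfree := patch_free L
  set I : Ideal (MvPowerSeries (Fin r) 𝒪) :=
    Ideal.span (Set.range fun i : Fin r => L.φ (MvPowerSeries.X i)) with hI
  let e := Module.Free.chooseBasis (MvPowerSeries (Fin r) 𝒪) L.N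
  -- `N` is nontrivial
  have hN : Nontrivial L.N := by
    obtain ⟨m₁, m₂, hm⟩ := exists_pair_ne M
    obtain ⟨x₁, rfl⟩ := L.π_surjective m₁
    obtain ⟨x₂, rfl⟩ := L.π_surjective m₂
    exact ⟨x₁, x₂, fun h => hm (by rw [h])⟩
  obtain ⟨i₀⟩ : Nonempty (Module.Free.ChooseBasisIndex (MvPowerSeries (Fin r) 𝒪) L.N) :=
    inferInstance
  -- membership in `I • ⊤` in coordinates
  have hcoord : ∀ x : L.N, x ∈ I • (⊤ : Submodule (MvPowerSeries (Fin r) 𝒪) L.N) →
      ∀ i, e.repr x i ∈ I := by
    intro x hx i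
    rw [← e.span_eq, Submodule.mem_ideal_smul_span_iff_exists_sum] at hx
    obtain ⟨a, ha, rfl⟩ := hx
    have : e.repr (a.sum fun i c => c • e i) = a := by
      have h1 : (a.sum fun i c => c • e i) = Finsupp.linearCombination _ e a := rfl
      rw [h1, e.repr_linearCombination]
    rw [this]
    exact ha i
  have hI_le : I ≤ RingHom.ker L.ψ := by
    rw [hI, Ideal.span_le]
    rintro _ ⟨i, rfl⟩
    exact L.ψ_φ_X i
  have hπsum : ∀ (f : Module.Free.ChooseBasisIndex (MvPowerSeries (Fin r) 𝒪) L.N →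
      MvPowerSeries (Fin r) 𝒪), L.π (∑ i, f i • e i) = ∑ i, L.ψ (f i) • L.π (e i) := by
    intro f
    rw [map_sum]
    exact Finset.sum_congr rfl fun i _ => L.π_smul _ _
  have hker : RingHom.ker L.ψ = I := by
    apply le_antisymm _ hI_le
    intro f hf
    rw [RingHom.mem_ker] at hf
    have h1 : L.π (f • e i₀) = 0 := by rw [L.π_smul, hf, zero_smul]
    have h2 := hcoord _ ((L.ker_π _).mp h1) i₀
    simpa using h2
  -- linear independence and spanning of the images of the basis
  have hli : LinearIndependent R (fun i => L.π (e i)) := by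
    rw [Fintype.linearIndependent_iff]
    intro g hg i
    choose f hf using fun i => L.ψ_surjective (g i)
    have h1 : L.π (∑ i, f i • e i) = 0 := by
      rw [hπsum]
      simpa [hf] using hg
    have h2 := hcoord _ ((L.ker_π _).mp h1) i
    have h3 : e.repr (∑ i, f i • e i) i = f i := by
      simp [Finsupp.single_apply]
    rw [h3] at h2
    rw [← hf i]
    exact hI_le h2
  have hsp : ⊤ ≤ Submodule.span R (Set.range fun i => L.π (e i)) := by
    rintro m -
    obtain ⟨x, rfl⟩ := L.π_surjective m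
    have hx : x = ∑ i, e.repr x i • e i := (e.sum_repr x).symm
    rw [hx, hπsum]
    exact Submodule.sum_mem _ fun i _ =>
      Submodule.smul_mem _ _ (Submodule.subset_span (Set.mem_range_self i))
  have hMfree : Module.Free R M := Module.Free.of_basis (Module.Basis.mk hli hsp)
  refine ⟨hMfree, ?_, hker⟩
  rw [Module.annihilator_eq_bot]
  infer_instance

end

end Fermat.Agent.H2
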