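import Mathlib
import Fermat.Agent.H21.CocDefs
import Fermat.Agent.H98.S22_Primitive

/-!
# Existence of Eichler integrals and their coefficient functions (helper2, for S22)
-/

set_option autoImplicit false

noncomputable section

namespace Fermat.Agent.H2

open UpperHalfPlane CongruenceSubgroup Matrix.SpecialLinearGroup
open scoped MatrixGroups ModularForm Manifold
open Fermat.Agent.H21

/-- Primitives on the upper half plane of the coefficient functions of `f(z) (X - z Y)^w`. -/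
theorem exists_coeff_primitives (w : ℕ) (f : ℍ → ℂ) (hf : MDiff f) :
    ∃ g : ℕ → ℂ → ℂ, ∀ (j : ℕ) (z : ℂ), 0 < z.im →
      HasDerivAt (g j) (f (ofComplex z) * ((w.choose j : ℂ) * (-z) ^ (w - j))) z := by
  have hfd : DifferentiableOn ℂ (f ∘ ofComplex) {z : ℂ | 0 < z.im} :=
    UpperHalfPlane.mdifferentiable_iff.mp hf
  have key : ∀ j : ℕ, ∃ F : ℂ → ℂ, ∀ z : ℂ, 0 < z.im →
      HasDerivAt F (f (ofComplex z) * ((w.choose j : ℂ) * (-z) ^ (w - j))) z := by
    intro j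
    refine Fermat.Agent.H98.exists_primitive_uhp
      (fun z => f (ofComplex z) * ((w.choose j : ℂ) * (-z) ^ (w - j))) ?_
    refine DifferentiableOn.mul hfd ?_
    fun_prop
  choose g hg using key
  exact ⟨g, hg⟩

/-- The polynomial-valued function built from coefficient primitives is an Eichler integral. -/
theorem isEI_of_coeff_primitives (w : ℕ) (f : ℍ → ℂ) (g : ℕ → ℂ → ℂ)
    (hg : ∀ (j : ℕ) (z : ℂ), 0 < z.im →
      HasDerivAt (g j) (f (ofComplex z) * ((w.choose j : ℂ) * (-z) ^ (w - j))) z) :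
    IsEI w f (fun τ X Y => ∑ j ∈ Finset.range (w + 1), g j (τ : ℂ) * X ^ j * Y ^ (w - j)) := by
  intro X Y τ
  have h1 : HasDerivAt
      (fun z : ℂ => ∑ j ∈ Finset.range (w + 1), g j z * X ^ j * Y ^ (w - j))
      (∑ j ∈ Finset.range (w + 1),
        f τ * ((w.choose j : ℂ) * (-(τ : ℂ)) ^ (w - j)) * X ^ j * Y ^ (w - j)) (τ : ℂ) := by
    refine HasDerivAt.fun_sum fun j _ => ?_
    have h := hg j (τ : ℂ) τ.2
    rw [ofComplex_apply] at h
    exact (h.mul_const (X ^ j)).mul_const (Y ^ (w - j))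
  have h2 : (∑ j ∈ Finset.range (w + 1),
        f τ * ((w.choose j : ℂ) * (-(τ : ℂ)) ^ (w - j)) * X ^ j * Y ^ (w - j))
      = f τ * (X - (τ : ℂ) * Y) ^ w := by
    have e : X - (τ : ℂ) * Y = X + (-(τ : ℂ)) * Y := by ring
    rw [e, add_pow, Finset.mul_sum]
    refine Finset.sum_congr rfl fun j _ => ?_
    rw [mul_pow]
    ring
  rw [h2] at h1
  refine h1.congr_of_eventuallyEq ?_
  filter_upwards [isOpen_upperHalfPlaneSet.mem_nhds τ.2] with z hz
  simp only [ofComplex_apply_of_im_pos hz, UpperHalfPlane.coe_mk]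

theorem exists_isEI (w : ℕ) (f : ℍ → ℂ) (hf : MDiff f) :
    ∃ I : ℍ → ℂ → ℂ → ℂ, IsEI w f I ∧ ∀ τ, I τ ∈ poly ℂ w := by
  obtain ⟨g, hg⟩ := exists_coeff_primitives w f hf
  exact ⟨_, isEI_of_coeff_primitives w f g hg, fun τ => sum_mem_poly fun j => g j (τ : ℂ)⟩

theorem isEI_exists_coeff (w : ℕ) (f : ℍ → ℂ) (hf : MDiff f) (I : ℍ → ℂ → ℂ → ℂ)
    (h : IsEI w f I) (hP : ∀ τ, I τ ∈ poly ℂ w) :
    ∃ c : ℕ → ℂ → ℂ,
      (∀ (j : ℕ) (z : ℂ), 0 < z.im →
        HasDerivAt (c j) (f (ofComplex z) * ((w.choose j : ℂ) * (-z) ^ (w - j))) z) ∧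
      ∀ (τ : ℍ) (X Y : ℂ),
        I τ X Y = ∑ j ∈ Finset.range (w + 1), c j (τ : ℂ) * X ^ j * Y ^ (w - j) := by
  obtain ⟨g, hg⟩ := exists_coeff_primitives w f hf
  have h0 := isEI_of_coeff_primitives w f g hg
  obtain ⟨K, hK⟩ := IsEI.exists_const h0 h
  have hKmem : K ∈ poly ℂ w := by
    have e : K = I UpperHalfPlane.I -
        (fun X Y => ∑ j ∈ Finset.range (w + 1),
          g j ((UpperHalfPlane.I : ℍ) : ℂ) * X ^ j * Y ^ (w - j)) := by
      have := hK UpperHalfPlane.I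
      rw [this]
      simp
    rw [e]
    exact Submodule.sub_mem _ (hP _) (sum_mem_poly fun j => g j ((UpperHalfPlane.I : ℍ) : ℂ))
  obtain ⟨k, hk⟩ := poly_exists_coeff hKmem
  refine ⟨fun j z => g j z + k j, fun j z hz => (hg j z hz).add_const (k j), fun τ X Y => ?_⟩
  rw [hK τ]
  simp only [Pi.add_apply, hk X Y, ← Finset.sum_add_distrib]
  refine Finset.sum_congr rfl fun j _ => ?_
  ring

end Fermat.Agent.H2
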